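import Mathlib

/-!
# S55 / layer KC: a formal dictionary for finite-level cohomology of subgroups   (helper323)

For a group `G`, a normal subgroup `V`, a subgroup `H'` of `G ⧸ V` with preimage `U` in `G`, and a
representation `A` of `G`:

  `Hⁿ(H', Res_{H'} (A^V))  ≅  Hⁿ(U ⧸ (V ∩ U), (Res_U A)^{V ∩ U})`      (`resQuotIso_h323`)

(both sides are the cohomology of "the same" group acting on "the same" module `A^V`), together
with `Nat.card (U ⧸ V ∩ U) = Nat.card H'`.  Mathlib only.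
-/

set_option autoImplicit false

noncomputable section

namespace Fermat.Agent.S55.KC.H323

open groupCohomology CategoryTheory

variable {k G : Type} [CommRing k] [Group G]

section Group

variable (V : Subgroup G) [V.Normal] (H' : Subgroup (G ⧸ V))

/-- The preimage of `H' ≤ G ⧸ V` in `G`. -/
abbrev preimg_h323 : Subgroup G := H'.comap (QuotientGroup.mk' V)

lemma le_preimg_h323 : V ≤ preimg_h323 V H' := by
  intro v hv
  show QuotientGroup.mk' V v ∈ H'
  have h1 : QuotientGroup.mk' V v = 1 := (QuotientGroup.eq_one_iff v).2 hv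
  rw [h1]
  exact H'.one_mem

/-- The projection `U → H'`. -/
def toSub_h323 : ↥(preimg_h323 V H') →* ↥H' where
  toFun u := ⟨QuotientGroup.mk' V u.1, u.2⟩
  map_one' := rfl
  map_mul' _ _ := rfl

lemma toSub_h323_surjective : Function.Surjective (toSub_h323 V H') := by
  rintro ⟨x, hx⟩
  obtain ⟨g, rfl⟩ := QuotientGroup.mk'_surjective V x
  exact ⟨⟨g, hx⟩, rfl⟩

lemma toSub_h323_ker : (toSub_h323 V H').ker = V.subgroupOf (preimg_h323 V H') := by
  ext u
  rw [MonoidHom.mem_ker, Subgroup.mem_subgroupOf]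
  constructor
  · intro h
    have h1 : (QuotientGroup.mk' V (u : G) : G ⧸ V) = 1 := congrArg Subtype.val h
    exact (QuotientGroup.eq_one_iff _).1 h1
  · intro h
    exact Subtype.ext ((QuotientGroup.eq_one_iff (u : G)).2 h)

/-- `U ⧸ (V ∩ U) ≃* H'`. -/
def quotEquiv_h323 : (↥(preimg_h323 V H') ⧸ V.subgroupOf (preimg_h323 V H')) ≃* ↥H' :=
  (QuotientGroup.quotientMulEquivOfEq (toSub_h323_ker V H').symm).trans
    (QuotientGroup.quotientKerEquivOfSurjective (toSub_h323 V H') (toSub_h323_surjective V H'))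

lemma quotEquiv_h323_mk (u : ↥(preimg_h323 V H')) :
    quotEquiv_h323 V H' (QuotientGroup.mk u) = toSub_h323 V H' u := rfl

lemma card_quot_h323 :
    Nat.card (↥(preimg_h323 V H') ⧸ V.subgroupOf (preimg_h323 V H')) = Nat.card ↥H' :=
  Nat.card_congr (quotEquiv_h323 V H').toEquiv

end Group

section Rep

variable (A : Rep.{0, 0, 0} k G) (V : Subgroup G) [V.Normal] (H' : Subgroup (G ⧸ V))

/-- The source: `(Res_U A)^{V ∩ U}` as a representation of `U ⧸ (V ∩ U)`. -/
abbrev srcRep_h323 : Rep.{0, 0, 0} k (↥(preimg_h323 V H') ⧸ V.subgroupOf (preimg_h323 V H')) :=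
  (Rep.res (preimg_h323 V H').subtype A).quotientToInvariants (V.subgroupOf (preimg_h323 V H'))

/-- The target: `Res_{H'} (A^V)` as a representation of `H'`. -/
abbrev tgtRep_h323 : Rep.{0, 0, 0} k ↥H' :=
  Rep.res H'.subtype (A.quotientToInvariants V)

/-- The identity `(Res_U A)^{V ∩ U} → A^V`. -/
def srcToTgt_h323 : (srcRep_h323 A V H').V →ₗ[k] (tgtRep_h323 A V H').V where
  toFun a := ⟨a.1, fun v => a.2 ⟨⟨v.1, le_preimg_h323 V H' v.2⟩, v.2⟩⟩
  map_add' _ _ := rfl
  map_smul' _ _ := rfl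

/-- The identity `A^V → (Res_U A)^{V ∩ U}`. -/
def tgtToSrc_h323 : (tgtRep_h323 A V H').V →ₗ[k] (srcRep_h323 A V H').V where
  toFun a := ⟨a.1, fun v => a.2 ⟨v.1.1, v.2⟩⟩
  map_add' _ _ := rfl
  map_smul' _ _ := rfl

/-- `(Res_U A)^{V ∩ U} ≃ A^V`. -/
def srcEquivTgt_h323 : (srcRep_h323 A V H').V ≃ₗ[k] (tgtRep_h323 A V H').V where
  toLinearMap := srcToTgt_h323 A V H'
  invFun := tgtToSrc_h323 A V H'
  left_inv _ := rfl
  right_inv _ := rfl

lemma srcEquivTgt_h323_equivariant
    (g : ↥(preimg_h323 V H') ⧸ V.subgroupOf (preimg_h323 V H')) :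
    (srcEquivTgt_h323 A V H').toLinearMap ∘ₗ (srcRep_h323 A V H').ρ g =
      (tgtRep_h323 A V H').ρ (quotEquiv_h323 V H' g) ∘ₗ (srcEquivTgt_h323 A V H').toLinearMap := by
  induction g using QuotientGroup.induction_on with
  | H u =>
    refine LinearMap.ext fun a => ?_
    apply Subtype.ext
    rfl

/-- **The dictionary.**  `Hⁿ(U ⧸ (V ∩ U), (Res_U A)^{V ∩ U}) ≅ Hⁿ(H', Res_{H'} (A^V))`. -/
def resQuotIso_h323 (n : ℕ) :
    groupCohomology (srcRep_h323 A V H') n ≅ groupCohomology (tgtRep_h323 A V H') n :=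
  groupCohomology.mapIso (quotEquiv_h323 V H') (srcEquivTgt_h323 A V H')
    (srcEquivTgt_h323_equivariant A V H') n

end Rep

end Fermat.Agent.S55.KC.H323

end
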