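import Fermat.Agent.S55.KC.Spec
import Fermat.Agent.S55.KC.ResQuotH323
import Fermat.Agent.S55.KL.LocalH123H775
import Fermat.Agent.S55.KL.TransportH496
import Fermat.Agent.S55.KL.FormalH587

/-!
# S55 / layer KC, leaf KC-A1: `LocalClassFormationSpec`          (helper323, subtask 451)

`(G_{ℚ_q}, ℚ̄_qˣ)` is a class formation for the level system `localLevels q`.

Route.  A normal level `V = r⁻¹(G_F)` (`F/ℚ` finite) is `Gal(ℚ̄_q/E)` with `E = ℚ_q(ι β)`,
`F = ℚ(β)`, and `E/ℚ_q` is finite Galois; so `V` is a level of `KL.galLevels`.  For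
`H' ≤ G ⧸ V` with preimage `U`, layer KL (`KL.H775.local_h123_of`, on main, unconditional) gives
`H¹(U/V, (Ωˣ)^V) = 0` and `H²(U/V, (Ωˣ)^V) ≅ ℤ/[U : V]`; the formal dictionary
`resQuotIso_h323` translates to `H'`.
-/

set_option autoImplicit false
set_option linter.style.haveILetI false
set_option linter.unusedSectionVars false

noncomputable section

namespace Fermat.Agent.S55.KC.H323

open groupCohomology CategoryTheory ExtCitation Fermat.Agent.S55 Fermat.Agent.S55.PT

/-! ## Field theory: fixing a simple extension -/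

/-- `τ` fixes `K(a)` pointwise iff `τ a = a`. -/
lemma mem_fixingSubgroup_adjoin_h323 {K Ω : Type} [Field K] [Field Ω] [Algebra K Ω] (a : Ω)
    (τ : Ω ≃ₐ[K] Ω) :
    τ ∈ (IntermediateField.adjoin K {a}).fixingSubgroup ↔ τ a = a := by
  constructor
  · intro h
    exact (IntermediateField.mem_fixingSubgroup_iff _ _).1 h a
      (IntermediateField.subset_adjoin K _ (Set.mem_singleton a))
  · intro h
    rw [IntermediateField.mem_fixingSubgroup_iff]
    intro y hy
    have hle : IntermediateField.adjoin K {a} ≤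
        IntermediateField.fixedField (Subgroup.zpowers τ) := by
      rw [IntermediateField.adjoin_le_iff]
      rintro z hz
      rw [Set.mem_singleton_iff] at hz
      subst hz
      rintro ⟨σ, hσ⟩
      obtain ⟨n, rfl⟩ := Subgroup.mem_zpowers_iff.1 hσ
      show (τ ^ n) z = z
      have hfix : τ ∈ MulAction.stabilizer (Ω ≃ₐ[K] Ω) z := h
      exact (Subgroup.zpow_mem _ hfix n : _)
    exact hle hy ⟨τ, Subgroup.mem_zpowers τ⟩

/-- A finite-dimensional intermediate field is generated by one element. -/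
lemma exists_eq_adjoin_h323 {K Ω : Type} [Field K] [Field Ω] [Algebra K Ω] [CharZero K]
    (F : IntermediateField K Ω) [FiniteDimensional K F] :
    ∃ b : Ω, F = IntermediateField.adjoin K {b} := by
  obtain ⟨β, hβ⟩ := Field.exists_primitive_element K F
  refine ⟨(β : Ω), ?_⟩
  have h1 : IntermediateField.lift (IntermediateField.adjoin K {β}) =
      IntermediateField.adjoin K {(β : Ω)} := by
    rw [IntermediateField.lift_adjoin, Set.image_singleton]
  rw [← h1, hβ, IntermediateField.lift_top]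

/-! ## Local levels are Galois levels -/

section Levels

variable (q : ℕ) [Fact q.Prime]

/-- A pulled-back level `r⁻¹(G_F)` of `Gal(ℚ̄_q/ℚ_q)` is `Gal(ℚ̄_q/E)` for a finite extension
`E/ℚ_q`. -/
lemma exists_fixingSubgroup_eq_h323 (F : IntermediateField ℚ (AlgebraicClosure ℚ))
    [FiniteDimensional ℚ F] :
    ∃ E : IntermediateField ℚ_[q] (PadicAlgCl q), FiniteDimensional ℚ_[q] E ∧
      F.fixingSubgroup.comap (localGaloisToGlobal q) = E.fixingSubgroup := by
  obtain ⟨b, rfl⟩ := exists_eq_adjoin_h323 F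
  refine ⟨IntermediateField.adjoin ℚ_[q] {padicEmbedding q b},
    IntermediateField.adjoin.finiteDimensional (Algebra.IsIntegral.isIntegral _), ?_⟩
  ext τ
  rw [Subgroup.mem_comap, mem_fixingSubgroup_adjoin_h323, mem_fixingSubgroup_adjoin_h323,
    ← padicEmbedding_localGaloisToGlobal]
  exact ⟨fun h => congrArg _ h, fun h => (padicEmbedding q).injective h⟩

/-- A NORMAL pulled-back level is a level of `KL.galLevels`. -/
lemma mem_galLevels_h323 (V : Subgroup (PadicAlgCl q ≃ₐ[ℚ_[q]] PadicAlgCl q)) (hn : V.Normal)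
    (hV : ∃ F : IntermediateField ℚ (AlgebraicClosure ℚ),
      FiniteDimensional ℚ F ∧ V = F.fixingSubgroup.comap (localGaloisToGlobal q)) :
    V ∈ (KL.galLevels ℚ_[q] (PadicAlgCl q)).carrier := by
  obtain ⟨F, hF, rfl⟩ := hV
  haveI := hF
  obtain ⟨E, hE, hEq⟩ := exists_fixingSubgroup_eq_h323 q F
  haveI := hE
  rw [hEq] at hn ⊢
  haveI : IsGalois ℚ_[q] E := (InfiniteGalois.normal_iff_isGalois E).1 hn
  exact ⟨⟨E⟩, rfl⟩

end Levels

/-! ## The class formation property for `Gal(ℚ̄_q/ℚ_q)` -/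

section Main

variable (q : ℕ) [Fact q.Prime]

/-- KC-A1 for `Ω = PadicAlgCl q`, stated on the `AlgEquiv` group. -/
theorem classFormation_aux_h323
    (V : Subgroup (PadicAlgCl q ≃ₐ[ℚ_[q]] PadicAlgCl q)) [hn : V.Normal]
    (hV : ∃ F : IntermediateField ℚ (AlgebraicClosure ℚ),
      FiniteDimensional ℚ F ∧ V = F.fixingSubgroup.comap (localGaloisToGlobal q))
    (H' : Subgroup ((PadicAlgCl q ≃ₐ[ℚ_[q]] PadicAlgCl q) ⧸ V)) :
    Subsingleton (H1 (Rep.res H'.subtype
        ((KL.unitsOm ℚ_[q] (PadicAlgCl q)).quotientToInvariants V))) ∧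
      Nonempty (H2 (Rep.res H'.subtype
        ((KL.unitsOm ℚ_[q] (PadicAlgCl q)).quotientToInvariants V)) ≃+ ZMod (Nat.card H')) := by
  obtain ⟨h1, h2, -⟩ := KL.H775.local_h123_of KL.H496.transport KL.H587.openSubgroup
  have hmem : V ∈ (KL.galLevels ℚ_[q] (PadicAlgCl q)).carrier := mem_galLevels_h323 q V hn hV
  have hopen : (KL.galLevels ℚ_[q] (PadicAlgCl q)).IsOpen (preimg_h323 V H') :=
    ⟨V, hmem, le_preimg_h323 V H'⟩
  let lvl : ((KL.galLevels ℚ_[q] (PadicAlgCl q)).restrict (preimg_h323 V H')).Lvl :=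
    ⟨V.subgroupOf (preimg_h323 V H'), ⟨V, hmem, rfl⟩⟩
  have e1 := resQuotIso_h323 (KL.unitsOm ℚ_[q] (PadicAlgCl q)) V H' 1
  have e2 := resQuotIso_h323 (KL.unitsOm ℚ_[q] (PadicAlgCl q)) V H' 2
  refine ⟨?_, ?_⟩
  · haveI : Subsingleton (groupCohomology
        (srcRep_h323 (KL.unitsOm ℚ_[q] (PadicAlgCl q)) V H') 1) := h1 q (preimg_h323 V H') hopen lvl
    exact e1.symm.toLinearEquiv.toEquiv.subsingleton
  · obtain ⟨f⟩ := h2 q (preimg_h323 V H') hopen lvl
    have hcard : Nat.card (↥(preimg_h323 V H') ⧸ lvl.W) = Nat.card ↥H' := card_quot_h323 V H'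
    rw [hcard] at f
    exact ⟨e2.symm.toLinearEquiv.toAddEquiv.trans f⟩

end Main

/-- **KC-A1.**  `(G_{ℚ_q}, ℚ̄_qˣ)` is a class formation. -/
theorem localClassFormation : LocalClassFormationSpec := by
  intro q
  letI : Fact (q : ℕ).Prime := ⟨q.2⟩
  intro V hn hV H'
  exact @classFormation_aux_h323 (q : ℕ) _ V hn hV H'

end Fermat.Agent.S55.KC.H323

end
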