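import Fermat.Agent.S55.KC.Spec

/-!
# S55 / layer KC, block I: leaves KC-I0 (`IndKummerSpec`) and KC-I4' (`PUnboundedRelSpec`)

Owner: helper323 (subtask 448).

* `indKummer : IndKummerSpec` — `Ind_H = (G ⧸ H →₀ -)` preserves smoothness (for open `H`, normal
  levels cofinal), `p`-divisibility and Kummer embeddings.
* `pUnboundedRel : PUnboundedRelSpec` — if the `p`-parts of `[G : V]` are unbounded, so are those
  of `[H : V]`, for `H ≥ V₀` (automatically of finite index).

Reusable lemmas: `smul_coset_eq_h323`, `isSmooth_indR_h323` (any commutative ring `k`),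
`isPDivisible_finsupp_h323`, `isKummerEmb_ind_h323`.
-/

set_option autoImplicit false

noncomputable section

namespace Fermat.Agent.S55.KC.H323

open groupCohomology ExtCitation Fermat.Agent.S55.PT Fermat.Agent.S55.KC

variable {G : Type} [Group G]

/-! ## Smoothness -/

/-- A normal subgroup `V ≤ H` acts trivially on `G ⧸ H`. -/
lemma smul_coset_eq_h323 {H V : Subgroup G} [hV : V.Normal] (hVH : V ≤ H) {s : G} (hs : s ∈ V)
    (x : G ⧸ H) : s • x = x := by
  induction x using QuotientGroup.induction_on with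
  | H g =>
    rw [MulAction.Quotient.smul_mk, QuotientGroup.eq]
    apply hVH
    have h1 : (s • g)⁻¹ * g = g⁻¹ * s⁻¹ * g⁻¹⁻¹ := by
      rw [smul_eq_mul, mul_inv_rev, inv_inv]
    rw [h1]
    exact hV.conj_mem _ (V.inv_mem hs) _

/-- `Ind_H B` is smooth if `B` is, `H` is open and normal levels are cofinal
(cochain form, on `indActR`; any commutative ring `k`). -/
lemma exists_level_indActR_eq_h323 (L : LevelSys G) (hNC : L.NormalCofinal) {H : Subgroup G}
    (hH : IsOpenSub L H) {k : Type} [CommRing k] (B : Rep.{0, 0, 0} k G) (hB : L.IsSmooth B)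
    (a : (G ⧸ H) →₀ B) : ∃ U ∈ L.levels, ∀ s ∈ U, indActR H B s a = a := by
  obtain ⟨U₀, hU₀, hU₀H⟩ := hH
  obtain ⟨V, hV, hVU₀, hVn⟩ := hNC U₀ hU₀
  induction a using Finsupp.induction_linear with
  | zero => exact ⟨V, hV, fun s _ => map_zero _⟩
  | add a b ha hb =>
    obtain ⟨U₁, hU₁, h₁⟩ := ha
    obtain ⟨U₂, hU₂, h₂⟩ := hb
    obtain ⟨W, hW, hWle⟩ := L.directed U₁ hU₁ U₂ hU₂
    exact ⟨W, hW, fun s hs => by rw [map_add, h₁ s (hWle hs).1, h₂ s (hWle hs).2]⟩
  | single x b =>
    obtain ⟨U₁, hU₁, h₁⟩ := hB b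
    obtain ⟨W, hW, hWle⟩ := L.directed V hV U₁ hU₁
    refine ⟨W, hW, fun s hs => ?_⟩
    rw [indActR_single, h₁ s (hWle hs).2,
      smul_coset_eq_h323 (hVU₀.trans hU₀H) (hWle hs).1]

/-- `Ind_H B` is smooth if `B` is, `H` is open and normal levels are cofinal. -/
theorem isSmooth_indR_h323 (L : LevelSys G) (hNC : L.NormalCofinal) {H : Subgroup G}
    (hH : IsOpenSub L H) {k : Type} [CommRing k] (B : Rep.{0, 0, 0} k G) (hB : L.IsSmooth B) :
    L.IsSmooth (indR H B) :=
  fun a => exists_level_indActR_eq_h323 L hNC hH B hB a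

/-! ## `p`-divisibility -/

/-- Finitely supported functions with values in a `p`-divisible group form a `p`-divisible
group. -/
lemma isPDivisible_finsupp_h323 (p : ℕ) {X B : Type} [AddCommGroup B] (hB : IsPDivisible p B) :
    IsPDivisible p (X →₀ B) := by
  intro b
  induction b using Finsupp.induction_linear with
  | zero => exact ⟨0, smul_zero _⟩
  | add a b ha hb =>
    obtain ⟨c₁, h₁⟩ := ha
    obtain ⟨c₂, h₂⟩ := hb
    exact ⟨c₁ + c₂, by rw [smul_add, h₁, h₂]⟩
  | single x b =>
    obtain ⟨c, hc⟩ := hB b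
    exact ⟨Finsupp.single x c, by rw [Finsupp.smul_single, hc]⟩

/-! ## Kummer embeddings -/

/-- `Ind_H` of a Kummer embedding is a Kummer embedding. -/
theorem isKummerEmb_ind_h323 (p : ℕ) [Fact p.Prime] (M : Rep.{0, 0, 0} (ZMod p) G)
    (B : Rep.{0, 0, 0} ℤ G) (ι : M →+ B) (H : Subgroup G) (hK : IsKummerEmb p M B ι) :
    IsKummerEmb p (indRep H M) (indR H B) (indEmb p H M B ι) where
  injective := Finsupp.mapRange_injective ι (map_zero ι) hK.injective
  equivariant := by
    intro g m
    change Finsupp.mapRange.addMonoidHom ι (indAct H M g m) =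
      indActR H B g (Finsupp.mapRange.addMonoidHom ι m)
    induction m using Finsupp.induction_linear with
    | zero => simp
    | add a b ha hb => rw [map_add, map_add, map_add, map_add, ha, hb]
    | single x m =>
      rw [indAct_single, Finsupp.mapRange.addMonoidHom_apply, Finsupp.mapRange_single,
        Finsupp.mapRange.addMonoidHom_apply, Finsupp.mapRange_single, indActR_single,
        hK.equivariant]
  range_eq := by
    intro b
    change p • (b : (G ⧸ H) →₀ B) = 0 ↔ b ∈ Set.range (Finsupp.mapRange.addMonoidHom ι)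
    constructor
    · intro hb
      classical
      have hmem : ∀ y : B, p • y = 0 → ∃ m : M, ι m = y := fun y hy =>
        (hK.range_eq y).1 hy
      let f : B → M := fun y => if h : ∃ m : M, ι m = y then h.choose else 0
      have hf0 : f 0 = 0 := by
        have h : ∃ m : M, ι m = 0 := ⟨0, map_zero ι⟩
        have h2 : ι (f 0) = ι 0 := by
          simp only [f, dif_pos h, map_zero]
          exact h.choose_spec
        exact hK.injective h2
      have hfy : ∀ y : B, p • y = 0 → ι (f y) = y := by
        intro y hy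
        have h := hmem y hy
        simp only [f, dif_pos h]
        exact h.choose_spec
      refine ⟨Finsupp.mapRange f hf0 b, ?_⟩
      ext x
      rw [Finsupp.mapRange.addMonoidHom_apply, Finsupp.mapRange_apply, Finsupp.mapRange_apply]
      apply hfy
      have := DFunLike.congr_fun hb x
      simpa using this
    · rintro ⟨m, rfl⟩
      ext x
      rw [Finsupp.smul_apply, Finsupp.mapRange.addMonoidHom_apply, Finsupp.mapRange_apply,
        Finsupp.zero_apply]
      exact (hK.range_eq _).2 ⟨m x, rfl⟩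

/-! ## KC-I0 -/

/-- **KC-I0.**  `Ind_H` preserves smoothness, `p`-divisibility and Kummer embeddings. -/
theorem indKummer : IndKummerSpec := by
  intro G _ L p _ M B ι H hNC hH hsm hdiv hK
  exact ⟨isSmooth_indR_h323 L hNC hH B hsm, isPDivisible_finsupp_h323 p hdiv,
    isKummerEmb_ind_h323 p M B ι H hK⟩

/-! ## KC-I4' -/

/-- **KC-I4'.**  Unboundedness of the `p`-part of `[G : V]` implies that of `[H : V]`. -/
theorem pUnboundedRel : PUnboundedRelSpec := by
  intro G _ L p hp H V₀ hFI hV₀ hV₀H hunb m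
  have hV₀fi : V₀.FiniteIndex := hFI V₀ hV₀
  have hHne : H.index ≠ 0 := (Subgroup.finiteIndex_of_le hV₀H).index_ne_zero
  obtain ⟨V, hV, hVn, hVV₀, hdvd⟩ := hunb (m + padicValNat p H.index)
  refine ⟨V, hV, hVn, hVV₀, ?_⟩
  have hVfi : V.FiniteIndex := hFI V hV
  have hmul : V.relIndex H * H.index = V.index := Subgroup.relIndex_mul_index (hVV₀.trans hV₀H)
  have hrel : V.relIndex H ≠ 0 := by
    intro h
    apply hVfi.index_ne_zero
    rw [← hmul, h, zero_mul]
  rw [padicValNat_dvd_iff_le hrel]
  have h1 : m + padicValNat p H.index ≤ padicValNat p V.index :=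
    (padicValNat_dvd_iff_le hVfi.index_ne_zero).1 hdvd
  rw [← hmul, padicValNat.mul hrel hHne] at h1
  omega

end Fermat.Agent.S55.KC.H323

end
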