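import Fermat.Agent.S55.KC.IndShapiroH475
import Fermat.Agent.S55.T.All

/-!
# S55 / layer KC, leaf KC-I2 (helper475): class formation ⇒ weak class formation on `Ind_H A`

`CFAt A V` is the class formation property at one normal subgroup `V` of finite index
(`H¹(H', A^V) = 0`, `H²(H', A^V) ≅ ℤ/|H'|` for all `H' ≤ G ⧸ V`).  Consequences:

* `CFAt.h3` : `H³(H', A^V) = 0` (T5d + Tate's theorem `T.TateH3Spec`);
* `self_h1`, `self_h2`, `self_h3` : the groups `Hⁱ(G ⧸ V, A^V)`;
* `ind_h1`, `ind_h2`, `ind_h3` : the groups `Hⁱ(G ⧸ V, (Ind_H A)^V)` for `V ≤ H` (finite Shapiro);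
* `ind_h1rel` : `H¹(V ⧸ V', (Ind_H A)^{V'}) = 0` for `V' ≤ V ≤ H`.
-/

set_option autoImplicit false

open CategoryTheory groupCohomology

namespace Fermat.Agent.S55.KC.H475

open Fermat.Agent.S55.T

noncomputable section

lemma card_map_mk {G : Type} [Group G] (H V : Subgroup G) [V.Normal] :
    Nat.card (H.map (QuotientGroup.mk' V)) = V.relIndex H := by
  have h1 : ((QuotientGroup.mk' V).comp H.subtype).range = H.map (QuotientGroup.mk' V) := by
    rw [MonoidHom.range_comp, Subgroup.range_subtype]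
  have h2 : ((QuotientGroup.mk' V).comp H.subtype).ker = V.subgroupOf H := by
    rw [← MonoidHom.comap_ker, QuotientGroup.ker_mk']
    rfl
  rw [← h1, ← Subgroup.index_ker, h2]
  rfl

variable {G : Type} [Group G] (A : Rep.{0} ℤ G)

/-- The class formation property at one normal subgroup `V`. -/
def CFAt (V : Subgroup G) [V.Normal] : Prop :=
  ∀ H' : Subgroup (G ⧸ V),
    Subsingleton (H1 (Rep.res H'.subtype (A.quotientToInvariants V))) ∧
      Nonempty (H2 (Rep.res H'.subtype (A.quotientToInvariants V)) ≃+ ZMod (Nat.card H'))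

variable {A}

theorem CFAt.h3 {V : Subgroup G} [V.Normal] [Finite (G ⧸ V)] (hcf : CFAt A V)
    (H' : Subgroup (G ⧸ V)) :
    Subsingleton (groupCohomology (Rep.res H'.subtype (A.quotientToInvariants V)) 3) := by
  obtain ⟨⟨γ, hγ⟩, -⟩ := All.classModuleOfCyclic (G ⧸ V) (A.quotientToInvariants V)
    (fun K => by
      have := (hcf K).1
      exact ModuleCat.isZero_of_subsingleton _)
    (fun K => (hcf K).2)
  exact ModuleCat.subsingleton_of_isZero (All.tateH3 (G ⧸ V) (A.quotientToInvariants V) γ hγ H')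

/-! ### `H = G` -/

section self

variable {V : Subgroup G} [V.Normal] (hcf : CFAt A V)

include hcf

theorem self_h1 : Subsingleton (H1 (A.quotientToInvariants V)) := by
  have := (hcf ⊤).1
  exact (H53.topIso (A.quotientToInvariants V) 1).symm.toLinearEquiv.toEquiv.subsingleton

theorem self_h3 [Finite (G ⧸ V)] : Subsingleton (groupCohomology (A.quotientToInvariants V) 3) := by
  have := hcf.h3 ⊤
  exact (H53.topIso (A.quotientToInvariants V) 3).symm.toLinearEquiv.toEquiv.subsingleton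

theorem self_h2 : Nonempty (H2 (A.quotientToInvariants V) ≃+ ZMod V.index) := by
  obtain ⟨e⟩ := (hcf ⊤).2
  have hcard : Nat.card (⊤ : Subgroup (G ⧸ V)) = V.index := by
    rw [Subgroup.card_top, Subgroup.index_eq_card]
  exact ⟨((H53.topIso (A.quotientToInvariants V) 2).symm.toLinearEquiv.toAddEquiv.trans e).trans
    (ZMod.ringEquivCongr hcard).toAddEquiv⟩

end self

/-! ### general `H` -/

section ind

variable {H : Subgroup G} {ρ : IndRepr A H} [Finite (G ⧸ H)]
  (hρ : IsDiag A H ρ) {V : Subgroup G} [V.Normal] (hVH : V ≤ H)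
  (hcf : CFAt A V)

include hρ hVH hcf

theorem ind_h1 : Subsingleton (H1 (indQ A ρ V)) := by
  have := (hcf (H.map (QuotientGroup.mk' V))).1
  exact (shapiro_ind hρ V hVH 1).1.subsingleton

theorem ind_h3 [Finite (G ⧸ V)] : Subsingleton (groupCohomology (indQ A ρ V) 3) := by
  have := hcf.h3 (H.map (QuotientGroup.mk' V))
  exact (shapiro_ind hρ V hVH 3).1.subsingleton

theorem ind_h2 : Nonempty (H2 (indQ A ρ V) ≃+ ZMod (V.relIndex H)) := by
  obtain ⟨e⟩ := (hcf (H.map (QuotientGroup.mk' V))).2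
  exact ⟨((shapiroEquiv hρ V hVH 2).trans e).trans
    (ZMod.ringEquivCongr (card_map_mk H V)).toAddEquiv⟩

end ind

/-- `H¹(V ⧸ V', (Ind_H A)^{V'}) = 0` for normal subgroups `V' ≤ V ≤ H`. -/
theorem ind_h1rel {H : Subgroup G} {ρ : IndRepr A H} [Finite (G ⧸ H)]
    (hρ : IsDiag A H ρ) {V' : Subgroup G} [V'.Normal] {V : Subgroup G} [V.Normal]
    (hV'V : V' ≤ V) (hVH : V ≤ H) (hcf : CFAt A V') :
    Subsingleton (H1 (Rep.res (V.map (QuotientGroup.mk' V')).subtype (indQ A ρ V'))) :=
  subsingleton_res_ind hρ V' (hV'V.trans hVH) (V.map (QuotientGroup.mk' V'))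
    (fun _ x hg => smul_coset_eq V hVH (mem_of_mk_mem_map V' hV'V hg) x) 1
    (hcf (V.map (QuotientGroup.mk' V'))).1

end

end Fermat.Agent.S55.KC.H475
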