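import Fermat.Agent.S55.KC.Spec
import Fermat.Agent.S55.KC.CFAtH475

/-!
# S55 / layer KC, leaves KC-I2 and KC-I2' (helper475)

* `indWCF : IndWCFSpec` — a class formation induces a weak class formation on `Ind_H A`, with
  orders `[H : V]`;
* `selfWCF : SelfWCFSpec` — a class formation is a weak class formation, with orders `[G : V]`.

Both are unconditional (they use the landed `T`-layer: finite Shapiro in recognition form,
`T.All.classModuleOfCyclic`, `T.All.tateH3`, `T.H415.finiteProd`).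
-/

set_option autoImplicit false

open CategoryTheory groupCohomology

namespace Fermat.Agent.S55.KC.H475

open Fermat.Agent.S55.PT

lemma isDiag_indRhoR {G : Type} [Group G] (H : Subgroup G) (A : Rep.{0, 0, 0} ℤ G) :
    IsDiag A H (indRhoR H A) :=
  fun g x a => indActR_single H A g x a

lemma cfAt_of {G : Type} [Group G] {L : LevelSys G} {A : Rep.{0, 0, 0} ℤ G}
    (hcf : IsClassFormation L A) (V : Subgroup G) [V.Normal] (hV : V ∈ L.levels) : CFAt A V :=
  fun H' => hcf V hV H'

/-- **KC-I2'.** -/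
theorem selfWCF : SelfWCFSpec := by
  intro G _ L A V₀ hfin hcf _
  refine ⟨?_, ?_, ?_, ?_, ?_⟩
  · intro V _ hV _
    exact self_h1 (cfAt_of hcf V hV)
  · intro V' _ V _ hV' _ _ _
    exact (hcf V' hV' _).1
  · intro V _ hV _
    exact self_h2 (cfAt_of hcf V hV)
  · intro V _ hV _
    have := hfin V hV
    exact Nat.pos_of_ne_zero Subgroup.FiniteIndex.index_ne_zero
  · intro V _ hV _
    have := hfin V hV
    exact self_h3 (cfAt_of hcf V hV)

/-- **KC-I2.** -/
theorem indWCF : IndWCFSpec := by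
  intro G _ L A H V₀ hfin hcf hV₀ hV₀H
  have hfin₀ : V₀.FiniteIndex := hfin V₀ hV₀
  have hHfin : H.FiniteIndex := Subgroup.finiteIndex_of_le hV₀H
  have : Finite (G ⧸ H) := inferInstance
  refine ⟨?_, ?_, ?_, ?_, ?_⟩
  · intro V _ hV hVV₀
    exact ind_h1 (isDiag_indRhoR H A) (hVV₀.trans hV₀H) (cfAt_of hcf V hV)
  · intro V' _ V _ hV' _ hV'V hVV₀
    exact ind_h1rel (isDiag_indRhoR H A) hV'V (hVV₀.trans hV₀H) (cfAt_of hcf V' hV')
  · intro V _ hV hVV₀
    exact ind_h2 (isDiag_indRhoR H A) (hVV₀.trans hV₀H) (cfAt_of hcf V hV)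
  · intro V _ hV hVV₀
    have := hfin V hV
    have h1 : V.relIndex H ∣ V.index := Subgroup.relIndex_dvd_index_of_le (hVV₀.trans hV₀H)
    exact Nat.pos_of_ne_zero (fun h0 => Subgroup.FiniteIndex.index_ne_zero (H := V)
      (by rw [h0] at h1; exact Nat.eq_zero_of_zero_dvd h1))
  · intro V _ hV hVV₀
    have := hfin V hV
    exact ind_h3 (isDiag_indRhoR H A) (hVV₀.trans hV₀H) (cfAt_of hcf V hV)

end Fermat.Agent.S55.KC.H475
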