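import Fermat.Agent.S55.KC.Spec
import Fermat.Agent.S55.H321.QDict

/-!
# S55 / layer KC, block Q: `Q1Spec`, `Q2Spec`                               (helper321)

Thin wrappers around the Mathlib-only core `Fermat/Agent/S55/H321/QDict.lean`
(`q1_core`, `q2_core`).
-/

set_option autoImplicit false

namespace Fermat.Agent.S55.KC.H321

open groupCohomology Fermat.Agent.S55.KC

/-- **KC-Q1.**  `H¹(G ⧸ V, B^V) = 0` (Mathlib's `groupCohomology`) ⇒ `H1VanishAt V B`. -/
theorem q1 : Q1Spec := fun _ _ B V _ h1 f hf hat =>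
  Fermat.Agent.S55.H321.q1_core B V h1 f hf hat

/-- **KC-Q2.**  `H2At V B ≃+ H²(G ⧸ V, B^V)` (Mathlib's `groupCohomology`). -/
theorem q2 : Q2Spec := fun _ _ B V _ =>
  Fermat.Agent.S55.H321.q2_core B V (Z2At V B) (B2At V B) (fun _ => Iff.rfl) (fun _ => Iff.rfl)

end Fermat.Agent.S55.KC.H321
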