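import Fermat.Agent.S55.KC.Spec
import Fermat.Agent.S55.KL.H73.QInfCore

/-!
# S55, layer KC (architect helper53), leaf KC-QInf (subtask 447)              (helper73)

`qInf : QInfSpec` — injectivity of inflation `H²(G ⧸ V, B^V) → H²(G ⧸ V', B^{V'})` in cochain
form from `H¹(V ⧸ V', B^{V'}) = 0`.  The proof is the Mathlib-only core
`Fermat.Agent.S55.KL.H73.qInf_core` (direct cochain computation).
-/

set_option autoImplicit false

open CategoryTheory groupCohomology

namespace Fermat.Agent.S55.KC.H73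

/-- **KC-QInf.** -/
theorem qInf : QInfSpec := by
  intro G _ B V' _ V _ hle h1 f hf hcob
  obtain ⟨x, hx, hdx⟩ := hcob
  obtain ⟨y, hy, hdy⟩ := Fermat.Agent.S55.KL.H73.qInf_core B V' V hle h1 f hf.2 x hx hdx
  exact ⟨y, hy, hdy⟩

end Fermat.Agent.S55.KC.H73
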