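import Fermat.Agent.S55.KC.Spec

/-!
# S55 / layer KC, leaf KC-K2: `KummerH2Spec`          (helper53)

`|H²_lc(G, M)| = |H²_lc(G, B)[p]|` for a smooth `p`-divisible `B` with `H¹_lc(G, B) = 0` and a
Kummer embedding `ι : M → B` (`M ≅ B[p]`).  Cochain-level Kummer argument.

Reusable lemmas (any commutative ring `k`): `exists_level_fixing_finset`, `finite_range_of_isLC₁`,
`exists_level_fixing_values`, `d₁₂_isLC₂_of_smooth`, `d₀₁_isLC₁_of_smooth`.
-/

set_option autoImplicit false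
set_option linter.style.haveILetI false

noncomputable section

namespace Fermat.Agent.S55.KC.H53

open groupCohomology ExtCitation Fermat.Agent.S55.PT

variable {G : Type} [Group G] (L : LevelSys G)

section Smooth

variable {k : Type} [CommRing k] {B : Rep.{0, 0, 0} k G}

/-- A finite set of vectors of a smooth representation is fixed by a common level. -/
lemma exists_level_fixing_finset (hsm : L.IsSmooth B) (T : Finset B) :
    ∃ W ∈ L.levels, ∀ t ∈ T, ∀ s ∈ W, B.ρ s t = t := by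
  classical
  induction T using Finset.induction_on with
  | empty =>
    obtain ⟨U, hU⟩ := L.nonempty
    exact ⟨U, hU, by simp⟩
  | insert a T _ ih =>
    obtain ⟨W, hW, h⟩ := ih
    obtain ⟨U, hU, hUa⟩ := hsm a
    obtain ⟨V, hV, hle⟩ := L.directed U hU W hW
    refine ⟨V, hV, fun t ht s hs => ?_⟩
    rcases Finset.mem_insert.1 ht with rfl | ht
    · exact hUa s (hle hs).1
    · exact h t ht s (hle hs).2

/-- A level-constant function has finite range (levels have finite index). -/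
lemma finite_range_of_isLC₁ (hF : L.FiniteIndex) {X : Type*} {x : G → X} (hx : L.IsLC₁ x) :
    (Set.range x).Finite := by
  obtain ⟨U, hU, h⟩ := hx
  haveI := hF U hU
  have hsub : Set.range x ⊆ Set.range (fun q : G ⧸ U => x q.out) := by
    rintro _ ⟨g, rfl⟩
    refine ⟨(g : G ⧸ U), ?_⟩
    obtain ⟨s, hs⟩ := QuotientGroup.mk_out_eq_mul U g
    show x (Quotient.out (g : G ⧸ U)) = x g
    rw [hs]
    exact h g s s.2
  exact (Set.finite_range _).subset hsub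

/-- The values of a level-constant cochain with values in a smooth representation are fixed by a
common level. -/
lemma exists_level_fixing_values (hF : L.FiniteIndex) (hsm : L.IsSmooth B) {x : G → B}
    (hx : L.IsLC₁ x) : ∃ W ∈ L.levels, ∀ g : G, ∀ s ∈ W, B.ρ s (x g) = x g := by
  obtain ⟨W, hW, h⟩ := exists_level_fixing_finset L hsm (finite_range_of_isLC₁ L hF hx).toFinset
  exact ⟨W, hW, fun g s hs => h (x g) (by simp) s hs⟩

/-- `d` of a level-constant 1-cochain with values in a smooth representation is level-constant. -/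
lemma d₁₂_isLC₂_of_smooth (hN : L.NormalCofinal) (hF : L.FiniteIndex) (hsm : L.IsSmooth B)
    {x : G → B} (hx : L.IsLC₁ x) : L.IsLC₂ ((d₁₂ B).hom x) := by
  obtain ⟨W, hW, hfix⟩ := exists_level_fixing_values L hF hsm hx
  obtain ⟨V, hV, hxV⟩ := hx
  obtain ⟨W', hW', hle⟩ := L.directed W hW V hV
  obtain ⟨N, hNl, hNW, hNn⟩ := hN W' hW'
  refine ⟨N, hNl, fun g g' s s' hs hs' => ?_⟩
  have hconj : g'⁻¹ * s * g' ∈ N := by
    have := hNn.conj_mem s hs g'⁻¹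
    simpa using this
  have hmem : g'⁻¹ * s * g' * s' ∈ V := (hle (hNW (N.mul_mem hconj hs'))).2
  have e1 : g * s * (g' * s') = g * g' * (g'⁻¹ * s * g' * s') := by group
  simp only [d₁₂_hom_apply]
  rw [e1, hxV (g * g') _ hmem, hxV g' s' (hle (hNW hs')).2, hxV g s (hle (hNW hs)).2, map_mul,
    Module.End.mul_apply, hfix g' s (hle (hNW hs)).1]

/-- `d₀₁ a` is level-constant if `B` is smooth. -/
lemma d₀₁_isLC₁_of_smooth (hsm : L.IsSmooth B) (a : B) : L.IsLC₁ ((d₀₁ B).hom a) := by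
  obtain ⟨U, hU, h⟩ := hsm a
  refine ⟨U, hU, fun g s hs => ?_⟩
  simp only [d₀₁_hom_apply, map_mul, Module.End.mul_apply, h s hs]

lemma IsLC₁.sub' {X : Type*} [Sub X] {f f' : G → X} (hf : L.IsLC₁ f) (hf' : L.IsLC₁ f') :
    L.IsLC₁ (f - f') := by
  obtain ⟨U, hU, h⟩ := hf
  obtain ⟨V, hV, h'⟩ := hf'
  obtain ⟨W, hW, hle⟩ := L.directed U hU V hV
  refine ⟨W, hW, fun g s hs => ?_⟩
  simp only [Pi.sub_apply]
  rw [h g s (hle hs).1, h' g s (hle hs).2]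

lemma IsLC₂.sub' {X : Type*} [Sub X] {f f' : G × G → X} (hf : L.IsLC₂ f) (hf' : L.IsLC₂ f') :
    L.IsLC₂ (f - f') := by
  obtain ⟨U, hU, h⟩ := hf
  obtain ⟨V, hV, h'⟩ := hf'
  obtain ⟨W, hW, hle⟩ := L.directed U hU V hV
  refine ⟨W, hW, fun g g' s s' hs hs' => ?_⟩
  simp only [Pi.sub_apply]
  rw [h g g' s s' (hle hs).1 (hle hs').1, h' g g' s s' (hle hs).2 (hle hs').2]

end Smooth

section Kummer

variable {p : ℕ} [Fact p.Prime] {M : Rep.{0, 0, 0} (ZMod p) G} {B : Rep.{0, 0, 0} ℤ G}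
  {ι : M →+ B}

lemma ι_d₀₁ (hι : IsKummerEmb p M B ι) (m : M) :
    (d₀₁ B).hom (ι m) = ι ∘ (d₀₁ M).hom m := by
  funext g
  simp only [d₀₁_hom_apply, Function.comp_apply, map_sub, hι.equivariant]

lemma ι_d₁₂ (hι : IsKummerEmb p M B ι) (x : G → M) :
    (d₁₂ B).hom (ι ∘ x) = ι ∘ (d₁₂ M).hom x := by
  funext ⟨g, h⟩
  simp only [d₁₂_hom_apply, Function.comp_apply, map_add, map_sub, hι.equivariant]

lemma ι_mem_cocycles₂_iff (hι : IsKummerEmb p M B ι) (c : G × G → M) :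
    ι ∘ c ∈ cocycles₂ B ↔ c ∈ cocycles₂ M := by
  rw [mem_cocycles₂_def, mem_cocycles₂_def]
  refine forall_congr' fun g => forall_congr' fun h => forall_congr' fun j => ?_
  simp only [Function.comp_apply, ← hι.equivariant, ← map_sub, ← map_add]
  exact ⟨fun h0 => hι.injective (by rw [h0, map_zero]), fun h0 => by rw [h0, map_zero]⟩

lemma isLC₁_of_ι (hι : IsKummerEmb p M B ι) {x : G → M} (hx : L.IsLC₁ (ι ∘ x)) : L.IsLC₁ x := by
  obtain ⟨U, hU, h⟩ := hx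
  exact ⟨U, hU, fun g s hs => hι.injective (h g s hs)⟩

lemma isLC₂_of_ι (hι : IsKummerEmb p M B ι) {x : G × G → M} (hx : L.IsLC₂ (ι ∘ x)) :
    L.IsLC₂ x := by
  obtain ⟨U, hU, h⟩ := hx
  exact ⟨U, hU, fun g g' s s' hs hs' => hι.injective (h g g' s s' hs hs')⟩

lemma p_nsmul_ι (m : M) : p • ι m = 0 := by
  rw [← map_nsmul, ZModModule.char_nsmul_eq_zero p m, map_zero]

/-- a function killed by `p` factors through `ι` -/
lemma exists_lift_of_p_nsmul_eq_zero (hι : IsKummerEmb p M B ι) {X : Type*} (f : X → B)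
    (hf : ∀ x, p • f x = 0) : ∃ f' : X → M, ι ∘ f' = f := by
  choose f' hf' using fun x => (hι.range_eq (f x)).1 (hf x)
  exact ⟨f', funext hf'⟩

/-- `ι ∘ c ∈ Z²_lc(B)` for `c ∈ Z²_lc(M)`. -/
lemma ι_mem_Z2 (hι : IsKummerEmb p M B ι) {c : G × G → M} (hc : c ∈ L.Z2 M) :
    ι ∘ c ∈ L.Z2 B :=
  ⟨(ι_mem_cocycles₂_iff hι c).2 hc.1, LevelSys.IsLC₂.comp hc.2 ι⟩

/-- `ι ∘ c ∈ B²_lc(B)` for `c ∈ B²_lc(M)`. -/
lemma ι_mem_B2 (hι : IsKummerEmb p M B ι) {c : G × G → M} (hc : c ∈ L.B2 M) :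
    ι ∘ c ∈ L.B2 B := by
  obtain ⟨x, hx, rfl⟩ := hc
  exact ⟨ι ∘ x, LevelSys.IsLC₁.comp hx ι, ι_d₁₂ hι x⟩

/-- (K-b) injectivity. -/
lemma mem_B2_of_ι_mem_B2 (hsm : L.IsSmooth B) (hdiv : IsPDivisible p B)
    (hι : IsKummerEmb p M B ι) (h1 : H1Vanish L B) {c : G × G → M} (hc : ι ∘ c ∈ L.B2 B) :
    c ∈ L.B2 M := by
  obtain ⟨b, hb, hbc⟩ := hc
  -- `p • b` is a level-constant 1-cocycle
  have hpb_coc : p • b ∈ cocycles₁ B := by
    show (d₁₂ B).hom (p • b) = 0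
    rw [map_nsmul, hbc]
    funext x
    simp only [Pi.smul_apply, Function.comp_apply]
    exact p_nsmul_ι (c x)
  have hpb_lc : L.IsLC₁ (p • b) := LevelSys.IsLC₁.comp hb (p • ·)
  obtain ⟨a₀, ha₀⟩ := h1 (p • b) hpb_coc hpb_lc
  obtain ⟨a₁, ha₁⟩ := hdiv a₀
  -- `b' = b - d a₁` is killed by `p`
  have hb' : ∀ g, p • (b - (d₀₁ B).hom a₁) g = 0 := by
    intro g
    have h2 : (d₀₁ B).hom a₀ g = (p • b) g := congrFun ha₀ g
    rw [← ha₁, map_nsmul] at h2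
    simp only [Pi.sub_apply, smul_sub]
    rw [sub_eq_zero]
    simpa using h2.symm
  obtain ⟨b'', hb''⟩ := exists_lift_of_p_nsmul_eq_zero hι _ hb'
  have hb''lc : L.IsLC₁ b'' := by
    apply isLC₁_of_ι L hι
    rw [hb'']
    exact IsLC₁.sub' L hb (d₀₁_isLC₁_of_smooth L hsm a₁)
  refine ⟨b'', hb''lc, ?_⟩
  show (d₁₂ M).hom b'' = c
  have : ι ∘ (d₁₂ M).hom b'' = ι ∘ c := by
    rw [← ι_d₁₂ hι, hb'', map_sub, hbc]
    have hdd : (d₁₂ B).hom ((d₀₁ B).hom a₁) = 0 := d₀₁_comp_d₁₂_apply B a₁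
    rw [hdd, sub_zero]
  funext x
  exact hι.injective (congrFun this x)

/-- (K-a) surjectivity onto the `p`-torsion. -/
lemma exists_of_p_nsmul_mem_B2 (hN : L.NormalCofinal) (hF : L.FiniteIndex) (hsm : L.IsSmooth B)
    (hdiv : IsPDivisible p B) (hι : IsKummerEmb p M B ι) {a : G × G → B} (ha : a ∈ L.Z2 B)
    (hpa : p • a ∈ L.B2 B) : ∃ m : G × G → M, m ∈ L.Z2 M ∧ ι ∘ m - a ∈ L.B2 B := by
  obtain ⟨b, hb, hba⟩ := hpa
  choose root hroot using hdiv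
  set b₁ : G → B := root ∘ b with hb₁
  have hb₁lc : L.IsLC₁ b₁ := LevelSys.IsLC₁.comp hb root
  have hpb₁ : p • b₁ = b := by
    funext g
    simp only [Pi.smul_apply, hb₁, Function.comp_apply, hroot]
  have hdlc : L.IsLC₂ ((d₁₂ B).hom b₁) := d₁₂_isLC₂_of_smooth L hN hF hsm hb₁lc
  have hkill : ∀ x, p • (a - (d₁₂ B).hom b₁) x = 0 := by
    intro x
    have h1 : (p • (a - (d₁₂ B).hom b₁)) = 0 := by
      rw [smul_sub, ← map_nsmul, hpb₁]
      exact sub_eq_zero.2 hba.symm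
    have := congrFun h1 x
    simpa using this
  obtain ⟨m, hm⟩ := exists_lift_of_p_nsmul_eq_zero hι _ hkill
  refine ⟨m, ⟨?_, ?_⟩, ?_⟩
  · refine (ι_mem_cocycles₂_iff hι m).1 ?_
    rw [hm]
    exact (cocycles₂ B).sub_mem ha.1 (d₁₂_apply_mem_cocycles₂ b₁)
  · apply isLC₂_of_ι L hι
    rw [hm]
    exact IsLC₂.sub' L ha.2 hdlc
  · rw [hm]
    have : a - (d₁₂ B).hom b₁ - a = (d₁₂ B).hom (-b₁) := by
      rw [map_neg]; abel
    rw [this]
    exact ⟨-b₁, (L.C1 B).neg_mem hb₁lc, rfl⟩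

/-- **KC-K2.** -/
theorem kummerH2 : KummerH2Spec := by
  intro G _ L p _ M B ι hN hF hsm hdiv hι h1
  classical
  -- representatives
  have hsurjM := L.H2π_surjective M
  choose rep hrep using hsurjM
  -- the map on classes
  have hker : ∀ c : ↥(L.Z2 M), p • L.H2π B ⟨ι ∘ c.1, ι_mem_Z2 L hι c.2⟩ = 0 := by
    intro c
    rw [← map_nsmul, LevelSys.H2π_eq_zero_iff]
    have : ((p • (⟨ι ∘ c.1, ι_mem_Z2 L hι c.2⟩ : ↥(L.Z2 B)) : ↥(L.Z2 B)) : G × G → B) = 0 := by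
      funext x
      show p • ι (c.1 x) = 0
      exact p_nsmul_ι (c.1 x)
    rw [this]
    exact (L.B2 B).zero_mem
  let Φ : L.H2 M → {x : L.H2 B // p • x = 0} := fun x =>
    ⟨L.H2π B ⟨ι ∘ (rep x).1, ι_mem_Z2 L hι (rep x).2⟩, hker (rep x)⟩
  have key : ∀ c c' : ↥(L.Z2 M),
      L.H2π B ⟨ι ∘ c.1, ι_mem_Z2 L hι c.2⟩ = L.H2π B ⟨ι ∘ c'.1, ι_mem_Z2 L hι c'.2⟩ ↔
        L.H2π M c = L.H2π M c' := by
    intro c c'
    rw [← sub_eq_zero, ← map_sub, LevelSys.H2π_eq_zero_iff, ← sub_eq_zero (a := L.H2π M c),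
      ← map_sub, LevelSys.H2π_eq_zero_iff]
    have e : ((⟨ι ∘ c.1, ι_mem_Z2 L hι c.2⟩ - ⟨ι ∘ c'.1, ι_mem_Z2 L hι c'.2⟩ : ↥(L.Z2 B)) :
        G × G → B) = ι ∘ ((c - c' : ↥(L.Z2 M)) : G × G → M) := by
      funext x
      show ι (c.1 x) - ι (c'.1 x) = ι (c.1 x - c'.1 x)
      rw [map_sub]
    rw [e]
    exact ⟨mem_B2_of_ι_mem_B2 L hsm hdiv hι h1, ι_mem_B2 L hι⟩
  have hΦ : Function.Bijective Φ := by
    constructor
    · intro x y hxy
      have h2 := (key (rep x) (rep y)).1 (congrArg Subtype.val hxy)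
      rw [hrep, hrep] at h2
      exact h2
    · rintro ⟨y, hy⟩
      obtain ⟨a, rfl⟩ := L.H2π_surjective B y
      have hpa : p • (a : G × G → B) ∈ L.B2 B := by
        rw [← map_nsmul, LevelSys.H2π_eq_zero_iff] at hy
        exact hy
      obtain ⟨m, hm, hma⟩ := exists_of_p_nsmul_mem_B2 L hN hF hsm hdiv hι a.2 hpa
      refine ⟨L.H2π M ⟨m, hm⟩, Subtype.ext ?_⟩
      show L.H2π B ⟨ι ∘ (rep (L.H2π M ⟨m, hm⟩)).1, _⟩ = L.H2π B a
      rw [(key (rep (L.H2π M ⟨m, hm⟩)) ⟨m, hm⟩).2 (hrep _), ← sub_eq_zero, ← map_sub,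
        LevelSys.H2π_eq_zero_iff]
      exact hma
  exact Nat.card_congr (Equiv.ofBijective Φ hΦ)

end Kummer

end Fermat.Agent.S55.KC.H53

end
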