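import Fermat.Agent.S55.KC.Defs

/-!
# S55 / layer KC (cochain-level Kummer machine; local A6/A4 and library for layer K): INTERFACE          (architect: helper53)

Blueprint with proofs: `coord/S55-KC.md` (branch `origin/helper53`).  Spec pattern: every statement
is a `def … : Prop`; producers prove `theorem foo : FooSpec`, consumers take hypotheses.
The assembly `leaves ⇒ outputs` is `KC/Assembly.lean`.

## Outputs (consumed by layer D, `PT/Spec.lean`, and by layer K)
`PT.FinLocSpec p S` (A2), `PT.Surj2LocSpec p S` (A4), `H2IndCardSpec`, `H2MuCardSpec`,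
`TopLocIndOfSpec` (A6 for every family of bijective `inv_v`).

## Leaves
* block P (level-constant cochains, elementary):
  `FinLocOfFrattiniSpec`, `Surj2OfH3Spec`, `H3DevissageSpec`, `TopLocIndOfSpec`;
* block K (Kummer theory for a `p`-divisible module, level-constant cochains):
  `KummerH2Spec`, `KummerH3Spec`;
* block D (dictionary level-constant ↔ finite level, cochain form):
  `H1VanishOfAtSpec`, `H3VanishOfAtSpec`, `H2OfAtSpec`;
* block Q (dictionary cochain form ↔ Mathlib's `groupCohomology` of `G ⧸ V`):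
  `Q1Spec`, `Q2Spec`, `Q3Spec`, `QInfSpec`;
* block I (induced modules): `IndKummerSpec`, `IndWCFSpec`, `SelfWCFSpec`, `PUnboundedRelSpec`;
* block A (arithmetic of `ℚ̄_q`): `LocalLevelsSpec`, `LocalClassFormationSpec`,
  `LocalKummerEmbSpec`, `LocalPUnboundedSpec`, `LocalFrattiniSpec`, `LocalMuSpec`.
-/

set_option autoImplicit false

noncomputable section

namespace Fermat.Agent.S55.KC

open groupCohomology ExtCitation Fermat.Agent.S55.PT

/-! ## Block P: level-constant cochains, elementary -/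

/-- **KC-P1.**  Finiteness of the `p`-Frattini quotients ⇒ `H¹_lc(G, N)` is finite-dimensional.
(A level-constant 1-cocycle `c` restricted to a level `U` acting trivially on `N` is additive, so
it kills the level `V ≤ U` of `PFrattiniFinite`; hence `c` is `V`-constant.) -/
def FinLocOfFrattiniSpec : Prop :=
  ∀ (G : Type) [Group G] (L : LevelSys G) (p : ℕ) [Fact p.Prime],
    L.FiniteIndex → PFrattiniFinite L p →
    ∀ N : Rep.{0, 0, 0} (ZMod p) G, FiniteDimensional (ZMod p) N → L.IsUSmooth N →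
      FiniteDimensional (ZMod p) (L.H1 N)

/-- **KC-P2.**  `H³_lc(G, R) = 0` for all finite `R` ⇒ `H²_lc(G, −)` is right exact.
(Lift a cocycle `n` to the cochain `ñ = sec ∘ n`; `d ñ` is a 3-cocycle with values in
`R = ker φ`; write `d ñ = d r`; then `ñ − r` is a cocycle lifting `n`.) -/
def Surj2OfH3Spec : Prop :=
  ∀ (G : Type) [Group G] (L : LevelSys G) (p : ℕ) [Fact p.Prime],
    L.NormalCofinal →
    (∀ R : Rep.{0, 0, 0} (ZMod p) G, FiniteDimensional (ZMod p) R → L.IsUSmooth R →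
      H3Vanish L R) →
    ∀ (P N : Rep.{0, 0, 0} (ZMod p) G) (φ : P →ₗ[ZMod p] N) (hφ : IsEquivariant φ),
      FiniteDimensional (ZMod p) P → L.IsUSmooth P → L.IsUSmooth N →
      Function.Surjective φ → Function.Surjective (pushH2 φ hφ L)

/-- **KC-P3.**  Dévissage: `H³_lc(G, Ind_H μ) = 0` for all open `H` acting trivially on the
one-dimensional `μ` ⇒ `H³_lc(G, R) = 0` for all finite `R`.
(`H` := preimage of a Sylow `p`-subgroup of `G ⧸ U₁`; `R → Ind_H R → R` is multiplication by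
`[G : H]`; `Ind_H R` is filtered with graded pieces `≅ k[G ⧸ H] ≅ Ind_H μ`.) -/
def H3DevissageSpec : Prop :=
  ∀ (G : Type) [Group G] (L : LevelSys G) (p : ℕ) [Fact p.Prime] (μ : Rep.{0, 0, 0} (ZMod p) G),
    L.NormalCofinal → L.FiniteIndex → Module.finrank (ZMod p) μ = 1 → L.IsUSmooth μ →
    (∀ H : Subgroup G, IsOpenSub L H → (∀ s ∈ H, μ.ρ s = 1) → H3Vanish L (indRep H μ)) →
    ∀ R : Rep.{0, 0, 0} (ZMod p) G, FiniteDimensional (ZMod p) R → L.IsUSmooth R →
      H3Vanish L R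

/-- **KC-P4.**  A6 from right exactness and the cardinality of `H²(G_v, Ind_W μ)`, for ANY
family of bijective maps `inv_v`. -/
def TopLocIndOfSpec : Prop :=
  ∀ (p : ℕ) [Fact p.Prime] (S : Finset Nat.Primes) (inv : InvFamily p S),
    (∀ v : ↥S, Function.Bijective (inv v)) →
    (∀ v : ↥S, (localLevels v.1).FiniteIndex) →
    Surj2LocSpec p S →
    (∀ (v : ↥S) (W : Subgroup (Gl v.1)), W ∈ (localLevels v.1).levels → W.Normal →
      (∀ s ∈ W, (muLoc p v.1).ρ s = 1) →
      Nat.card ((localLevels v.1).H2 (indRep W (muLoc p v.1))) = p) →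
    TopLocIndSpec inv

/-! ## Block K: Kummer theory at the level of level-constant cochains -/

/-- **KC-K2.**  `H²_lc(G, M) ≅ H²_lc(G, B)[p]` (only the cardinality is recorded), if `B` is
smooth and `p`-divisible, `M ≅ B[p]` and `H¹_lc(G, B) = 0`. -/
def KummerH2Spec : Prop :=
  ∀ (G : Type) [Group G] (L : LevelSys G) (p : ℕ) [Fact p.Prime]
    (M : Rep.{0, 0, 0} (ZMod p) G) (B : Rep.{0, 0, 0} ℤ G) (ι : M →+ B),
    L.NormalCofinal → L.FiniteIndex → L.IsSmooth B → IsPDivisible p B → IsKummerEmb p M B ι →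
    H1Vanish L B →
    Nat.card (L.H2 M) = Nat.card {x : L.H2 B // p • x = 0}

/-- **KC-K3.**  `H³_lc(G, M) = 0` if `B` is smooth and `p`-divisible, `M ≅ B[p]`,
`H³_lc(G, B) = 0` and `H²_lc(G, B)` is `p`-divisible. -/
def KummerH3Spec : Prop :=
  ∀ (G : Type) [Group G] (L : LevelSys G) (p : ℕ) [Fact p.Prime]
    (M : Rep.{0, 0, 0} (ZMod p) G) (B : Rep.{0, 0, 0} ℤ G) (ι : M →+ B),
    L.NormalCofinal → L.FiniteIndex → L.IsSmooth B → IsPDivisible p B → IsKummerEmb p M B ι →
    H3Vanish L B → H2Divisible L p B →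
    H3Vanish L M

/-! ## Block D: dictionary level-constant ↔ finite level (cochain form) -/

/-- **KC-D1.**  `H¹(G ⧸ V, B^V) = 0` for all normal levels `V ≤ V₀` ⇒ `H¹_lc(G, B) = 0`. -/
def H1VanishOfAtSpec : Prop :=
  ∀ (G : Type) [Group G] (L : LevelSys G) (B : Rep.{0, 0, 0} ℤ G) (V₀ : Subgroup G),
    L.NormalCofinal → V₀ ∈ L.levels →
    (∀ V : Subgroup G, V ∈ L.levels → V.Normal → V ≤ V₀ → H1VanishAt V B) →
    H1Vanish L B

/-- **KC-D3.**  `H³(G ⧸ V, B^V) = 0` for all normal levels `V ≤ V₀` ⇒ `H³_lc(G, B) = 0`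
(`B` smooth, levels of finite index). -/
def H3VanishOfAtSpec : Prop :=
  ∀ (G : Type) [Group G] (L : LevelSys G) (B : Rep.{0, 0, 0} ℤ G) (V₀ : Subgroup G),
    L.NormalCofinal → L.FiniteIndex → L.IsSmooth B → V₀ ∈ L.levels →
    (∀ V : Subgroup G, V ∈ L.levels → V.Normal → V ≤ V₀ → H3VanishAt V B) →
    H3Vanish L B

/-- **KC-D2.**  If at every normal level `V ≤ V₀` the group `H²(G ⧸ V, B^V)` is cyclic of order
`n(V)`, inflation is injective, and the `p`-parts of the `n(V)` are unbounded, then `H²_lc(G, B)`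
is `p`-divisible and its `p`-torsion has exactly `p` elements. -/
def H2OfAtSpec : Prop :=
  ∀ (G : Type) [Group G] (L : LevelSys G) (p : ℕ) [Fact p.Prime] (B : Rep.{0, 0, 0} ℤ G)
    (V₀ : Subgroup G) (n : Subgroup G → ℕ),
    L.NormalCofinal → L.FiniteIndex → L.IsSmooth B → V₀ ∈ L.levels →
    (∀ V : Subgroup G, V ∈ L.levels → V.Normal → V ≤ V₀ →
      0 < n V ∧ Nonempty (H2At V B ≃+ ZMod (n V))) →
    (∀ V' V : Subgroup G, V' ∈ L.levels → V'.Normal → V ∈ L.levels → V.Normal → V' ≤ V →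
      V ≤ V₀ → ∀ f ∈ Z2At V B, IsCobAt₂ V' B f → IsCobAt₂ V B f) →
    PUnbounded L p V₀ n →
    H2Divisible L p B ∧ Nat.card {x : L.H2 B // p • x = 0} = p

/-! ## Block Q: dictionary cochain form ↔ Mathlib's `groupCohomology` of `G ⧸ V` -/

/-- **KC-Q1.** -/
def Q1Spec : Prop :=
  ∀ (G : Type) [Group G] (B : Rep.{0, 0, 0} ℤ G) (V : Subgroup G) [V.Normal],
    Subsingleton (H1 (B.quotientToInvariants V)) → H1VanishAt V B

/-- **KC-Q2.** -/
def Q2Spec : Prop :=
  ∀ (G : Type) [Group G] (B : Rep.{0, 0, 0} ℤ G) (V : Subgroup G) [V.Normal],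
    Nonempty (H2At V B ≃+ H2 (B.quotientToInvariants V))

/-- **KC-Q3.** -/
def Q3Spec : Prop :=
  ∀ (G : Type) [Group G] (B : Rep.{0, 0, 0} ℤ G) (V : Subgroup G) [V.Normal],
    Subsingleton (groupCohomology (B.quotientToInvariants V) 3) → H3VanishAt V B

/-- **KC-QInf.**  Injectivity of inflation `H²(G ⧸ V, B^V) → H²(G ⧸ V', B^{V'})` (cochain form)
from `H¹(V ⧸ V', B^{V'}) = 0`  (inflation–restriction in degree 2; cf. `T.InfRes2Spec`). -/
def QInfSpec : Prop :=
  ∀ (G : Type) [Group G] (B : Rep.{0, 0, 0} ℤ G) (V' : Subgroup G) [V'.Normal]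
    (V : Subgroup G) [V.Normal], V' ≤ V →
    Subsingleton (H1 (Rep.res (V.map (QuotientGroup.mk' V')).subtype
      (B.quotientToInvariants V'))) →
    ∀ f ∈ Z2At V B, IsCobAt₂ V' B f → IsCobAt₂ V B f

/-! ## Block I: induced modules -/

/-- **KC-I0.**  `Ind_H` preserves smoothness, `p`-divisibility and Kummer embeddings. -/
def IndKummerSpec : Prop :=
  ∀ (G : Type) [Group G] (L : LevelSys G) (p : ℕ) [Fact p.Prime]
    (M : Rep.{0, 0, 0} (ZMod p) G) (B : Rep.{0, 0, 0} ℤ G) (ι : M →+ B) (H : Subgroup G),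
    L.NormalCofinal → IsOpenSub L H → L.IsSmooth B → IsPDivisible p B → IsKummerEmb p M B ι →
    L.IsSmooth (indR H B) ∧ IsPDivisible p (indR H B) ∧
      IsKummerEmb p (indRep H M) (indR H B) (indEmb p H M B ι)

/-- **KC-I2.**  A class formation induces a weak class formation on `Ind_H A` with orders
`n(V) = [H : V]`  (finite Shapiro `T.ShapiroRecognitionSpec`, `T.ClassModuleOfCyclicSpec`,
`T.TateH3Spec`; `V ≤ H` normal in `G` acts trivially on `G ⧸ H`). -/
def IndWCFSpec : Prop :=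
  ∀ (G : Type) [Group G] (L : LevelSys G) (A : Rep.{0, 0, 0} ℤ G) (H V₀ : Subgroup G),
    L.FiniteIndex → IsClassFormation L A → V₀ ∈ L.levels → V₀ ≤ H →
    IsWCF L (indR H A) V₀ (fun V => V.relIndex H)

/-- **KC-I2'.**  A class formation is a weak class formation with orders `n(V) = [G : V]`. -/
def SelfWCFSpec : Prop :=
  ∀ (G : Type) [Group G] (L : LevelSys G) (A : Rep.{0, 0, 0} ℤ G) (V₀ : Subgroup G),
    L.FiniteIndex → IsClassFormation L A → V₀ ∈ L.levels →
    IsWCF L A V₀ (fun V => V.index)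

/-- **KC-I4'.**  Unboundedness of the `p`-part of `[G : V]` implies that of `[H : V]`,
`H` of finite index. -/
def PUnboundedRelSpec : Prop :=
  ∀ (G : Type) [Group G] (L : LevelSys G) (p : ℕ) [Fact p.Prime] (H V₀ : Subgroup G),
    L.FiniteIndex → V₀ ∈ L.levels → V₀ ≤ H →
    PUnbounded L p V₀ (fun V => V.index) → PUnbounded L p V₀ (fun V => V.relIndex H)

/-! ## Block A: arithmetic of `ℚ̄_q` -/

/-- **KC-A0.**  The local level systems: normal levels are cofinal, levels have finite index. -/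
def LocalLevelsSpec : Prop :=
  ∀ q : Nat.Primes, (localLevels q).NormalCofinal ∧ (localLevels q).FiniteIndex

/-- **KC-A1.**  `(G_{ℚ_q}, ℚ̄_qˣ)` is a class formation
(from `L.ClassModuleSpec`, `L.PadicExtInstSpec`, Krasner/B-layer: for a normal level `V` with
fixed field `E`, `(G ⧸ V, (ℚ̄_qˣ)^V) ≅ (Gal(E/ℚ_q), Eˣ)`). -/
def LocalClassFormationSpec : Prop :=
  ∀ q : Nat.Primes, IsClassFormation (localLevels q) (unitsA q)

/-- **KC-A2.**  `ℚ̄_qˣ` is smooth and `p`-divisible, and `μ_p` (with the action through the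
cyclotomic character, `PT.muLoc`) embeds onto its `p`-torsion. -/
def LocalKummerEmbSpec : Prop :=
  ∀ (p : ℕ) [Fact p.Prime] (q : Nat.Primes),
    (localLevels q).IsSmooth (unitsA q) ∧ IsPDivisible p (unitsA q) ∧
      ∃ ι : muLoc p q →+ unitsA q, IsKummerEmb p (muLoc p q) (unitsA q) ι

/-- **KC-A3.**  The `p`-part of `[G_{ℚ_q} : V]` is unbounded (e.g. `V = r⁻¹ G_{ℚ(ζ_{p^m})}`). -/
def LocalPUnboundedSpec : Prop :=
  ∀ (p : ℕ) [Fact p.Prime] (q : Nat.Primes) (V₀ : Subgroup (Gl q)),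
    V₀ ∈ (localLevels q).levels → PUnbounded (localLevels q) p V₀ (fun V => V.index)

/-- **KC-A4.**  Every open subgroup of `G_{ℚ_q}` has only finitely many open subgroups of
index `p`  (Kummer theory over `E(μ_p)` + finiteness of `Eˣ/(Eˣ)^p`). -/
def LocalFrattiniSpec : Prop :=
  ∀ (p : ℕ) [Fact p.Prime] (q : Nat.Primes), PFrattiniFinite (localLevels q) p

/-- **KC-A5.**  `μ = muLoc p q` is one-dimensional and uniformly smooth. -/
def LocalMuSpec : Prop :=
  ∀ (p : ℕ) [Fact p.Prime] (q : Nat.Primes),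
    Module.finrank (ZMod p) (muLoc p q) = 1 ∧ (localLevels q).IsUSmooth (muLoc p q)

/-! ## Outputs -/

/-- `|H²(G_q, Ind_W μ_p)| = p` for every open subgroup `W` acting trivially on `μ_p`. -/
def H2IndCardSpec : Prop :=
  ∀ (p : ℕ) [Fact p.Prime] (q : Nat.Primes) (W : Subgroup (Gl q)),
    IsOpenSub (localLevels q) W → (∀ s ∈ W, (muLoc p q).ρ s = 1) →
    Nat.card ((localLevels q).H2 (indRep W (muLoc p q))) = p

/-- `|H²(G_q, μ_p)| = p`. -/
def H2MuCardSpec : Prop :=
  ∀ (p : ℕ) [Fact p.Prime] (q : Nat.Primes), Nat.card ((localLevels q).H2 (muLoc p q)) = p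

/-- `H³_lc(G_q, R) = 0` for all finite `R` (`cd_p(G_{ℚ_q}) ≤ 2`). -/
def LocalH3VanishSpec : Prop :=
  ∀ (p : ℕ) [Fact p.Prime] (q : Nat.Primes) (R : Rep.{0, 0, 0} (ZMod p) (Gl q)),
    FiniteDimensional (ZMod p) R → (localLevels q).IsUSmooth R → H3Vanish (localLevels q) R

end Fermat.Agent.S55.KC

end
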