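import Fermat.Agent.S55.KC.Spec
import Fermat.Agent.S55.KL.FinLocCoreH539

/-!
# S55 / layer KC, leaf KC-P1: `FinLocOfFrattiniSpec`

Wrapper around `KL/FinLocCoreH539.lean` (which imports only `PT/Levels.lean`).
-/

set_option autoImplicit false
set_option linter.style.haveILetI false

namespace Fermat.Agent.S55.KC.H539

open groupCohomology Fermat.Agent.S55.PT

/-- **KC-P1.** -/
theorem finLocOfFrattini : FinLocOfFrattiniSpec := by
  intro G _ L p _ hFI hFr N hfd hN
  haveI := hfd
  exact KL.H539.finiteDimensional_H1_of_frattini L hFI hFr N hN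

end Fermat.Agent.S55.KC.H539
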