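import Fermat.Agent.S55.KC.Spec

/-!
# S55 / layer KC (helper53), leaves KC-D1 and KC-D3                              (helper287)

* `h1VanishOfAt : H1VanishOfAtSpec` — `H¹(G ⧸ V, B^V) = 0` at the normal levels `V ≤ V₀`
  ⇒ `H¹_lc(G, B) = 0`;
* `h3VanishOfAt : H3VanishOfAtSpec` — `H³(G ⧸ V, B^V) = 0` at the normal levels `V ≤ V₀`
  ⇒ `H³_lc(G, B) = 0`.

Key point: a COCYCLE which is right-invariant under a NORMAL subgroup `V` automatically has
values in `B^V` (`isAt₁_of_cocycle`, `isAt₃_of_cocycle`), so neither smoothness nor finiteness of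
the index is used.
-/

set_option autoImplicit false

noncomputable section

namespace Fermat.Agent.S55.KC.H287

open groupCohomology Fermat.Agent.S55.PT

variable {G : Type} [Group G] {k : Type} [CommRing k]

/-- A 1-cocycle which is right-invariant under a NORMAL subgroup `V` has values in `B^V`. -/
lemma isAt₁_of_cocycle (B : Rep.{0, 0, 0} k G) (V : Subgroup G) (hVn : V.Normal)
    (f : G → B) (hf : f ∈ cocycles₁ B) (hinv : ∀ g s : G, s ∈ V → f (g * s) = f g) :
    IsAt₁ V B f := by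
  rw [mem_cocycles₁_iff] at hf
  have h1 : f 1 = 0 := by
    have := hf 1 1
    simp only [one_mul, map_one, Module.End.one_apply] at this
    have h : f 1 + 0 = f 1 + f 1 := by rw [add_zero]; exact this
    exact (add_left_cancel h).symm
  intro g s hs
  refine ⟨hinv g s hs, ?_⟩
  have h2 := hf s g
  have h3 : f (s * g) = f g := by
    have hc : g⁻¹ * s * g ∈ V := by
      have := hVn.conj_mem s hs g⁻¹
      simpa using this
    have := hinv g (g⁻¹ * s * g) hc
    rw [← this]
    congr 1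
    group
  have h4 : f s = 0 := by
    have := hinv 1 s hs
    rw [one_mul] at this
    rw [this, h1]
  rw [h3, h4] at h2
  rw [add_zero] at h2
  exact h2.symm

/-- A 3-cocycle which is right-invariant under a NORMAL subgroup `V` has values in `B^V`. -/
lemma isAt₃_of_cocycle (B : Rep.{0, 0, 0} k G) (V : Subgroup G) (hVn : V.Normal)
    (z : G × G × G → B) (hz : IsCocycle₃ B z)
    (hinv : ∀ g h i s t u : G, s ∈ V → t ∈ V → u ∈ V →
      z (g * s, h * t, i * u) = z (g, h, i)) : IsAt₃ V B z := by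
  intro g h i s t u hs ht hu
  refine ⟨hinv g h i s t u hs ht hu, ?_⟩
  have h1 := hz 1 g h i
  simp only [one_mul, map_one, Module.End.one_apply] at h1
  have h2 := hz s g h i
  have h3 : z (s * g, h, i) = z (g, h, i) := by
    have hc : g⁻¹ * s * g ∈ V := by
      have := hVn.conj_mem s hs g⁻¹
      simpa using this
    have := hinv g h i (g⁻¹ * s * g) 1 1 hc V.one_mem V.one_mem
    rw [mul_one, mul_one] at this
    rw [← this]
    congr 2
    group
  have h4 : ∀ x y : G, z (s, x, y) = z (1, x, y) := by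
    intro x y
    have := hinv 1 x y s 1 1 hs V.one_mem V.one_mem
    rw [one_mul, mul_one, mul_one] at this
    exact this
  rw [h3, h4, h4, h4] at h2
  have h5 : B.ρ s (z (g, h, i)) - z (g, h, i) = 0 := by
    have h6 : B.ρ s (z (g, h, i)) - z (g, h, i) =
        (B.ρ s (z (g, h, i)) - z (g, h, i) + z (1, g * h, i) - z (1, g, h * i) + z (1, g, h)) -
        (z (g, h, i) - z (g, h, i) + z (1, g * h, i) - z (1, g, h * i) + z (1, g, h)) := by
      abel
    rw [h6, h2, h1, sub_zero]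
  exact sub_eq_zero.1 h5

/-- **KC-D1.** -/
theorem h1VanishOfAt : H1VanishOfAtSpec := by
  intro G _ L B V₀ hNC hV₀ hAt f hf hfL
  obtain ⟨U, hU, hfU⟩ := hfL
  obtain ⟨W₁, hW₁, hW₁le⟩ := L.directed U hU V₀ hV₀
  obtain ⟨V, hV, hVle, hVn⟩ := hNC W₁ hW₁
  have hVV₀ : V ≤ V₀ := fun w hw => (hW₁le (hVle hw)).2
  have hVU : V ≤ U := fun w hw => (hW₁le (hVle hw)).1
  obtain ⟨a, -, ha⟩ := hAt V hV hVn hVV₀ f hf
    (isAt₁_of_cocycle B V hVn f hf (fun g s hs => hfU g s (hVU hs)))
  exact ⟨a, ha⟩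

/-- **KC-D3.** -/
theorem h3VanishOfAt : H3VanishOfAtSpec := by
  intro G _ L B V₀ hNC _ _ hV₀ hAt z hzL hz
  obtain ⟨U, hU, hzU⟩ := hzL
  obtain ⟨W₁, hW₁, hW₁le⟩ := L.directed U hU V₀ hV₀
  obtain ⟨V, hV, hVle, hVn⟩ := hNC W₁ hW₁
  have hVV₀ : V ≤ V₀ := fun w hw => (hW₁le (hVle hw)).2
  have hVU : V ≤ U := fun w hw => (hW₁le (hVle hw)).1
  obtain ⟨b, hb, hbz⟩ := hAt V hV hVn hVV₀ z
    (isAt₃_of_cocycle B V hVn z hz
      (fun g h i s t u hs ht hu => hzU g h i s t u (hVU hs) (hVU ht) (hVU hu))) hz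
  exact ⟨b, ⟨V, hV, fun g g' s s' hs hs' => (hb g g' s s' hs hs').1⟩, hbz⟩

end Fermat.Agent.S55.KC.H287

end
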