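import Mathlib

/-!
# S55 / layer KC, leaf KC-D2 (abstract part)                                   (helper287)

Pure group theory (Mathlib only): an additive commutative group `X` which is a directed union of
finite cyclic subgroups `S i` of orders `n i`, with unbounded `p`-parts, is `p`-divisible and has
exactly `p` elements killed by `p`.

* `exists_nsmul_eq_of_directed_cyclic` : `∀ x, ∃ y, p • y = x`;
* `card_torsion_of_directed_cyclic`    : `Nat.card {x : X // p • x = 0} = p`.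
-/

set_option autoImplicit false

namespace Fermat.Agent.S55.KC.H287

/-- In `ZMod N`, an element killed by `d > 0` is divisible by `p` as soon as `p ^ d ∣ N`. -/
lemma zmod_exists_nsmul_eq {N : ℕ} (p : ℕ) [Fact p.Prime] (d : ℕ) (hd : 0 < d)
    (hN : 0 < N) (hpN : p ^ d ∣ N) (c : ZMod N) (hc : d • c = 0) : ∃ y : ZMod N, p • y = c := by
  have : NeZero N := ⟨hN.ne'⟩
  have h1 : N ∣ d * c.val := by
    have : ((d * c.val : ℕ) : ZMod N) = 0 := by
      rw [Nat.cast_mul, ZMod.natCast_zmod_val, ← nsmul_eq_mul]; exact hc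
    exact (ZMod.natCast_eq_zero_iff _ _).1 this
  have h2 : p ^ d ∣ d * c.val := hpN.trans h1
  have h3 : p ∣ c.val := by
    by_contra hp
    have hcop : Nat.Coprime (p ^ d) c.val :=
      Nat.Coprime.pow_left d ((Nat.Prime.coprime_iff_not_dvd Fact.out).2 hp)
    have h4 : p ^ d ∣ d := hcop.dvd_of_dvd_mul_right h2
    have h5 := Nat.le_of_dvd hd h4
    have h6 := Nat.lt_pow_self (Fact.out : p.Prime).one_lt (n := d)
    omega
  obtain ⟨t, ht⟩ := h3
  refine ⟨(t : ZMod N), ?_⟩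
  rw [nsmul_eq_mul, ← Nat.cast_mul, ← ht, ZMod.natCast_zmod_val]

section

variable {X : Type*} [AddCommGroup X] (p : ℕ) [Fact p.Prime]
  {I : Type*} (S : I → AddSubgroup X) (n : I → ℕ)

/-- elements of a subgroup isomorphic to `ZMod n` are killed by `n` -/
lemma nsmul_eq_zero_of_mem {S₀ : AddSubgroup X} {n₀ : ℕ} (e : S₀ ≃+ ZMod n₀) {x : X}
    (hx : x ∈ S₀) : n₀ • x = 0 := by
  have h : e (n₀ • (⟨x, hx⟩ : S₀)) = 0 := by
    rw [map_nsmul, nsmul_eq_mul, ZMod.natCast_self, zero_mul]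
  have h' : n₀ • (⟨x, hx⟩ : S₀) = 0 := by
    apply e.injective
    rw [h, map_zero]
  simpa using congrArg (fun y : S₀ => (y : X)) h'

lemma card_of_equiv_zmod {S₀ : AddSubgroup X} {n₀ : ℕ} (e : S₀ ≃+ ZMod n₀) :
    Nat.card S₀ = n₀ := by
  rw [Nat.card_congr e.toEquiv, Nat.card_zmod]

variable {S n}

lemma dvd_of_le_of_equiv_zmod {i j : I} (hS : ∀ i, Nonempty (S i ≃+ ZMod (n i)))
    (h : S i ≤ S j) : n i ∣ n j := by
  obtain ⟨ei⟩ := hS i
  obtain ⟨ej⟩ := hS j
  rw [← card_of_equiv_zmod ei, ← card_of_equiv_zmod ej]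
  exact AddSubgroup.card_dvd_of_le h

/-- **Divisibility.**  A directed union of finite cyclic groups of orders `n i` with unbounded
`p`-parts is `p`-divisible. -/
theorem exists_nsmul_eq_of_directed_cyclic
    (hn : ∀ i, 0 < n i) (hS : ∀ i, Nonempty (S i ≃+ ZMod (n i)))
    (hdir : ∀ i j, ∃ k, S i ≤ S k ∧ S j ≤ S k)
    (hcov : ∀ x : X, ∃ i, x ∈ S i)
    (hunb : ∀ m : ℕ, ∃ i, p ^ m ∣ n i) (x : X) :
    ∃ y : X, p • y = x := by
  obtain ⟨i, hxi⟩ := hcov x
  obtain ⟨ei⟩ := hS i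
  obtain ⟨j, hj⟩ := hunb (n i)
  obtain ⟨k, hik, hjk⟩ := hdir i j
  obtain ⟨ek⟩ := hS k
  have hdvd : p ^ n i ∣ n k := hj.trans (dvd_of_le_of_equiv_zmod hS hjk)
  have hkill : n i • x = 0 := nsmul_eq_zero_of_mem ei hxi
  have hc : n i • ek ⟨x, hik hxi⟩ = 0 := by
    rw [← map_nsmul]
    have : n i • (⟨x, hik hxi⟩ : S k) = 0 := Subtype.ext (by simpa using hkill)
    rw [this, map_zero]
  obtain ⟨y, hy⟩ := zmod_exists_nsmul_eq p (n i) (hn i) (hn k) hdvd _ hc
  refine ⟨(ek.symm y : X), ?_⟩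
  have h1 : p • ek.symm y = ⟨x, hik hxi⟩ := by
    apply ek.injective
    rw [map_nsmul, AddEquiv.apply_symm_apply, hy]
  simpa using congrArg (fun z : S k => (z : X)) h1

end

/-- In `ZMod N`, every element killed by `p` is a multiple of any element of order `p`. -/
lemma zmod_mem_zmultiples_of_nsmul_eq_zero {N : ℕ} (hN : 0 < N) (p : ℕ) [Fact p.Prime]
    (g c : ZMod N) (hg : addOrderOf g = p) (hc : p • c = 0) :
    c ∈ AddSubgroup.zmultiples g := by
  have : NeZero N := ⟨hN.ne'⟩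
  classical
  have hT : (Finset.univ.filter (fun a : ZMod N => p • a = 0)).card ≤ p :=
    IsAddCyclic.card_nsmul_eq_zero_le (Fact.out : p.Prime).pos
  have hZT : (Finset.univ.filter (fun a : ZMod N => a ∈ AddSubgroup.zmultiples g)) ⊆
      (Finset.univ.filter (fun a : ZMod N => p • a = 0)) := by
    intro a ha
    rw [Finset.mem_filter] at ha ⊢
    refine ⟨Finset.mem_univ _, ?_⟩
    obtain ⟨t, rfl⟩ := AddSubgroup.mem_zmultiples_iff.1 ha.2
    rw [smul_comm, ← hg, addOrderOf_nsmul_eq_zero, smul_zero]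
  have hZ : (Finset.univ.filter (fun a : ZMod N => a ∈ AddSubgroup.zmultiples g)).card = p := by
    rw [← hg, ← Nat.card_zmultiples, Nat.card_eq_fintype_card, Fintype.card_subtype]
  have hEq := Finset.eq_of_subset_of_card_le hZT (by rw [hZ]; exact hT)
  have hcT : c ∈ Finset.univ.filter (fun a : ZMod N => p • a = 0) := by
    rw [Finset.mem_filter]; exact ⟨Finset.mem_univ _, hc⟩
  rw [← hEq, Finset.mem_filter] at hcT
  exact hcT.2

section

variable {X : Type*} [AddCommGroup X] (p : ℕ) [Fact p.Prime]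
  {I : Type*} {S : I → AddSubgroup X} {n : I → ℕ}

/-- **The `p`-torsion is cyclic of order `p`**: there is an element `g` of order `p` whose
multiples are exactly the elements killed by `p`. -/
theorem exists_generator_torsion_of_directed_cyclic
    (hn : ∀ i, 0 < n i) (hS : ∀ i, Nonempty (S i ≃+ ZMod (n i)))
    (hdir : ∀ i j, ∃ k, S i ≤ S k ∧ S j ≤ S k)
    (hcov : ∀ x : X, ∃ i, x ∈ S i)
    (hunb : ∀ m : ℕ, ∃ i, p ^ m ∣ n i) :
    ∃ g : X, addOrderOf g = p ∧ ∀ x : X, p • x = 0 ↔ x ∈ AddSubgroup.zmultiples g := by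
  have hp : p.Prime := Fact.out
  obtain ⟨i₁, hi₁⟩ := hunb 1
  rw [pow_one] at hi₁
  obtain ⟨e₁⟩ := hS i₁
  obtain ⟨N', hN'⟩ := hi₁
  have hNpos : 0 < n i₁ := hn i₁
  have hN'pos : 0 < N' := by
    rcases Nat.eq_zero_or_pos N' with h | h
    · rw [h, mul_zero] at hN'; omega
    · exact h
  have : NeZero (n i₁) := ⟨hNpos.ne'⟩
  -- the generator
  set c₁ : ZMod (n i₁) := ((N' : ℕ) : ZMod (n i₁)) with hc₁
  have hc₁0 : c₁ ≠ 0 := by
    intro h
    have h1 : n i₁ ∣ N' := (ZMod.natCast_eq_zero_iff _ _).1 h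
    have h2 := Nat.le_of_dvd hN'pos h1
    have h3 : N' < n i₁ := by
      rw [hN']
      have := hp.one_lt
      nlinarith
    omega
  have hc₁p : p • c₁ = 0 := by
    rw [hc₁, nsmul_eq_mul, ← Nat.cast_mul, ← hN', ZMod.natCast_self]
  set g : X := (e₁.symm c₁ : X) with hg
  have hgp : p • g = 0 := by
    have h1 : p • e₁.symm c₁ = 0 := by
      rw [← map_nsmul, hc₁p, map_zero]
    simpa using congrArg (fun z : S i₁ => (z : X)) h1
  have hg0 : g ≠ 0 := by
    intro h
    have h1 : e₁.symm c₁ = 0 := Subtype.ext (by rw [AddSubgroup.coe_zero]; exact h)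
    have h2 : c₁ = 0 := by
      have := congrArg e₁ h1
      simpa using this
    exact hc₁0 h2
  have hgord : addOrderOf g = p := addOrderOf_eq_prime hgp hg0
  have hgmem : g ∈ S i₁ := (e₁.symm c₁).2
  refine ⟨g, hgord, fun x => ⟨fun hx => ?_, fun hx => ?_⟩⟩
  · obtain ⟨i, hxi⟩ := hcov x
    obtain ⟨k, hik, h1k⟩ := hdir i i₁
    obtain ⟨ek⟩ := hS k
    have hord : addOrderOf (ek ⟨g, h1k hgmem⟩) = p := by
      have h1 : addOrderOf (⟨g, h1k hgmem⟩ : S k) = p := by
        rw [← hgord]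
        exact (addOrderOf_injective (S k).subtype Subtype.coe_injective ⟨g, h1k hgmem⟩).symm
      rw [← h1]
      exact addOrderOf_injective (ek : S k →+ ZMod (n k)) ek.injective _
    have hcx : p • ek ⟨x, hik hxi⟩ = 0 := by
      rw [← map_nsmul]
      have : p • (⟨x, hik hxi⟩ : S k) = 0 := Subtype.ext (by simpa using hx)
      rw [this, map_zero]
    obtain ⟨t, ht⟩ := AddSubgroup.mem_zmultiples_iff.1
      (zmod_mem_zmultiples_of_nsmul_eq_zero (hn k) p _ _ hord hcx)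
    refine AddSubgroup.mem_zmultiples_iff.2 ⟨t, ?_⟩
    have h2 : t • (⟨g, h1k hgmem⟩ : S k) = ⟨x, hik hxi⟩ := by
      apply ek.injective
      rw [map_zsmul, ht]
    simpa using congrArg (fun z : S k => (z : X)) h2
  · obtain ⟨t, rfl⟩ := AddSubgroup.mem_zmultiples_iff.1 hx
    rw [smul_comm, hgp, smul_zero]

/-- **The `p`-torsion has `p` elements.** -/
theorem card_torsion_of_directed_cyclic
    (hn : ∀ i, 0 < n i) (hS : ∀ i, Nonempty (S i ≃+ ZMod (n i)))
    (hdir : ∀ i j, ∃ k, S i ≤ S k ∧ S j ≤ S k)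
    (hcov : ∀ x : X, ∃ i, x ∈ S i)
    (hunb : ∀ m : ℕ, ∃ i, p ^ m ∣ n i) :
    Nat.card {x : X // p • x = 0} = p := by
  obtain ⟨g, hg, h⟩ := exists_generator_torsion_of_directed_cyclic p hn hS hdir hcov hunb
  rw [Nat.card_congr (Equiv.subtypeEquivRight h), Nat.card_zmultiples, hg]

end

end Fermat.Agent.S55.KC.H287
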