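import Fermat.Agent.S55.KC.Spec
import Fermat.Agent.S55.KC.CyclicUnionH287

/-!
# S55 / layer KC (helper53), leaf KC-D2: `h2OfAt : H2OfAtSpec`                   (helper287)

If at every normal level `V ≤ V₀` the group `H²(G ⧸ V, B^V)` (cochain form `H2At V B`) is cyclic
of order `n V`, inflation is injective and the `p`-parts of the `n V` are unbounded, then
`H²_lc(G, B)` is `p`-divisible and its `p`-torsion has exactly `p` elements.

Dictionary lemmas (reusable, all for a `PT.LevelSys`):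
* `finite_range_of_rightInv`, `exists_level_fixing_finset`;
* `exists_isAt₁`   : a level-constant 1-cochain with values in a smooth module is inflated from
  `(G ⧸ V, B^V)` for a normal level `V` below any given level;
* `isAt₂_of_cocycle` : a 2-cocycle right-invariant under a NORMAL subgroup `V` has values in `B^V`;
* `exists_mem_Z2At` : a level-constant 2-cocycle lies in `Z2At V B`, `V` normal level, arbitrarily
  small (no smoothness needed);
* `isCobAt₂_of_mem_B2` : a coboundary of a level-constant cochain which is inflated from level `V`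
  is a coboundary at level `V` (uses injectivity of inflation);
* `psi V : H2At V B →+ L.H2 B`, `psi_injective`, `range_psi_mono`, `exists_psi_eq`.
-/

set_option autoImplicit false

noncomputable section

namespace Fermat.Agent.S55.KC.H287

open groupCohomology Fermat.Agent.S55.PT

variable {G : Type} [Group G]

/-! ## 1. Finiteness of values, common levels -/

/-- A function on `G` which is right-invariant under a subgroup of finite index has finitely many
values. -/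
lemma finite_range_of_rightInv {X : Type*} (U : Subgroup G) [U.FiniteIndex] (f : G → X)
    (hf : ∀ g s : G, s ∈ U → f (g * s) = f g) : (Set.range f).Finite := by
  have : Finite (G ⧸ U) := Subgroup.finite_quotient_of_finiteIndex
  refine (Set.finite_range (fun x : G ⧸ U => f x.out)).subset ?_
  rintro _ ⟨g, rfl⟩
  refine ⟨(g : G ⧸ U), ?_⟩
  obtain ⟨s, hs⟩ := QuotientGroup.mk_out_eq_mul U g
  show f ((g : G ⧸ U).out) = f g
  rw [hs, hf g s s.2]

/-- Finitely many elements of a smooth module are fixed by a common level, which may be chosen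
below any given level. -/
lemma exists_level_fixing_finset (L : LevelSys G) {k : Type} [CommRing k]
    (B : Rep.{0, 0, 0} k G) (hB : L.IsSmooth B) (s : Finset B) (W₀ : Subgroup G)
    (hW₀ : W₀ ∈ L.levels) :
    ∃ V ∈ L.levels, V ≤ W₀ ∧ ∀ b ∈ s, ∀ w ∈ V, B.ρ w b = b := by
  classical
  induction s using Finset.induction_on with
  | empty => exact ⟨W₀, hW₀, le_rfl, by simp⟩
  | insert a s _ ih =>
    obtain ⟨V, hV, hVW, hfix⟩ := ih
    obtain ⟨W, hW, hWa⟩ := hB a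
    obtain ⟨X, hX, hXle⟩ := L.directed V hV W hW
    refine ⟨X, hX, fun w hw => hVW (hXle hw).1, ?_⟩
    intro b hb w hw
    rcases Finset.mem_insert.1 hb with rfl | hb
    · exact hWa w (hXle hw).2
    · exact hfix b hb w (hXle hw).1

variable {k : Type} [CommRing k]

/-- **Dictionary, degree 1.**  A level-constant 1-cochain with values in a smooth module is
inflated from `(G ⧸ V, B^V)` for some normal level `V` below any given level. -/
lemma exists_isAt₁ (L : LevelSys G) (hNC : L.NormalCofinal) (hFI : L.FiniteIndex)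
    (B : Rep.{0, 0, 0} k G) (hB : L.IsSmooth B) (x : G → B) (hx : L.IsLC₁ x)
    (W₀ : Subgroup G) (hW₀ : W₀ ∈ L.levels) :
    ∃ V ∈ L.levels, V.Normal ∧ V ≤ W₀ ∧ IsAt₁ V B x := by
  classical
  obtain ⟨U, hU, hxU⟩ := hx
  have := hFI U hU
  have hfin := finite_range_of_rightInv U x hxU
  obtain ⟨W₁, hW₁, hW₁le⟩ := L.directed U hU W₀ hW₀
  obtain ⟨V₁, hV₁, hV₁le, hfix⟩ := exists_level_fixing_finset L B hB hfin.toFinset W₁ hW₁
  obtain ⟨V, hV, hVle, hVn⟩ := hNC V₁ hV₁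
  refine ⟨V, hV, hVn, fun w hw => (hW₁le (hV₁le (hVle hw))).2, fun g s hs => ⟨?_, ?_⟩⟩
  · exact hxU g s (hW₁le (hV₁le (hVle hs))).1
  · exact hfix (x g) (hfin.mem_toFinset.2 ⟨g, rfl⟩) s (hVle hs)

lemma isAt₁_mono {V V' : Subgroup G} (h : V' ≤ V) {B : Rep.{0, 0, 0} k G} {x : G → B}
    (hx : IsAt₁ V B x) : IsAt₁ V' B x :=
  fun g s hs => hx g s (h hs)

lemma isAt₂_mono {V V' : Subgroup G} (h : V' ≤ V) {B : Rep.{0, 0, 0} k G} {f : G × G → B}
    (hf : IsAt₂ V B f) : IsAt₂ V' B f :=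
  fun g g' s t hs ht => hf g g' s t (h hs) (h ht)

lemma isLC₁_of_isAt₁ {L : LevelSys G} {V : Subgroup G} (hV : V ∈ L.levels)
    {B : Rep.{0, 0, 0} k G} {x : G → B} (hx : IsAt₁ V B x) : L.IsLC₁ x :=
  ⟨V, hV, fun g s hs => (hx g s hs).1⟩

lemma isLC₂_of_isAt₂ {L : LevelSys G} {V : Subgroup G} (hV : V ∈ L.levels)
    {B : Rep.{0, 0, 0} k G} {f : G × G → B} (hf : IsAt₂ V B f) : L.IsLC₂ f :=
  ⟨V, hV, fun g g' s t hs ht => (hf g g' s t hs ht).1⟩

/-- A 2-cocycle which is right-invariant under a NORMAL subgroup `V` has values in `B^V`. -/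
lemma isAt₂_of_cocycle (B : Rep.{0, 0, 0} k G) (V : Subgroup G) (hVn : V.Normal)
    (a : G × G → B) (ha : a ∈ cocycles₂ B)
    (hinv : ∀ g h s t : G, s ∈ V → t ∈ V → a (g * s, h * t) = a (g, h)) : IsAt₂ V B a := by
  rw [mem_cocycles₂_iff] at ha
  have h1 : ∀ j : G, a (1, j) = a (1, 1) := by
    intro j
    have := ha 1 1 j
    simp only [one_mul, map_one, Module.End.one_apply] at this
    exact (add_left_cancel this).symm
  intro g h s t hs ht
  refine ⟨hinv g h s t hs ht, ?_⟩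
  have h2 := ha s g h
  have h3 : a (s * g, h) = a (g, h) := by
    have hc : g⁻¹ * s * g ∈ V := by
      have := hVn.conj_mem s hs g⁻¹
      simpa using this
    have := hinv g h (g⁻¹ * s * g) 1 hc V.one_mem
    rw [mul_one] at this
    rw [← this]
    congr 2
    group
  have h4 : ∀ j : G, a (s, j) = a (1, 1) := by
    intro j
    have := hinv 1 j s 1 hs V.one_mem
    rw [one_mul, mul_one] at this
    rw [this, h1]
  rw [h3, h4, h4] at h2
  exact (add_right_cancel h2).symm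

/-- **Dictionary, degree 2 (cocycles).**  A level-constant 2-cocycle is inflated from
`(G ⧸ V, B^V)` for some normal level `V` below any given level. -/
lemma exists_mem_Z2At (L : LevelSys G) (hNC : L.NormalCofinal) (B : Rep.{0, 0, 0} k G)
    (a : G × G → B) (ha : a ∈ L.Z2 B) (W₀ : Subgroup G) (hW₀ : W₀ ∈ L.levels) :
    ∃ V ∈ L.levels, V.Normal ∧ V ≤ W₀ ∧ a ∈ Z2At V B := by
  obtain ⟨hcoc, U, hU, haU⟩ := ha
  obtain ⟨W₁, hW₁, hW₁le⟩ := L.directed U hU W₀ hW₀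
  obtain ⟨V, hV, hVle, hVn⟩ := hNC W₁ hW₁
  refine ⟨V, hV, hVn, fun w hw => (hW₁le (hVle hw)).2, hcoc, ?_⟩
  exact isAt₂_of_cocycle B V hVn a hcoc
    (fun g h s t hs ht => haU g h s t (hW₁le (hVle hs)).1 (hW₁le (hVle ht)).1)

lemma Z2At_mono {V V' : Subgroup G} (h : V' ≤ V) (B : Rep.{0, 0, 0} k G) :
    Z2At V B ≤ Z2At V' B :=
  fun _ hf => ⟨hf.1, isAt₂_mono h hf.2⟩

lemma mem_Z2_of_mem_Z2At {L : LevelSys G} {V : Subgroup G} (hV : V ∈ L.levels)
    {B : Rep.{0, 0, 0} k G} {f : G × G → B} (hf : f ∈ Z2At V B) : f ∈ L.Z2 B :=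
  ⟨hf.1, isLC₂_of_isAt₂ hV hf.2⟩

lemma mem_B2_of_isCobAt₂ {L : LevelSys G} {V : Subgroup G} (hV : V ∈ L.levels)
    {B : Rep.{0, 0, 0} k G} {f : G × G → B} (hf : IsCobAt₂ V B f) : f ∈ L.B2 B := by
  obtain ⟨x, hx, rfl⟩ := hf
  exact ⟨x, isLC₁_of_isAt₁ hV hx, rfl⟩

/-- **Dictionary, degree 2 (coboundaries).**  If inflation is injective below `V₀`, a cocycle
inflated from the normal level `V ≤ V₀` which is `d` of a level-constant cochain is a coboundary
at level `V`. -/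
lemma isCobAt₂_of_mem_B2 (L : LevelSys G) (hNC : L.NormalCofinal) (hFI : L.FiniteIndex)
    (B : Rep.{0, 0, 0} k G) (hB : L.IsSmooth B) (V₀ : Subgroup G)
    (hinf : ∀ V' V : Subgroup G, V' ∈ L.levels → V'.Normal → V ∈ L.levels → V.Normal → V' ≤ V →
      V ≤ V₀ → ∀ f ∈ Z2At V B, IsCobAt₂ V' B f → IsCobAt₂ V B f)
    (V : Subgroup G) (hV : V ∈ L.levels) (hVn : V.Normal) (hVle : V ≤ V₀)
    (f : G × G → B) (hf : f ∈ Z2At V B) (hfB : f ∈ L.B2 B) : IsCobAt₂ V B f := by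
  obtain ⟨x, hx, rfl⟩ := hfB
  obtain ⟨V', hV', hV'n, hV'le, hxV'⟩ := exists_isAt₁ L hNC hFI B hB x hx V hV
  exact hinf V' V hV' hV'n hV hVn hV'le hVle _ hf ⟨x, hxV', rfl⟩

/-! ## 2. The maps `H2At V B → H²_lc(G, B)` -/

section psi

variable (L : LevelSys G) (B : Rep.{0, 0, 0} k G)

/-- the inclusion of the cocycles at level `V` into the level-constant cocycles -/
def toZ2 (V : Subgroup G) (hV : V ∈ L.levels) : ↥(Z2At V B) →+ ↥(L.Z2 B) where
  toFun f := ⟨f.1, mem_Z2_of_mem_Z2At hV f.2⟩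
  map_zero' := rfl
  map_add' _ _ := rfl

@[simp] lemma toZ2_coe (V : Subgroup G) (hV : V ∈ L.levels) (f : ↥(Z2At V B)) :
    ((toZ2 L B V hV f : ↥(L.Z2 B)) : G × G → B) = f.1 := rfl

/-- the class in `H²_lc(G, B)` of a cocycle at level `V` -/
def psi₀ (V : Subgroup G) (hV : V ∈ L.levels) : ↥(Z2At V B) →+ L.H2 B :=
  (L.H2π B).toAddMonoidHom.comp (toZ2 L B V hV)

lemma psi₀_apply (V : Subgroup G) (hV : V ∈ L.levels) (f : ↥(Z2At V B)) :
    psi₀ L B V hV f = L.H2π B (toZ2 L B V hV f) := rfl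

lemma psi₀_eq_zero_iff (V : Subgroup G) (hV : V ∈ L.levels) (f : ↥(Z2At V B)) :
    psi₀ L B V hV f = 0 ↔ (f : G × G → B) ∈ L.B2 B := by
  rw [psi₀_apply, L.H2π_eq_zero_iff]
  rfl

/-- inflation `H²(G ⧸ V, B^V) → H²_lc(G, B)`, cochain form -/
def psi (V : Subgroup G) (hV : V ∈ L.levels) : H2At V B →+ L.H2 B :=
  QuotientAddGroup.lift _ (psi₀ L B V hV) (by
    intro f hf
    rw [AddMonoidHom.mem_ker, psi₀_eq_zero_iff]
    exact mem_B2_of_isCobAt₂ hV (AddSubgroup.mem_addSubgroupOf.1 hf))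

@[simp] lemma psi_mk (V : Subgroup G) (hV : V ∈ L.levels) (f : ↥(Z2At V B)) :
    psi L B V hV (QuotientAddGroup.mk f) = psi₀ L B V hV f := rfl

variable {L B}

lemma psi_injective (hNC : L.NormalCofinal) (hFI : L.FiniteIndex) (hB : L.IsSmooth B)
    (V₀ : Subgroup G)
    (hinf : ∀ V' V : Subgroup G, V' ∈ L.levels → V'.Normal → V ∈ L.levels → V.Normal → V' ≤ V →
      V ≤ V₀ → ∀ f ∈ Z2At V B, IsCobAt₂ V' B f → IsCobAt₂ V B f)
    (V : Subgroup G) (hV : V ∈ L.levels) (hVn : V.Normal) (hVle : V ≤ V₀) :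
    Function.Injective (psi L B V hV) := by
  rw [injective_iff_map_eq_zero]
  intro x hx
  obtain ⟨f, rfl⟩ := QuotientAddGroup.mk_surjective x
  rw [psi_mk, psi₀_eq_zero_iff] at hx
  rw [QuotientAddGroup.eq_zero_iff, AddSubgroup.mem_addSubgroupOf]
  exact isCobAt₂_of_mem_B2 L hNC hFI B hB V₀ hinf V hV hVn hVle _ f.2 hx

lemma range_psi_mono {V V' : Subgroup G} (hV : V ∈ L.levels) (hV' : V' ∈ L.levels)
    (h : V' ≤ V) : (psi L B V hV).range ≤ (psi L B V' hV').range := by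
  rintro _ ⟨x, rfl⟩
  obtain ⟨f, rfl⟩ := QuotientAddGroup.mk_surjective x
  exact ⟨QuotientAddGroup.mk ⟨f.1, Z2At_mono h B f.2⟩, rfl⟩

lemma exists_psi_eq (hNC : L.NormalCofinal) (x : L.H2 B) (W₀ : Subgroup G)
    (hW₀ : W₀ ∈ L.levels) :
    ∃ (V : Subgroup G) (hV : V ∈ L.levels), V.Normal ∧ V ≤ W₀ ∧ x ∈ (psi L B V hV).range := by
  obtain ⟨a, rfl⟩ := L.H2π_surjective B x
  obtain ⟨V, hV, hVn, hVle, haV⟩ := exists_mem_Z2At L hNC B a.1 a.2 W₀ hW₀
  exact ⟨V, hV, hVn, hVle, QuotientAddGroup.mk ⟨a.1, haV⟩, rfl⟩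

end psi

/-! ## 3. The theorem -/

/-- **KC-D2.** -/
theorem h2OfAt : H2OfAtSpec := by
  intro G _ L p _ B V₀ n hNC hFI hB hV₀ hcyc hinf hunb
  -- index type: normal levels below `V₀`
  let I : Type := {V : Subgroup G // V ∈ L.levels ∧ V.Normal ∧ V ≤ V₀}
  let S : I → AddSubgroup (L.H2 B) := fun V => (psi L B V.1 V.2.1).range
  let N : I → ℕ := fun V => n V.1
  have hn : ∀ i : I, 0 < N i := fun V => (hcyc V.1 V.2.1 V.2.2.1 V.2.2.2).1
  have hS : ∀ i : I, Nonempty (S i ≃+ ZMod (N i)) := by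
    intro V
    obtain ⟨e⟩ := (hcyc V.1 V.2.1 V.2.2.1 V.2.2.2).2
    have hinj := psi_injective hNC hFI hB V₀ hinf V.1 V.2.1 V.2.2.1 V.2.2.2
    exact ⟨(AddMonoidHom.ofInjective hinj).symm.trans e⟩
  have hdir : ∀ i j : I, ∃ k : I, S i ≤ S k ∧ S j ≤ S k := by
    intro V V'
    obtain ⟨W₁, hW₁, hW₁le⟩ := L.directed V.1 V.2.1 V'.1 V'.2.1
    obtain ⟨W, hW, hWle, hWn⟩ := hNC W₁ hW₁
    have h1 : W ≤ V.1 := fun w hw => (hW₁le (hWle hw)).1
    have h2 : W ≤ V'.1 := fun w hw => (hW₁le (hWle hw)).2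
    exact ⟨⟨W, hW, hWn, h1.trans V.2.2.2⟩, range_psi_mono V.2.1 hW h1,
      range_psi_mono V'.2.1 hW h2⟩
  have hcov : ∀ x : L.H2 B, ∃ i : I, x ∈ S i := by
    intro x
    obtain ⟨V, hV, hVn, hVle, hx⟩ := exists_psi_eq hNC x V₀ hV₀
    exact ⟨⟨V, hV, hVn, hVle⟩, hx⟩
  have hunb' : ∀ m : ℕ, ∃ i : I, p ^ m ∣ N i := by
    intro m
    obtain ⟨V, hV, hVn, hVle, hdvd⟩ := hunb m
    exact ⟨⟨V, hV, hVn, hVle⟩, hdvd⟩
  refine ⟨?_, card_torsion_of_directed_cyclic p hn hS hdir hcov hunb'⟩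
  intro a ha
  obtain ⟨y, hy⟩ := exists_nsmul_eq_of_directed_cyclic p hn hS hdir hcov hunb'
    (L.H2π B ⟨a, ha⟩)
  obtain ⟨a', rfl⟩ := L.H2π_surjective B y
  refine ⟨a'.1, a'.2, ?_⟩
  have h0 : L.H2π B (⟨a, ha⟩ - p • a') = 0 := by
    rw [map_sub, map_nsmul, hy, sub_self]
  have h1 := (L.H2π_eq_zero_iff B _).1 h0
  simpa using h1

end Fermat.Agent.S55.KC.H287

end
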