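import Fermat.Agent.S55.KC.KummerH2H53

/-!
# S55 / layer KC, leaf KC-K3: `KummerH3Spec`          (helper53)

`H³_lc(G, M) = 0` for `M ≅ B[p]`, `B` smooth and `p`-divisible with `H³_lc(G, B) = 0` and
`H²_lc(G, B)` `p`-divisible.  Cochain-level Kummer argument.
-/

set_option autoImplicit false
set_option linter.style.haveILetI false

noncomputable section

namespace Fermat.Agent.S55.KC.H53

open groupCohomology ExtCitation Fermat.Agent.S55.PT

variable {G : Type} [Group G] (L : LevelSys G)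

lemma IsLC₃.comp' {X Y : Type*} {f : G × G × G → X} (hf : IsLC₃ L f) (φ : X → Y) :
    IsLC₃ L (φ ∘ f) := by
  obtain ⟨U, hU, h⟩ := hf
  exact ⟨U, hU, fun g₁ g₂ g₃ s₁ s₂ s₃ h₁ h₂ h₃ => by
    simp only [Function.comp_apply, h g₁ g₂ g₃ s₁ s₂ s₃ h₁ h₂ h₃]⟩

section Kummer

variable {p : ℕ} [Fact p.Prime] {M : Rep.{0, 0, 0} (ZMod p) G} {B : Rep.{0, 0, 0} ℤ G}
  {ι : M →+ B}

lemma ι_d₂₃ (hι : IsKummerEmb p M B ι) (x : G × G → M) :
    (d₂₃ B).hom (ι ∘ x) = ι ∘ (d₂₃ M).hom x := by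
  funext ⟨g, h, j⟩
  simp only [d₂₃_hom_apply, Function.comp_apply, map_add, map_sub, hι.equivariant]

lemma ι_isCocycle₃ (hι : IsKummerEmb p M B ι) {z : G × G × G → M} (hz : IsCocycle₃ M z) :
    IsCocycle₃ B (ι ∘ z) := by
  intro g h i j
  have := congrArg ι (hz g h i j)
  simpa only [Function.comp_apply, map_add, map_sub, hι.equivariant, map_zero] using this

/-- **KC-K3.** -/
theorem kummerH3 : KummerH3Spec := by
  intro G _ L p _ M B ι hN hF hsm hdiv hι h3 h2 z hzlc hzc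
  obtain ⟨b, hblc, hbz⟩ := h3 (ι ∘ z) (IsLC₃.comp' L hzlc ι) (ι_isCocycle₃ hι hzc)
  -- `p • b` is a level-constant 2-cocycle
  have hpb : p • b ∈ L.Z2 B := by
    refine ⟨?_, LevelSys.IsLC₂.comp hblc (p • ·)⟩
    show (d₂₃ B).hom (p • b) = 0
    rw [map_nsmul, hbz]
    funext x
    simp only [Pi.smul_apply, Function.comp_apply]
    exact p_nsmul_ι (z x)
  obtain ⟨a', ha', hcob⟩ := h2 (p • b) hpb
  obtain ⟨c, hc, hcd⟩ := hcob
  choose root hroot using hdiv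
  set c₁ : G → B := root ∘ c with hc₁
  have hc₁lc : L.IsLC₁ c₁ := LevelSys.IsLC₁.comp hc root
  have hpc₁ : p • c₁ = c := by
    funext g
    simp only [Pi.smul_apply, hc₁, Function.comp_apply, hroot]
  have hdlc : L.IsLC₂ ((d₁₂ B).hom c₁) := d₁₂_isLC₂_of_smooth L hN hF hsm hc₁lc
  have hkill : ∀ x, p • (b - a' - (d₁₂ B).hom c₁) x = 0 := by
    intro x
    have h1 : (p • (b - a' - (d₁₂ B).hom c₁)) = 0 := by
      rw [smul_sub, smul_sub, ← map_nsmul, hpc₁, hcd]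
      exact sub_self _
    have := congrFun h1 x
    simpa using this
  obtain ⟨r, hr⟩ := exists_lift_of_p_nsmul_eq_zero hι _ hkill
  refine ⟨r, ?_, ?_⟩
  · apply isLC₂_of_ι L hι
    rw [hr]
    exact IsLC₂.sub' L (IsLC₂.sub' L hblc ha'.2) hdlc
  · have : ι ∘ (d₂₃ M).hom r = ι ∘ z := by
      rw [← ι_d₂₃ hι, hr, map_sub, map_sub, hbz]
      have h1 : (d₂₃ B).hom a' = 0 := ha'.1
      have h2 : (d₂₃ B).hom ((d₁₂ B).hom c₁) = 0 := d₁₂_comp_d₂₃_apply B c₁
      rw [h1, h2, sub_zero, sub_zero]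
    funext x
    exact hι.injective (congrFun this x)

end Kummer

end Fermat.Agent.S55.KC.H53

end
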