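import Fermat.Agent.S55.KC.Spec
import Fermat.Agent.S55.KL.PUnboundedH707

/-!
# S55 / layer KC, leaf KC-A3 (was KL:A3): `LocalPUnboundedSpec`   (helper707)

Exact Spec type, from `KL/PUnboundedH707.lean` (helper414's CYC-INF + normal cofinality).
-/

set_option autoImplicit false

namespace Fermat.Agent.S55.KC.PUnboundedH707

/-- **KC-A3.**  The `p`-part of `[G_{ℚ_q} : V]` is unbounded along the normal local levels. -/
theorem localPUnboundedSpec : Fermat.Agent.S55.KC.LocalPUnboundedSpec :=
  fun p _ q V₀ h => Fermat.Agent.S55.KL.PUnboundedH707.localPUnbounded p q V₀ h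

end Fermat.Agent.S55.KC.PUnboundedH707
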