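import Fermat.Agent.S55.KC.Assembly
import Fermat.Agent.S55.PT.FrattiniH424
import Fermat.Agent.S55.KC.KummerH3H53
import Fermat.Agent.S55.KC.FinLocH539
import Fermat.Agent.S55.KC.H13OfAtH287
import Fermat.Agent.S55.KC.H2OfAtH287
import Fermat.Agent.S55.KC.H510.Leaves
import Fermat.Agent.S55.KC.IndH323
import Fermat.Agent.S55.KC.PUnboundedH707
import Fermat.Agent.S55.KC.QInfH73
import Fermat.Agent.S55.KC.Q12H321
import Fermat.Agent.S55.H919.Q3Core
import Fermat.Agent.S55.H696.Devissage
import Fermat.Agent.S55.KC.IndWCFH475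
import Fermat.Agent.S55.H587.LocalLevels
import Fermat.Agent.S55.Local.H374.KummerEmb
import Fermat.Agent.S55.KC.ClassFormH323

/-!
# S55 / layer KC: index of proved leaves          (architect: helper53, append-only)

One canonical proof of every leaf of `KC/Spec.lean` that is available on main.

Proved: KC-P1 `finLocOfFrattini`, KC-P2 `surj2OfH3`, KC-P4 `topLocIndOf`, KC-K2 `kummerH2`,
KC-K3 `kummerH3`, KC-D1 `h1VanishOfAt`, KC-D2 `h2OfAt`, KC-D3 `h3VanishOfAt`, KC-QInf `qInf`,
KC-I0 `indKummer`, KC-I4' `pUnboundedRel`, KC-A0 `localLevels`, KC-A3 `localPUnbounded`,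
KC-A4 `localFrattini`.
KC-P3 `h3Devissage`, KC-Q1 `q1`, KC-Q2 `q2`, KC-Q3 `q3`, KC-I2 `indWCF`, KC-I2' `selfWCF`,
KC-A5 `localMu`; bundles `dictLeaves`, `kummerLeaves`, `indLeaves`.
KC-A2 `localKummerEmb`.
KC-A1 `localClassFormation` (helper323).  **LAYER KC IS COMPLETE**: unconditional outputs
`h2IndCard`, `h2MuCard`, `localH3Vanish`, `surj2Loc`, `topLocInd` at the end of this file.
Conditional outputs: `h2IndCard_of`, `h2MuCard_of`, `localH3Vanish_of`, `surj2Loc_of`, `topLocInd_of`
(hypotheses: `LocalClassFormationSpec`, `LocalKummerEmbSpec`), and `h2IndCard_of'`, `h2MuCard_of'`,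
`topLocInd_of'` (hypothesis: `LocalClassFormationSpec` only).
-/

set_option autoImplicit false

namespace Fermat.Agent.S55.KC.All

open Fermat.Agent.S55.PT

/-- KC-A0 (helper424, `PT/FrattiniH424.lean`). -/
theorem localLevels : LocalLevelsSpec := fun q =>
  ⟨H424.localLevels_normalCofinal q, H424.localLevels_finiteIndex q⟩

/-- KC-A4 (helper424, `PT/FrattiniH424.lean`). -/
theorem localFrattini : LocalFrattiniSpec := fun p _ q => H424.localLevels_pFrattini p q

/-- KC-K2 (helper53; also helper918). -/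
theorem kummerH2 : KummerH2Spec := H53.kummerH2

/-- KC-K3 (helper53; also helper918, helper510). -/
theorem kummerH3 : KummerH3Spec := H53.kummerH3

/-- Block K is complete. -/
theorem kummerLeaves : KummerLeaves := ⟨kummerH2, kummerH3⟩

/-- KC-P1 (helper539). -/
theorem finLocOfFrattini : FinLocOfFrattiniSpec := H539.finLocOfFrattini

/-- KC-P2 (helper510; also helper998). -/
theorem surj2OfH3 : Surj2OfH3Spec := H510.surj2OfH3

/-- KC-P4 (helper510). -/
theorem topLocIndOf : TopLocIndOfSpec := H510.topLocIndOf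

/-- KC-D1 (helper287; also helper357). -/
theorem h1VanishOfAt : H1VanishOfAtSpec := H287.h1VanishOfAt

/-- KC-D3 (helper287; also helper357). -/
theorem h3VanishOfAt : H3VanishOfAtSpec := H287.h3VanishOfAt

/-- KC-D2 (helper287). -/
theorem h2OfAt : H2OfAtSpec := H287.h2OfAt

/-- KC-QInf (helper73). -/
theorem qInf : QInfSpec := H73.qInf

/-- KC-I0 (helper323). -/
theorem indKummer : IndKummerSpec := H323.indKummer

/-- KC-I4' (helper323). -/
theorem pUnboundedRel : PUnboundedRelSpec := H323.pUnboundedRel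

/-- KC-A3 (helper707). -/
theorem localPUnbounded : LocalPUnboundedSpec := PUnboundedH707.localPUnboundedSpec

/-- Output A2 (`PT.FinLocSpec`), unconditional. -/
theorem finLoc (p : ℕ) [Fact p.Prime] (S : Finset Nat.Primes) : FinLocSpec p S := by
  intro q _ N hN hNsm
  exact finLocOfFrattini (Gl q) (PT.localLevels q) p (All.localLevels q).2 (localFrattini p q) N
    hN hNsm

/-- KC-Q1 (helper321). -/
theorem q1 : Q1Spec := H321.q1

/-- KC-Q2 (helper321). -/
theorem q2 : Q2Spec := H321.q2

/-- KC-Q3 (helper919, `H919/Q3Core.lean`). -/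
theorem q3 : Q3Spec := fun _ _ B V _ h z hz hc =>
  Fermat.Agent.S55.H919.h3VanishAt_of_subsingleton_h919 B V h z hz hc

/-- KC-P3 (helper696, `H696/Devissage.lean`). -/
theorem h3Devissage : H3DevissageSpec := fun G _ L p _ μ a b c d e R f g =>
  Fermat.Agent.S55.H696.devissage G L p μ a b c d e R f g

/-- KC-I2 (helper475). -/
theorem indWCF : IndWCFSpec := H475.indWCF

/-- KC-I2' (helper475). -/
theorem selfWCF : SelfWCFSpec := H475.selfWCF

/-- KC-A5 (helper587, `H587/LocalLevels.lean`). -/
theorem localMu : LocalMuSpec := fun p _ q =>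
  ⟨Fermat.Agent.S55.H587.muLoc_finrank p q, Fermat.Agent.S55.H587.muLoc_isUSmooth p q⟩

/-- Blocks Q and D are complete. -/
theorem dictLeaves : DictLeaves := ⟨q1, q2, q3, qInf, h1VanishOfAt, h2OfAt, h3VanishOfAt⟩

/-- Block I is complete. -/
theorem indLeaves : IndLeaves := ⟨indKummer, indWCF, selfWCF, pUnboundedRel⟩

/-- The arithmetic block, given the two open leaves KC-A1 and KC-A2. -/
theorem arithLeaves_of (hCF : LocalClassFormationSpec) (hKE : LocalKummerEmbSpec) :
    ArithLeaves := ⟨All.localLevels, hCF, hKE, localPUnbounded, localFrattini, localMu⟩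

/-- `|H²(G_q, Ind_W μ_p)| = p`, given KC-A1 and KC-A2. -/
theorem h2IndCard_of (hCF : LocalClassFormationSpec) (hKE : LocalKummerEmbSpec) :
    H2IndCardSpec := h2IndCard dictLeaves kummerLeaves indLeaves (arithLeaves_of hCF hKE)

/-- `|H²(G_q, μ_p)| = p`, given KC-A1 and KC-A2. -/
theorem h2MuCard_of (hCF : LocalClassFormationSpec) (hKE : LocalKummerEmbSpec) :
    H2MuCardSpec := h2MuCard dictLeaves kummerLeaves indLeaves (arithLeaves_of hCF hKE)

/-- `H³_lc(G_q, R) = 0` for finite `R`, given KC-A1 and KC-A2. -/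
theorem localH3Vanish_of (hCF : LocalClassFormationSpec) (hKE : LocalKummerEmbSpec) :
    LocalH3VanishSpec :=
  localH3Vanish h3Devissage dictLeaves kummerLeaves indLeaves (arithLeaves_of hCF hKE)

/-- A4 (`PT.Surj2LocSpec`), given KC-A1 and KC-A2  (unconditional proof: `KL.A4.surj2Loc`,
helper183). -/
theorem surj2Loc_of (hCF : LocalClassFormationSpec) (hKE : LocalKummerEmbSpec)
    (p : ℕ) [Fact p.Prime] (S : Finset Nat.Primes) : Surj2LocSpec p S :=
  surj2Loc p surj2OfH3 h3Devissage dictLeaves kummerLeaves indLeaves (arithLeaves_of hCF hKE) S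

/-- A6 (`PT.TopLocIndSpec inv`) for every family of bijective maps `inv`, given KC-A1, KC-A2. -/
theorem topLocInd_of (hCF : LocalClassFormationSpec) (hKE : LocalKummerEmbSpec)
    (p : ℕ) [Fact p.Prime] (S : Finset Nat.Primes) (inv : InvFamily p S)
    (hinv : ∀ v : ↥S, Function.Bijective (inv v)) : TopLocIndSpec inv :=
  topLocInd p surj2OfH3 h3Devissage topLocIndOf dictLeaves kummerLeaves indLeaves
    (arithLeaves_of hCF hKE) S inv hinv

/-- KC-A2 (helper374, `Local/H374/KummerEmb.lean`). -/
theorem localKummerEmb : LocalKummerEmbSpec := by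
  intro p _ q
  refine ⟨Fermat.Agent.S55.Local.H374.unitsQ_isSmooth q,
    Fermat.Agent.S55.Local.H374.unitsQ_divisible p (Fact.out : p.Prime).pos q, ?_⟩
  obtain ⟨ι, h1, h2, h3⟩ := Fermat.Agent.S55.Local.H374.exists_kummerEmb p q
  exact ⟨ι, ⟨h1, h2, h3⟩⟩

/-- `|H²(G_q, Ind_W μ_p)| = p`, given KC-A1 only. -/
theorem h2IndCard_of' (hCF : LocalClassFormationSpec) : H2IndCardSpec :=
  h2IndCard_of hCF localKummerEmb

/-- `|H²(G_q, μ_p)| = p`, given KC-A1 only. -/
theorem h2MuCard_of' (hCF : LocalClassFormationSpec) : H2MuCardSpec :=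
  h2MuCard_of hCF localKummerEmb

/-- A6 (`PT.TopLocIndSpec inv`) for every family of bijective maps `inv`, given KC-A1 only. -/
theorem topLocInd_of' (hCF : LocalClassFormationSpec)
    (p : ℕ) [Fact p.Prime] (S : Finset Nat.Primes) (inv : InvFamily p S)
    (hinv : ∀ v : ↥S, Function.Bijective (inv v)) : TopLocIndSpec inv :=
  topLocInd_of hCF localKummerEmb p S inv hinv

/-- KC-A1 (helper323, `KC/ClassFormH323.lean`). -/
theorem localClassFormation : LocalClassFormationSpec := H323.localClassFormation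

/-- Block A is complete. -/
theorem arithLeaves : ArithLeaves := arithLeaves_of localClassFormation localKummerEmb

/-- **KC output**: `|H²(G_q, Ind_W μ_p)| = p`, unconditionally. -/
theorem h2IndCardClosed : H2IndCardSpec := h2IndCard_of' localClassFormation

/-- **KC output**: `|H²(G_q, μ_p)| = p`, unconditionally. -/
theorem h2MuCardClosed : H2MuCardSpec := h2MuCard_of' localClassFormation

/-- **KC output**: `H³_lc(G_q, R) = 0` for finite `R`, unconditionally. -/
theorem localH3VanishClosed : LocalH3VanishSpec :=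
  localH3Vanish_of localClassFormation localKummerEmb

/-- **KC output** A4 (`PT.Surj2LocSpec`), unconditionally (second proof; first: `KL.A4.surj2Loc`,
helper183). -/
theorem surj2LocClosed (p : ℕ) [Fact p.Prime] (S : Finset Nat.Primes) : Surj2LocSpec p S :=
  surj2Loc_of localClassFormation localKummerEmb p S

/-- **KC output** A6 (`PT.TopLocIndSpec inv`) for every family of bijective maps `inv`,
unconditionally. -/
theorem topLocIndClosed (p : ℕ) [Fact p.Prime] (S : Finset Nat.Primes) (inv : InvFamily p S)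
    (hinv : ∀ v : ↥S, Function.Bijective (inv v)) : TopLocIndSpec inv :=
  topLocInd_of' localClassFormation p S inv hinv

end Fermat.Agent.S55.KC.All
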