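import Fermat.Agent.S55.T.ShapiroH303
import Fermat.Agent.S55.T.H415.Additive

/-!
# S55 / layer KC, leaf KC-I2 (helper475): induced modules at finite level

Generic in the coefficient ring `k`.  `A : Rep k G`, `H ≤ G`, and `ρ` is a representation of `G`
on `(G ⧸ H) →₀ A` with the *diagonal* action on singles (`IsDiag`).  For a normal subgroup
`V ≤ H` of `G`:

* `evHom` : the coefficient-at-`x` map `(Ind_H A)^V → A^V`, equivariant for every subgroup of
  `G ⧸ V` fixing `x`;
* `shapiro_ind` : `Hⁿ(G ⧸ V, (Ind_H A)^V) → Hⁿ(H ⧸ V, A^V)` is bijective (finite Shapiro,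
  recognition form `T.ShapiroRecognitionSpec`);
* `ev_family_bijective` : `(Ind_H A)^V → ∏_{G ⧸ H} A^V` is bijective (for `T.FiniteProdSpec`).
-/

set_option autoImplicit false

open CategoryTheory groupCohomology

namespace Fermat.Agent.S55.KC.H475

noncomputable section

/-- The type of representations of `G` on `(G ⧸ H) →₀ A` (declared generically in `k`, so that
the module structure is the one induced by `A`, also for `k = ℤ`). -/
abbrev IndRepr {k G : Type} [CommRing k] [Group G] (A : Rep.{0} k G) (H : Subgroup G) : Type :=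
  Representation k G ((G ⧸ H) →₀ A.V)

variable {k G : Type} [CommRing k] [Group G] (A : Rep.{0} k G) (H : Subgroup G)
  (ρ : IndRepr A H)

/-- `ρ` is the diagonal action on `(G ⧸ H) →₀ A`. -/
def IsDiag : Prop :=
  ∀ (g : G) (x : G ⧸ H) (a : A.V), ρ g (Finsupp.single x a) = Finsupp.single (g • x) (A.ρ g a)

variable {A H ρ}

lemma IsDiag.apply (hρ : IsDiag A H ρ) (g : G) (b : (G ⧸ H) →₀ A.V) (x : G ⧸ H) :
    ρ g b x = A.ρ g (b (g⁻¹ • x)) := by
  classical
  induction b using Finsupp.induction_linear with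
  | zero => simp
  | add b c hb hc => simp only [map_add, Finsupp.add_apply, hb, hc]
  | single y a =>
    rw [hρ]
    simp only [Finsupp.single_apply]
    by_cases h : y = g⁻¹ • x
    · subst h
      simp
    · have h' : g • y ≠ x := fun h' => h (by rw [← h', inv_smul_smul])
      simp [h, h']

/-- A normal subgroup contained in `H` acts trivially on `G ⧸ H`. -/
lemma smul_coset_eq (V : Subgroup G) [V.Normal] (hVH : V ≤ H) {v : G} (hv : v ∈ V)
    (x : G ⧸ H) : v • x = x := by
  induction x using QuotientGroup.induction_on with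
  | H g =>
    change ((v * g : G) : G ⧸ H) = (g : G ⧸ H)
    rw [QuotientGroup.eq]
    have h1 : (v * g)⁻¹ * g = g⁻¹ * v⁻¹ * g := by group
    rw [h1]
    exact hVH (Subgroup.Normal.conj_mem' inferInstance v⁻¹ (V.inv_mem hv) g)

/-! ### The finite-level modules -/

variable (A ρ) in
/-- `(Ind_H A)^V` as a representation of `G ⧸ V`. -/
abbrev indQ (V : Subgroup G) [V.Normal] : Rep.{0} k (G ⧸ V) :=
  (Rep.of ρ).quotientToInvariants V

variable (A) in
/-- `A^V` as a representation of `G ⧸ V`. -/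
abbrev coefQ (V : Subgroup G) [V.Normal] : Rep.{0} k (G ⧸ V) :=
  A.quotientToInvariants V

lemma indQ_ρ_coe (V : Subgroup G) [V.Normal] (g : G) (b : (indQ A ρ V).V) :
    (((indQ A ρ V).ρ (g : G ⧸ V) b : (indQ A ρ V).V) : (G ⧸ H) →₀ A.V) = ρ g b.1 := rfl

lemma coefQ_ρ_coe (V : Subgroup G) [V.Normal] (g : G) (a : (coefQ A V).V) :
    (((coefQ A V).ρ (g : G ⧸ V) a : (coefQ A V).V) : A.V) = A.ρ g a.1 := rfl

lemma value_mem (hρ : IsDiag A H ρ) (V : Subgroup G) [V.Normal] (hVH : V ≤ H)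
    (b : (indQ A ρ V).V) (x : G ⧸ H) :
    b.1 x ∈ Representation.invariants (A.ρ.comp V.subtype) := by
  intro v
  have h1 : ρ (v : G) b.1 = b.1 := b.2 v
  have h2 := hρ.apply (v : G) b.1 x
  rw [h1, smul_coset_eq V hVH (V.inv_mem v.2)] at h2
  exact h2.symm

/-- The coefficient-at-`x` map `(Ind_H A)^V → A^V`. -/
def evLin (hρ : IsDiag A H ρ) (V : Subgroup G) [V.Normal] (hVH : V ≤ H) (x : G ⧸ H) :
    (indQ A ρ V).V →ₗ[k] (coefQ A V).V :=
  LinearMap.codRestrict _ ((Finsupp.lapply x) ∘ₗ (Submodule.subtype _))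
    (fun b => value_mem hρ V hVH b x)

lemma evLin_coe (hρ : IsDiag A H ρ) (V : Subgroup G) [V.Normal] (hVH : V ≤ H) (x : G ⧸ H)
    (b : (indQ A ρ V).V) : ((evLin hρ V hVH x b : (coefQ A V).V) : A.V) = b.1 x := rfl

lemma evLin_equivariant (hρ : IsDiag A H ρ) (V : Subgroup G) [V.Normal] (hVH : V ≤ H)
    (x : G ⧸ H) (g : G) (hg : g • x = x) (b : (indQ A ρ V).V) :
    evLin hρ V hVH x ((indQ A ρ V).ρ (g : G ⧸ V) b) =
      (coefQ A V).ρ (g : G ⧸ V) (evLin hρ V hVH x b) := by
  apply Subtype.ext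
  rw [evLin_coe, indQ_ρ_coe, coefQ_ρ_coe, evLin_coe, hρ.apply]
  have h : g⁻¹ • x = x := by
    rw [inv_smul_eq_iff, hg]
  rw [h]

/-- The coefficient-at-`x` map as a morphism of representations of a subgroup `K ≤ G ⧸ V`
fixing `x`. -/
def evHom (hρ : IsDiag A H ρ) (V : Subgroup G) [V.Normal] (hVH : V ≤ H)
    (K : Subgroup (G ⧸ V)) (x : G ⧸ H) (hK : ∀ g : G, (g : G ⧸ V) ∈ K → g • x = x) :
    Rep.res K.subtype (indQ A ρ V) ⟶ Rep.res K.subtype (coefQ A V) :=
  Rep.ofHom
    { toLinearMap := evLin hρ V hVH x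
      isIntertwining' := fun s => by
        obtain ⟨q, hq⟩ := s
        induction q using QuotientGroup.induction_on with
        | H g =>
          apply LinearMap.ext
          intro b
          exact evLin_equivariant hρ V hVH x g (hK g hq) b }

lemma evHom_hom_apply (hρ : IsDiag A H ρ) (V : Subgroup G) [V.Normal] (hVH : V ≤ H)
    (K : Subgroup (G ⧸ V)) (x : G ⧸ H) (hK : ∀ g : G, (g : G ⧸ V) ∈ K → g • x = x)
    (b : (indQ A ρ V).V) :
    (((evHom hρ V hVH K x hK).hom b : (coefQ A V).V) : A.V) = b.1 x := rfl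

/-! ### Finite Shapiro -/

lemma mem_of_mk_mem_map (V : Subgroup G) [V.Normal] (hVH : V ≤ H) {g : G}
    (hg : (g : G ⧸ V) ∈ H.map (QuotientGroup.mk' V)) : g ∈ H := by
  obtain ⟨h, hh, hhg⟩ := hg
  have h1 : h⁻¹ * g ∈ V := by
    rw [← QuotientGroup.eq]
    exact hhg
  have h2 : g = h * (h⁻¹ * g) := by group
  rw [h2]
  exact H.mul_mem hh (hVH h1)

lemma smul_one_coset_eq_of_mem {g : G} (hg : g ∈ H) :
    g • ((1 : G) : G ⧸ H) = ((1 : G) : G ⧸ H) := by
  change ((g * 1 : G) : G ⧸ H) = ((1 : G) : G ⧸ H)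
  rw [QuotientGroup.eq]
  simpa using hg

lemma fixes_one_coset (V : Subgroup G) [V.Normal] (hVH : V ≤ H) (g : G)
    (hg : (g : G ⧸ V) ∈ H.map (QuotientGroup.mk' V)) :
    g • ((1 : G) : G ⧸ H) = ((1 : G) : G ⧸ H) :=
  smul_one_coset_eq_of_mem (mem_of_mk_mem_map V hVH hg)

/-- The Shapiro map `π : Res_{H/V} (Ind_H A)^V → A^V`, coefficient at the trivial coset. -/
def shapPi (hρ : IsDiag A H ρ) (V : Subgroup G) [V.Normal] (hVH : V ≤ H) :
    Rep.res (H.map (QuotientGroup.mk' V)).subtype (indQ A ρ V) ⟶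
      Rep.res (H.map (QuotientGroup.mk' V)).subtype (coefQ A V) :=
  evHom hρ V hVH (H.map (QuotientGroup.mk' V)) ((1 : G) : G ⧸ H) (fixes_one_coset V hVH)

section recognition

variable [Finite (G ⧸ H)] (hρ : IsDiag A H ρ) (V : Subgroup G) [V.Normal] (hVH : V ≤ H)
  (f : G ⧸ V → (coefQ A V).V)
  (hf : ∀ (s : H.map (QuotientGroup.mk' V)) (g : G ⧸ V),
    f ((s : G ⧸ V) * g) = (coefQ A V).ρ (s : G ⧸ V) (f g))

/-- the values of the preimage of `f` under the Shapiro bijection -/
def shapFun (f : G ⧸ V → (coefQ A V).V) (x : G ⧸ H) : A.V :=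
  A.ρ x.out (f ((x.out⁻¹ : G) : G ⧸ V)).1

omit [Finite (G ⧸ H)] in
include hf in
lemma shapFun_mk (y : G) :
    shapFun (H := H) V f (y : G ⧸ H) = A.ρ y (f ((y⁻¹ : G) : G ⧸ V)).1 := by
  unfold shapFun
  set y' := ((y : G ⧸ H)).out with hy'
  have h1 : ((y' : G) : G ⧸ H) = (y : G ⧸ H) := QuotientGroup.out_eq' _
  have h2 : y'⁻¹ * y ∈ H := by
    rw [← QuotientGroup.eq]
    exact h1
  have h3 : ((y'⁻¹ * y : G) : G ⧸ V) ∈ H.map (QuotientGroup.mk' V) := ⟨_, h2, rfl⟩
  have h4 := hf ⟨_, h3⟩ ((y⁻¹ : G) : G ⧸ V)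
  have h5 : (((y'⁻¹ * y : G) : G ⧸ V)) * ((y⁻¹ : G) : G ⧸ V) = ((y'⁻¹ : G) : G ⧸ V) := by
    rw [← QuotientGroup.mk_mul]
    congr 1
    group
  simp only [h5] at h4
  rw [h4, coefQ_ρ_coe, ← Module.End.mul_apply, ← map_mul]
  congr 2
  group

/-- the preimage of `f` under the Shapiro bijection, as a finitely supported function -/
def shapFinsupp (f : G ⧸ V → (coefQ A V).V) : (G ⧸ H) →₀ A.V :=
  Finsupp.ofSupportFinite (shapFun (H := H) V f) (Set.toFinite _)

lemma shapFinsupp_apply (x : G ⧸ H) :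
    shapFinsupp (H := H) V f x = shapFun (H := H) V f x := rfl

include hf hρ hVH in
lemma shapFinsupp_mem :
    shapFinsupp (H := H) V f ∈
      Representation.invariants ((Rep.of ρ).ρ.comp V.subtype) := by
  intro v
  change ρ (v : G) (shapFinsupp (H := H) V f) = shapFinsupp (H := H) V f
  apply Finsupp.ext
  intro x
  rw [hρ.apply, smul_coset_eq V hVH (V.inv_mem v.2)]
  induction x using QuotientGroup.induction_on with
  | H y =>
    rw [shapFinsupp_apply, shapFun_mk V f hf y, ← Module.End.mul_apply, ← map_mul]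
    have h1 : (v : G) * y = y * (y⁻¹ * v * y) := by group
    rw [h1, map_mul, Module.End.mul_apply]
    congr 1
    exact (f ((y⁻¹ : G) : G ⧸ V)).2 ⟨y⁻¹ * v * y, Subgroup.Normal.conj_mem' inferInstance _ v.2 y⟩

include hf in
theorem shapiro_unique :
    ∃! b : (indQ A ρ V).V, ∀ g : G ⧸ V,
      (shapPi hρ V hVH).hom ((indQ A ρ V).ρ g b) = f g := by
  refine ⟨⟨shapFinsupp (H := H) V f, shapFinsupp_mem hρ V hVH f hf⟩, ?_, ?_⟩
  · intro q
    induction q using QuotientGroup.induction_on with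
    | H g =>
      apply Subtype.ext
      change (ρ g (shapFinsupp (H := H) V f)) ((1 : G) : G ⧸ H) = _
      rw [hρ.apply]
      have h1 : g⁻¹ • ((1 : G) : G ⧸ H) = ((g⁻¹ : G) : G ⧸ H) := by
        change ((g⁻¹ * 1 : G) : G ⧸ H) = _
        rw [mul_one]
      rw [h1, shapFinsupp_apply, shapFun_mk V f hf, inv_inv, ← Module.End.mul_apply, ← map_mul,
        mul_inv_cancel, map_one, Module.End.one_apply]
  · intro b' hb'
    apply Subtype.ext
    apply Finsupp.ext
    intro x
    induction x using QuotientGroup.induction_on with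
    | H y =>
      change b'.1 (y : G ⧸ H) = shapFinsupp (H := H) V f (y : G ⧸ H)
      rw [shapFinsupp_apply, shapFun_mk V f hf]
      have h1 := congrArg Subtype.val (hb' ((y⁻¹ : G) : G ⧸ V))
      change (ρ y⁻¹ b'.1) ((1 : G) : G ⧸ H) = _ at h1
      rw [hρ.apply, inv_inv] at h1
      have h2 : y • ((1 : G) : G ⧸ H) = (y : G ⧸ H) := by
        change ((y * 1 : G) : G ⧸ H) = _
        rw [mul_one]
      rw [h2] at h1
      rw [← h1, ← Module.End.mul_apply, ← map_mul, mul_inv_cancel, map_one, Module.End.one_apply]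

end recognition

/-- **Finite Shapiro for induced modules**: `Hⁿ(G ⧸ V, (Ind_H A)^V) → Hⁿ(H ⧸ V, A^V)` is
bijective. -/
theorem shapiro_ind [Finite (G ⧸ H)] (hρ : IsDiag A H ρ) (V : Subgroup G) [V.Normal]
    (hVH : V ≤ H) (n : ℕ) :
    Function.Bijective
      (groupCohomology.map (H.map (QuotientGroup.mk' V)).subtype (shapPi hρ V hVH) n).hom :=
  Fermat.Agent.S55.T.ShapiroH303.shapiroRecognition k (G ⧸ V) (H.map (QuotientGroup.mk' V))
    (Rep.res (H.map (QuotientGroup.mk' V)).subtype (coefQ A V)) (indQ A ρ V) (shapPi hρ V hVH)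
    (fun f hf => shapiro_unique hρ V hVH f hf) n

/-- The Shapiro isomorphism as an additive equivalence. -/
def shapiroEquiv [Finite (G ⧸ H)] (hρ : IsDiag A H ρ) (V : Subgroup G) [V.Normal]
    (hVH : V ≤ H) (n : ℕ) :
    groupCohomology (indQ A ρ V) n ≃+
      groupCohomology (Rep.res (H.map (QuotientGroup.mk' V)).subtype (coefQ A V)) n :=
  AddEquiv.ofBijective
    (groupCohomology.map (H.map (QuotientGroup.mk' V)).subtype
      (shapPi hρ V hVH) n).hom.toAddMonoidHom
    (shapiro_ind hρ V hVH n)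

/-! ### Restriction to a subgroup acting trivially on `G ⧸ H` -/

section trivialOnCosets

variable [Finite (G ⧸ H)] (hρ : IsDiag A H ρ) (V : Subgroup G) [V.Normal] (hVH : V ≤ H)
  (K : Subgroup (G ⧸ V)) (hK : ∀ (g : G) (x : G ⧸ H), (g : G ⧸ V) ∈ K → g • x = x)

include hρ hVH in
lemma ev_family_bijective :
    Function.Bijective
      (fun (b : (indQ A ρ V).V) (x : G ⧸ H) => evLin hρ V hVH x b) := by
  constructor
  · intro b b' h
    apply Subtype.ext
    apply Finsupp.ext
    intro x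
    exact congrArg Subtype.val (congrFun h x)
  · intro a
    have hmem : Finsupp.ofSupportFinite (fun x : G ⧸ H => ((a x : (coefQ A V).V) : A.V))
        (Set.toFinite _) ∈ Representation.invariants ((Rep.of ρ).ρ.comp V.subtype) := by
      intro v
      change ρ (v : G) _ = _
      apply Finsupp.ext
      intro x
      rw [hρ.apply, smul_coset_eq V hVH (V.inv_mem v.2)]
      exact (a x).2 v
    refine ⟨⟨_, hmem⟩, ?_⟩
    funext x
    apply Subtype.ext
    rfl

include hK hρ hVH in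
/-- If `K ≤ G ⧸ V` acts trivially on `G ⧸ H` and `Hⁿ(K, A^V) = 0` then
`Hⁿ(K, (Ind_H A)^V) = 0`. -/
theorem subsingleton_res_ind (n : ℕ)
    (h0 : Subsingleton (groupCohomology (Rep.res K.subtype (coefQ A V)) n)) :
    Subsingleton (groupCohomology (Rep.res K.subtype (indQ A ρ V)) n) := by
  have hbij := Fermat.Agent.S55.T.H415.finiteProd k K (G ⧸ H)
    (fun _ => Rep.res K.subtype (coefQ A V)) (Rep.res K.subtype (indQ A ρ V))
    (fun x => evHom hρ V hVH K x (fun g hg => hK g x hg))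
    (ev_family_bijective hρ V hVH) n
  refine ⟨fun x y => hbij.1 ?_⟩
  funext i
  exact Subsingleton.elim _ _

end trivialOnCosets

end

end Fermat.Agent.S55.KC.H475
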