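import Fermat.Agent.S55.PT.Spec

/-!
# S55 / layer KC (cochain-level Kummer machine; local A6/A4 and library for layer K): vocabulary          (architect: helper53)

Blueprint: `coord/S55-KC.md` (branch `origin/helper53`).

Layer KC produces the LOCAL inputs of layer D (`PT/Spec.lean`):
`FinLocSpec` (A2), `Surj2LocSpec` (A4) and, for ANY family `inv` of bijective maps, `TopLocIndSpec inv`
(A6), from the finite-level local class field theory of layer L (class module, Hilbert 90) and the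
finite-group toolkit of layer T (Shapiro, Tate `H³ = 0`).

Everything is phrased for an abstract group `G` with a level system `L : PT.LevelSys G`
(think `G = G_{ℚ_q}`, levels = open subgroups) and a `ℤ`-representation `B` of `G`
(think `B = ℚ̄_qˣ`, or `B = Ind_H ℚ̄_qˣ`), the "Kummer module".

* degree-3 level-constant cochains: `IsLC₃`, `IsCocycle₃`, `H3Vanish`  (`H³_lc(G, A) = 0`);
* `H1Vanish` (`H¹_lc(G, A) = 0`);
* `IsKummerEmb p M B ι` : `ι : M → B` identifies the `F_p`-representation `M` with `B[p]`;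
* `indR H B = (G ⧸ H →₀ B)` : induced module with diagonal action, over any commutative ring
  (`PT.indRep` is the same definition, but only over fields);
* `IsClassFormation L A` : finite-level class module property of `A` along the normal levels
  (Mathlib's `groupCohomology` of the finite quotients `G ⧸ V` acting on `A^V`);
* `IsWCF L B V₀ n` : "weak class formation below `V₀`": `H¹ = 0`, `H² ≅ ℤ/n(V)`, `H³ = 0` at the
  normal levels `V ≤ V₀`;
* `PFrattiniFinite L p` : every open subgroup has only finitely many open subgroups of index `p`;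
* `unitsA q` : `ℚ̄_qˣ` as a representation of the Prelude's local Galois group `Gl q`.
-/

set_option autoImplicit false

noncomputable section

namespace Fermat.Agent.S55.KC

open groupCohomology ExtCitation Fermat.Agent.S55.PT

variable {G : Type} [Group G] {k : Type} [CommRing k]

/-! ## 1. Open subgroups; level-constant cochains in degree 3 -/

/-- `H` contains a level ("`H` is open"). -/
def IsOpenSub (L : LevelSys G) (H : Subgroup G) : Prop := ∃ U ∈ L.levels, U ≤ H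

/-- Level-constant 3-cochains. -/
def IsLC₃ (L : LevelSys G) {X : Type*} (f : G × G × G → X) : Prop :=
  ∃ U ∈ L.levels, ∀ g₁ g₂ g₃ s₁ s₂ s₃ : G, s₁ ∈ U → s₂ ∈ U → s₃ ∈ U →
    f (g₁ * s₁, g₂ * s₂, g₃ * s₃) = f (g₁, g₂, g₃)

/-- The inhomogeneous 3-cocycle condition `d₃₄ f = 0`. -/
def IsCocycle₃ (A : Rep.{0, 0, 0} k G) (f : G × G × G → A) : Prop :=
  ∀ g h i j : G,
    A.ρ g (f (h, i, j)) - f (g * h, i, j) + f (g, h * i, j) - f (g, h, i * j) + f (g, h, i) = 0

/-- `H¹_lc(G, A) = 0`: every level-constant 1-cocycle is a coboundary. -/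
def H1Vanish (L : LevelSys G) (A : Rep.{0, 0, 0} k G) : Prop :=
  ∀ f : G → A, f ∈ cocycles₁ A → L.IsLC₁ f → ∃ a : A, (d₀₁ A).hom a = f

/-- `H³_lc(G, A) = 0`: every level-constant 3-cocycle is `d` of a level-constant 2-cochain. -/
def H3Vanish (L : LevelSys G) (A : Rep.{0, 0, 0} k G) : Prop :=
  ∀ z : G × G × G → A, IsLC₃ L z → IsCocycle₃ A z →
    ∃ b : G × G → A, L.IsLC₂ b ∧ (d₂₃ A).hom b = z

/-- `H²_lc(G, A)` is `p`-divisible (cochain form). -/
def H2Divisible (L : LevelSys G) (p : ℕ) (A : Rep.{0, 0, 0} k G) : Prop :=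
  ∀ a : G × G → A, a ∈ L.Z2 A → ∃ a' : G × G → A, a' ∈ L.Z2 A ∧ a - p • a' ∈ L.B2 A

/-! ## 2. Cochains inflated from a fixed normal subgroup `V` ("finite level `V`") -/

/-- 1-cochains inflated from `(G ⧸ V, A^V)`. -/
def IsAt₁ (V : Subgroup G) (A : Rep.{0, 0, 0} k G) (x : G → A) : Prop :=
  ∀ g s : G, s ∈ V → x (g * s) = x g ∧ A.ρ s (x g) = x g

/-- 2-cochains inflated from `(G ⧸ V, A^V)`. -/
def IsAt₂ (V : Subgroup G) (A : Rep.{0, 0, 0} k G) (f : G × G → A) : Prop :=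
  ∀ g h s t : G, s ∈ V → t ∈ V → f (g * s, h * t) = f (g, h) ∧ A.ρ s (f (g, h)) = f (g, h)

/-- 3-cochains inflated from `(G ⧸ V, A^V)`. -/
def IsAt₃ (V : Subgroup G) (A : Rep.{0, 0, 0} k G) (f : G × G × G → A) : Prop :=
  ∀ g h i s t u : G, s ∈ V → t ∈ V → u ∈ V →
    f (g * s, h * t, i * u) = f (g, h, i) ∧ A.ρ s (f (g, h, i)) = f (g, h, i)

/-- `H¹(G ⧸ V, A^V) = 0`, cochain form. -/
def H1VanishAt (V : Subgroup G) (A : Rep.{0, 0, 0} k G) : Prop :=
  ∀ f : G → A, f ∈ cocycles₁ A → IsAt₁ V A f →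
    ∃ a : A, (∀ s ∈ V, A.ρ s a = a) ∧ (d₀₁ A).hom a = f

/-- `[f] = 0` in `H²(G ⧸ V, A^V)`, cochain form. -/
def IsCobAt₂ (V : Subgroup G) (A : Rep.{0, 0, 0} k G) (f : G × G → A) : Prop :=
  ∃ x : G → A, IsAt₁ V A x ∧ (d₁₂ A).hom x = f

/-- `H³(G ⧸ V, A^V) = 0`, cochain form. -/
def H3VanishAt (V : Subgroup G) (A : Rep.{0, 0, 0} k G) : Prop :=
  ∀ z : G × G × G → A, IsAt₃ V A z → IsCocycle₃ A z →
    ∃ b : G × G → A, IsAt₂ V A b ∧ (d₂₃ A).hom b = z

/-- 2-cocycles inflated from `(G ⧸ V, A^V)`. -/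
def Z2At (V : Subgroup G) (A : Rep.{0, 0, 0} k G) : AddSubgroup (G × G → A) where
  carrier := {f | f ∈ cocycles₂ A ∧ IsAt₂ V A f}
  add_mem' := by
    rintro f f' ⟨hf, hf2⟩ ⟨hf', hf2'⟩
    refine ⟨(cocycles₂ A).add_mem hf hf', fun g h s t hs ht => ⟨?_, ?_⟩⟩
    · simp only [Pi.add_apply, (hf2 g h s t hs ht).1, (hf2' g h s t hs ht).1]
    · simp only [Pi.add_apply, map_add, (hf2 g h s t hs ht).2, (hf2' g h s t hs ht).2]
  zero_mem' := ⟨(cocycles₂ A).zero_mem, fun g h s t _ _ => ⟨rfl, by simp⟩⟩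
  neg_mem' := by
    rintro f ⟨hf, hf2⟩
    refine ⟨(cocycles₂ A).neg_mem hf, fun g h s t hs ht => ⟨?_, ?_⟩⟩
    · simp only [Pi.neg_apply, (hf2 g h s t hs ht).1]
    · simp only [Pi.neg_apply, map_neg, (hf2 g h s t hs ht).2]

/-- 2-coboundaries at level `V`: `d` of a 1-cochain inflated from `(G ⧸ V, A^V)`. -/
def B2At (V : Subgroup G) (A : Rep.{0, 0, 0} k G) : AddSubgroup (G × G → A) where
  carrier := {f | IsCobAt₂ V A f}
  add_mem' := by
    rintro f f' ⟨x, hx, rfl⟩ ⟨x', hx', rfl⟩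
    refine ⟨x + x', fun g s hs => ⟨?_, ?_⟩, map_add _ _ _⟩
    · simp only [Pi.add_apply, (hx g s hs).1, (hx' g s hs).1]
    · simp only [Pi.add_apply, map_add, (hx g s hs).2, (hx' g s hs).2]
  zero_mem' := ⟨0, fun g s _ => ⟨rfl, by simp⟩, map_zero _⟩
  neg_mem' := by
    rintro f ⟨x, hx, rfl⟩
    refine ⟨-x, fun g s hs => ⟨?_, ?_⟩, map_neg _ _⟩
    · simp only [Pi.neg_apply, (hx g s hs).1]
    · simp only [Pi.neg_apply, map_neg, (hx g s hs).2]

/-- `H²(G ⧸ V, A^V)` in cochain form: cocycles inflated from level `V` modulo coboundaries at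
level `V`. -/
abbrev H2At (V : Subgroup G) (A : Rep.{0, 0, 0} k G) : Type :=
  ↥(Z2At V A) ⧸ (B2At V A).addSubgroupOf (Z2At V A)

/-! ## 3. Kummer embeddings -/

/-- `B` is `p`-divisible. -/
def IsPDivisible (p : ℕ) (B : Type) [AddCommGroup B] : Prop := ∀ b : B, ∃ c : B, p • c = b

/-- `ι : M → B` is an injective equivariant additive map with image `B[p]`
(`M = μ_p`, `B = ℚ̄ˣ`). -/
structure IsKummerEmb (p : ℕ) [Fact p.Prime] (M : Rep.{0, 0, 0} (ZMod p) G)
    (B : Rep.{0, 0, 0} ℤ G) (ι : M →+ B) : Prop where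
  injective : Function.Injective ι
  equivariant : ∀ (g : G) (m : M), ι (M.ρ g m) = B.ρ g (ι m)
  range_eq : ∀ b : B, p • b = 0 ↔ b ∈ Set.range ι

/-! ## 4. Induced modules over an arbitrary commutative ring -/

section Ind

variable (H : Subgroup G) (B : Rep.{0, 0, 0} k G)

/-- the action of `g` on `G ⧸ H →₀ B`: `single x b ↦ single (g • x) (g • b)` -/
def indActR (g : G) : ((G ⧸ H) →₀ B) →ₗ[k] ((G ⧸ H) →₀ B) :=
  (Finsupp.lmapDomain B k (fun x : G ⧸ H => g • x)) ∘ₗ (Finsupp.mapRange.linearMap (B.ρ g))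

@[simp] lemma indActR_single (g : G) (x : G ⧸ H) (b : B) :
    indActR H B g (Finsupp.single x b) = Finsupp.single (g • x) (B.ρ g b) := by
  rw [indActR, LinearMap.comp_apply, Finsupp.mapRange.linearMap_apply, Finsupp.mapRange_single,
    Finsupp.lmapDomain_apply, Finsupp.mapDomain_single]

/-- the diagonal representation on `G ⧸ H →₀ B` -/
def indRhoR : Representation k G ((G ⧸ H) →₀ B) where
  toFun := indActR H B
  map_one' := by
    apply Finsupp.lhom_ext
    intro x m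
    simp
  map_mul' g h := by
    apply Finsupp.lhom_ext
    intro x m
    simp [mul_smul]

/-- `Ind_H B = (G ⧸ H →₀ B)` with the diagonal action (any commutative ring `k`). -/
abbrev indR : Rep.{0, 0, 0} k G := Rep.of (indRhoR H B)

lemma indR_ρ_single (g : G) (x : G ⧸ H) (b : B) :
    (indR H B).ρ g (Finsupp.single x b : (G ⧸ H) →₀ B) =
      (Finsupp.single (g • x) (B.ρ g b) : (G ⧸ H) →₀ B) :=
  indActR_single H B g x b

end Ind

/-- The additive map `Ind_H M → Ind_H B` induced by `ι : M → B`. -/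
def indEmb (p : ℕ) [Fact p.Prime] (H : Subgroup G) (M : Rep.{0, 0, 0} (ZMod p) G)
    (B : Rep.{0, 0, 0} ℤ G) (ι : M →+ B) : indRep H M →+ indR H B :=
  Finsupp.mapRange.addMonoidHom ι

/-! ## 5. Class formations at finite level (Mathlib's `groupCohomology` of `G ⧸ V`) -/

/-- `(G, L, A)` is a class formation: for every normal level `V` and every subgroup `H'` of the
finite group `G ⧸ V`:  `H¹(H', A^V) = 0` and `H²(H', A^V) ≅ ℤ/|H'|`.
(For `G = G_{ℚ_q}`, `A = ℚ̄_qˣ`: `G ⧸ V = Gal(E/ℚ_q)`, `A^V = Eˣ`; this is `L.ClassModuleSpec`.) -/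
def IsClassFormation (L : LevelSys G) (A : Rep.{0, 0, 0} ℤ G) : Prop :=
  ∀ (V : Subgroup G) [V.Normal], V ∈ L.levels → ∀ H' : Subgroup (G ⧸ V),
    Subsingleton (H1 (Rep.res H'.subtype (A.quotientToInvariants V))) ∧
      Nonempty (H2 (Rep.res H'.subtype (A.quotientToInvariants V)) ≃+ ZMod (Nat.card H'))

/-- `(G, L, B)` is a weak class formation below the level `V₀`, with orders `n`:
at every normal level `V ≤ V₀`:  `H¹(G ⧸ V, B^V) = 0`, `H²(G ⧸ V, B^V) ≅ ℤ/n(V)`, `n(V) > 0`,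
`H³(G ⧸ V, B^V) = 0`; and `H¹(V ⧸ V', B^{V'}) = 0` for normal levels `V' ≤ V ≤ V₀`
(so that inflation `H²(G ⧸ V, B^V) → H²(G ⧸ V', B^{V'})` is injective). -/
structure IsWCF (L : LevelSys G) (B : Rep.{0, 0, 0} ℤ G) (V₀ : Subgroup G)
    (n : Subgroup G → ℕ) : Prop where
  h1 : ∀ (V : Subgroup G) [V.Normal], V ∈ L.levels → V ≤ V₀ →
    Subsingleton (H1 (B.quotientToInvariants V))
  h1rel : ∀ (V' : Subgroup G) [V'.Normal] (V : Subgroup G) [V.Normal], V' ∈ L.levels →
    V ∈ L.levels → V' ≤ V → V ≤ V₀ →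
    Subsingleton (H1 (Rep.res (V.map (QuotientGroup.mk' V')).subtype
      (B.quotientToInvariants V')))
  h2 : ∀ (V : Subgroup G) [V.Normal], V ∈ L.levels → V ≤ V₀ →
    Nonempty (H2 (B.quotientToInvariants V) ≃+ ZMod (n V))
  npos : ∀ (V : Subgroup G) [V.Normal], V ∈ L.levels → V ≤ V₀ → 0 < n V
  h3 : ∀ (V : Subgroup G) [V.Normal], V ∈ L.levels → V ≤ V₀ →
    Subsingleton (groupCohomology (B.quotientToInvariants V) 3)

/-- The `p`-parts of the orders `n(V)`, `V ≤ V₀` normal level, are unbounded. -/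
def PUnbounded (L : LevelSys G) (p : ℕ) (V₀ : Subgroup G) (n : Subgroup G → ℕ) : Prop :=
  ∀ m : ℕ, ∃ V : Subgroup G, V ∈ L.levels ∧ V.Normal ∧ V ≤ V₀ ∧ p ^ m ∣ n V

/-! ## 6. Finiteness of the `p`-Frattini quotients -/

/-- For every level `U` there is a level `V ≤ U` killed by every level-constant function
`χ : G → F_p` which is additive on `U`
("`U` has only finitely many open subgroups of index `p`"). -/
def PFrattiniFinite (L : LevelSys G) (p : ℕ) : Prop :=
  ∀ U ∈ L.levels, ∃ V ∈ L.levels, V ≤ U ∧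
    ∀ χ : G → ZMod p, (∀ s t : G, s ∈ U → t ∈ U → χ (s * t) = χ s + χ t) → L.IsLC₁ χ →
      ∀ s ∈ V, χ s = 0

/-! ## 7. The arithmetic instance -/

/-- `ℚ̄_qˣ` (written additively) as a representation of the Prelude's local Galois group. -/
def unitsA (q : Nat.Primes) : Rep.{0, 0, 0} ℤ (Gl q) :=
  letI : Fact (q : ℕ).Prime := ⟨q.2⟩
  (Rep.ofAlgebraAutOnUnits ℚ_[(q : ℕ)] (PadicAlgCl (q : ℕ)) :
    Rep ℤ (PadicAlgCl (q : ℕ) ≃ₐ[ℚ_[(q : ℕ)]] PadicAlgCl (q : ℕ)))

end Fermat.Agent.S55.KC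

end
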