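import Fermat.Agent.S55.KC.Spec

/-!
# S55 / layer KC: ASSEMBLY  leaves ⇒ outputs          (architect: helper53)

Sorry-free proof that the leaves of `KC/Spec.lean` imply the outputs of layer KC:
`PT.FinLocSpec` (A2), `PT.Surj2LocSpec` (A4), `H2IndCardSpec`, `H2MuCardSpec`, `LocalH3VanishSpec`
and `PT.TopLocIndSpec inv` (A6) for every family of bijective maps `inv`.
-/

set_option autoImplicit false
set_option linter.style.haveILetI false

noncomputable section

namespace Fermat.Agent.S55.KC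

open groupCohomology ExtCitation Fermat.Agent.S55.PT

/-- The dictionary leaves (blocks Q and D). -/
structure DictLeaves : Prop where
  q1 : Q1Spec
  q2 : Q2Spec
  q3 : Q3Spec
  qInf : QInfSpec
  d1 : H1VanishOfAtSpec
  d2 : H2OfAtSpec
  d3 : H3VanishOfAtSpec

/-- The Kummer leaves (block K). -/
structure KummerLeaves : Prop where
  k2 : KummerH2Spec
  k3 : KummerH3Spec

/-- The arithmetic leaves (block A). -/
structure ArithLeaves : Prop where
  levels : LocalLevelsSpec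
  classFormation : LocalClassFormationSpec
  kummerEmb : LocalKummerEmbSpec
  pUnbounded : LocalPUnboundedSpec
  frattini : LocalFrattiniSpec
  mu : LocalMuSpec

/-- The leaves on induced modules (block I). -/
structure IndLeaves : Prop where
  indKummer : IndKummerSpec
  indWCF : IndWCFSpec
  selfWCF : SelfWCFSpec
  pUnboundedRel : PUnboundedRelSpec

section Abstract

variable {G : Type} [Group G] (L : LevelSys G) (p : ℕ) [Fact p.Prime]

/-- Level-constant cohomology of a weak class formation. -/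
theorem lc_of_wcf (hD : DictLeaves) (B : Rep.{0, 0, 0} ℤ G) (V₀ : Subgroup G)
    (n : Subgroup G → ℕ) (hN : L.NormalCofinal) (hF : L.FiniteIndex) (hsm : L.IsSmooth B)
    (hV₀ : V₀ ∈ L.levels) (hW : IsWCF L B V₀ n) (hU : PUnbounded L p V₀ n) :
    H1Vanish L B ∧ H3Vanish L B ∧ H2Divisible L p B ∧
      Nat.card {x : L.H2 B // p • x = 0} = p := by
  have h1 : H1Vanish L B := hD.d1 G L B V₀ hN hV₀ (fun V hV hVn hle => by
    haveI := hVn
    exact hD.q1 G B V (hW.h1 V hV hle))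
  have h3 : H3Vanish L B := hD.d3 G L B V₀ hN hF hsm hV₀ (fun V hV hVn hle => by
    haveI := hVn
    exact hD.q3 G B V (hW.h3 V hV hle))
  have h2 := hD.d2 G L p B V₀ n hN hF hsm hV₀
    (fun V hV hVn hle => by
      haveI := hVn
      exact ⟨hW.npos V hV hle, ⟨(hD.q2 G B V).some.trans (hW.h2 V hV hle).some⟩⟩)
    (fun V' V hV' hV'n hV hVn hle hle0 f hf hc => by
      haveI := hV'n
      haveI := hVn
      exact hD.qInf G B V' V hle (hW.h1rel V' V hV' hV hle hle0) f hf hc)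
    hU
  exact ⟨h1, h3, h2.1, h2.2⟩

/-- The Kummer theorem: `|H²_lc(G, M)| = p` and `H³_lc(G, M) = 0` for `M = B[p]`, `B` a
`p`-divisible weak class formation with unbounded `p`-part. -/
theorem kummer_of_wcf (hD : DictLeaves) (hK : KummerLeaves) (M : Rep.{0, 0, 0} (ZMod p) G)
    (B : Rep.{0, 0, 0} ℤ G) (ι : M →+ B) (V₀ : Subgroup G) (n : Subgroup G → ℕ)
    (hN : L.NormalCofinal) (hF : L.FiniteIndex) (hsm : L.IsSmooth B) (hdiv : IsPDivisible p B)
    (hι : IsKummerEmb p M B ι) (hV₀ : V₀ ∈ L.levels) (hW : IsWCF L B V₀ n)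
    (hU : PUnbounded L p V₀ n) :
    Nat.card (L.H2 M) = p ∧ H3Vanish L M := by
  obtain ⟨h1, h3, h2d, h2c⟩ := lc_of_wcf L p hD B V₀ n hN hF hsm hV₀ hW hU
  exact ⟨(hK.k2 G L p M B ι hN hF hsm hdiv hι h1).trans h2c,
    hK.k3 G L p M B ι hN hF hsm hdiv hι h3 h2d⟩

end Abstract

section Local

variable (p : ℕ) [Fact p.Prime]

/-- `|H²(G_q, Ind_H μ)| = p` and `H³_lc(G_q, Ind_H μ) = 0` for every open subgroup `H`. -/
theorem local_ind (hD : DictLeaves) (hK : KummerLeaves) (hI : IndLeaves) (hA : ArithLeaves)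
    (q : Nat.Primes) (H : Subgroup (Gl q)) (hH : IsOpenSub (localLevels q) H) :
    Nat.card ((localLevels q).H2 (indRep H (muLoc p q))) = p ∧
      H3Vanish (localLevels q) (indRep H (muLoc p q)) := by
  obtain ⟨hN, hF⟩ := hA.levels q
  obtain ⟨U, hU, hUH⟩ := hH
  obtain ⟨V₀, hV₀, hV₀U, -⟩ := hN U hU
  have hV₀H : V₀ ≤ H := hV₀U.trans hUH
  obtain ⟨hsm, hdiv, ι, hι⟩ := hA.kummerEmb p q
  obtain ⟨hsm', hdiv', hι'⟩ := hI.indKummer (Gl q) (localLevels q) p (muLoc p q) (unitsA q) ι H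
    hN ⟨U, hU, hUH⟩ hsm hdiv hι
  have hW := hI.indWCF (Gl q) (localLevels q) (unitsA q) H V₀ hF (hA.classFormation q) hV₀ hV₀H
  have hUn := hI.pUnboundedRel (Gl q) (localLevels q) p H V₀ hF hV₀ hV₀H (hA.pUnbounded p q V₀ hV₀)
  exact kummer_of_wcf (localLevels q) p hD hK (indRep H (muLoc p q)) (indR H (unitsA q))
    (indEmb p H (muLoc p q) (unitsA q) ι) V₀ _ hN hF hsm' hdiv' hι' hV₀ hW hUn

/-- Output: `|H²(G_q, Ind_W μ_p)| = p`. -/
theorem h2IndCard (hD : DictLeaves) (hK : KummerLeaves) (hI : IndLeaves) (hA : ArithLeaves) :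
    H2IndCardSpec := fun p _ q W hW _ => (local_ind p hD hK hI hA q W hW).1

/-- Output: `|H²(G_q, μ_p)| = p`. -/
theorem h2MuCard (hD : DictLeaves) (hK : KummerLeaves) (hI : IndLeaves) (hA : ArithLeaves) :
    H2MuCardSpec := by
  intro p _ q
  obtain ⟨hN, hF⟩ := hA.levels q
  obtain ⟨V₀, hV₀⟩ := (localLevels q).nonempty
  obtain ⟨hsm, hdiv, ι, hι⟩ := hA.kummerEmb p q
  have hW := hI.selfWCF (Gl q) (localLevels q) (unitsA q) V₀ hF (hA.classFormation q) hV₀
  exact (kummer_of_wcf (localLevels q) p hD hK (muLoc p q) (unitsA q) ι V₀ _ hN hF hsm hdiv hι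
    hV₀ hW (hA.pUnbounded p q V₀ hV₀)).1

/-- Output: `cd_p(G_{ℚ_q}) ≤ 2` in the form `H³_lc(G_q, R) = 0`. -/
theorem localH3Vanish (hP3 : H3DevissageSpec) (hD : DictLeaves) (hK : KummerLeaves)
    (hI : IndLeaves) (hA : ArithLeaves) : LocalH3VanishSpec := by
  intro p _ q R hR hRsm
  obtain ⟨hN, hF⟩ := hA.levels q
  obtain ⟨hμ1, hμsm⟩ := hA.mu p q
  exact hP3 (Gl q) (localLevels q) p (muLoc p q) hN hF hμ1 hμsm
    (fun H hH _ => (local_ind p hD hK hI hA q H hH).2) R hR hRsm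

/-- Output A4: `PT.Surj2LocSpec`. -/
theorem surj2Loc (hP2 : Surj2OfH3Spec) (hP3 : H3DevissageSpec) (hD : DictLeaves)
    (hK : KummerLeaves) (hI : IndLeaves) (hA : ArithLeaves) (S : Finset Nat.Primes) :
    Surj2LocSpec p S := by
  intro q _ P N φ hφ hP hPsm hNsm hsurj
  exact hP2 (Gl q) (localLevels q) p (hA.levels q).1
    (fun R hR hRsm => localH3Vanish hP3 hD hK hI hA p q R hR hRsm) P N φ hφ hP hPsm hNsm hsurj

/-- Output A2: `PT.FinLocSpec`. -/
theorem finLoc (hP1 : FinLocOfFrattiniSpec) (hA : ArithLeaves) (S : Finset Nat.Primes) :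
    FinLocSpec p S := by
  intro q _ N hN hNsm
  exact hP1 (Gl q) (localLevels q) p (hA.levels q).2 (hA.frattini p q) N hN hNsm

/-- Output A6: `PT.TopLocIndSpec inv` for every family of bijective maps `inv`. -/
theorem topLocInd (hP2 : Surj2OfH3Spec) (hP3 : H3DevissageSpec) (hP4 : TopLocIndOfSpec)
    (hD : DictLeaves) (hK : KummerLeaves) (hI : IndLeaves) (hA : ArithLeaves)
    (S : Finset Nat.Primes) (inv : InvFamily p S) (hinv : ∀ v : ↥S, Function.Bijective (inv v)) :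
    TopLocIndSpec inv :=
  hP4 p S inv hinv (fun v => (hA.levels v.1).2) (surj2Loc p hP2 hP3 hD hK hI hA S)
    (fun v W hW _ _ => (local_ind p hD hK hI hA v.1 W ⟨W, hW, le_rfl⟩).1)

end Local

end Fermat.Agent.S55.KC

end
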