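import Fermat.Agent.S55.KC.Spec
import Fermat.Agent.S55.Local.H374.KummerEmb

/-!
# S55 / layer KC, leaf KC-A2: `LocalKummerEmbSpec`                    (helper374)

`ℚ̄_qˣ` is smooth and `p`-divisible, and `μ_p` embeds equivariantly onto its `p`-torsion.
The proofs are in `Fermat/Agent/S55/Local/H374/KummerEmb.lean` (unfolded form); this file is
the adapter to the interface `KC/Spec.lean`.
-/

set_option autoImplicit false

namespace Fermat.Agent.S55.KC.H374

open groupCohomology ExtCitation Fermat.Agent.S55.PT Fermat.Agent.S55.KC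

/-- **KC-A2.** -/
theorem localKummerEmb : LocalKummerEmbSpec := by
  intro p _ q
  refine ⟨Fermat.Agent.S55.Local.H374.unitsQ_isSmooth q,
    Fermat.Agent.S55.Local.H374.unitsQ_divisible p (Fact.out : p.Prime).pos q, ?_⟩
  obtain ⟨ι, h1, h2, h3⟩ := Fermat.Agent.S55.Local.H374.exists_kummerEmb p q
  exact ⟨ι, ⟨h1, h2, h3⟩⟩

end Fermat.Agent.S55.KC.H374
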