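import Fermat.Agent.S55.KC.Spec

/-!
# S55 / layer KC, block K (helper918): the Kummer chases at the level of level-constant cochains

* `kummerH3 : KummerH3Spec`  (KC-K3)
* `kummerH2 : KummerH2Spec`  (KC-K2)

Setting: `B` a smooth `p`-divisible `ℤ`-representation of `G`, `ι : M → B` an injective equivariant
additive map with image `B[p]`, `M` an `F_p`-representation.  All cochains are level-constant for
a level system `L` with cofinal normal levels, all of finite index.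
-/

set_option autoImplicit false
set_option linter.style.haveILetI false
set_option linter.unusedSectionVars false
set_option linter.unnecessarySimpa false

noncomputable section

namespace Fermat.Agent.S55.KC.H918

open groupCohomology Fermat.Agent.S55.PT Fermat.Agent.S55.KC

variable {G : Type} [Group G] (L : LevelSys G)

/-! ## 1. Levels -/

/-- Finitely many levels have a common lower bound. -/
lemma exists_level_le_finset (s : Finset (Subgroup G)) (hs : ∀ U ∈ s, U ∈ L.levels) :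
    ∃ W ∈ L.levels, ∀ U ∈ s, W ≤ U := by
  classical
  induction s using Finset.induction_on with
  | empty =>
    obtain ⟨U, hU⟩ := L.nonempty
    exact ⟨U, hU, by simp⟩
  | insert a s _ ih =>
    obtain ⟨W, hW, hWs⟩ := ih (fun U hU => hs U (Finset.mem_insert_of_mem hU))
    obtain ⟨W', hW', hle⟩ := L.directed W hW a (hs a (Finset.mem_insert_self a s))
    refine ⟨W', hW', fun U hU => ?_⟩
    rcases Finset.mem_insert.mp hU with rfl | hU
    · exact fun x hx => (hle hx).2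
    · exact fun x hx => hWs U hU (hle hx).1

variable {L}

/-- The values of a level-constant 1-cochain with values in a smooth representation are fixed
by a common level (levels have finite index). -/
lemma exists_level_fix₁ (hF : L.FiniteIndex) {k : Type} [CommRing k] {B : Rep.{0, 0, 0} k G}
    (hB : L.IsSmooth B) {x : G → B} (hx : L.IsLC₁ x) :
    ∃ W ∈ L.levels, ∀ s ∈ W, ∀ g, B.ρ s (x g) = x g := by
  classical
  obtain ⟨U, hU, hxU⟩ := hx
  haveI : U.FiniteIndex := hF U hU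
  haveI : Finite (G ⧸ U) := Subgroup.finite_quotient_of_finiteIndex
  haveI : Fintype (G ⧸ U) := Fintype.ofFinite _
  choose lev hlev hfix using fun q : G ⧸ U => hB (x q.out)
  obtain ⟨W, hW, hWle⟩ := exists_level_le_finset L (Finset.univ.image lev) (by
    intro V hV
    obtain ⟨q, -, rfl⟩ := Finset.mem_image.mp hV
    exact hlev q)
  refine ⟨W, hW, fun s hs g => ?_⟩
  have hg : x g = x (g : G ⧸ U).out := by
    have h1 : ((g : G ⧸ U).out)⁻¹ * g ∈ U := by
      rw [← QuotientGroup.eq]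
      exact Quotient.out_eq' _
    have h2 : g = (g : G ⧸ U).out * (((g : G ⧸ U).out)⁻¹ * g) := by group
    conv_lhs => rw [h2]
    exact hxU _ _ h1
  rw [hg]
  exact hfix _ s (hWle _ (Finset.mem_image_of_mem lev (Finset.mem_univ _)) hs)

/-- `d a` is level-constant for `a` in a smooth representation. -/
lemma d₀₁_isLC₁_of_smooth {k : Type} [CommRing k] {B : Rep.{0, 0, 0} k G}
    (hB : L.IsSmooth B) (a : B) : L.IsLC₁ ((d₀₁ B).hom a) := by
  obtain ⟨U, hU, h⟩ := hB a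
  refine ⟨U, hU, fun g s hs => ?_⟩
  simp only [d₀₁_hom_apply, map_mul, Module.End.mul_apply, h s hs]

/-- `d x` is level-constant for a level-constant 1-cochain `x` with values in a smooth
representation. -/
lemma d₁₂_isLC₂_of_smooth (hN : L.NormalCofinal) (hF : L.FiniteIndex) {k : Type} [CommRing k]
    {B : Rep.{0, 0, 0} k G} (hB : L.IsSmooth B) {x : G → B} (hx : L.IsLC₁ x) :
    L.IsLC₂ ((d₁₂ B).hom x) := by
  obtain ⟨U, hU, h⟩ := exists_level_fix₁ hF hB hx
  obtain ⟨V, hV, hx⟩ := hx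
  obtain ⟨W, hW, hWle⟩ := L.directed U hU V hV
  obtain ⟨N, hNl, hNW, hNn⟩ := hN W hW
  refine ⟨N, hNl, fun g g' s s' hs hs' => ?_⟩
  have hsU : s ∈ U := (hWle (hNW hs)).1
  have hs'V : s' ∈ V := (hWle (hNW hs')).2
  have hconj : g'⁻¹ * s * g' ∈ N := by
    have := hNn.conj_mem s hs g'⁻¹
    simpa using this
  have hmem : g'⁻¹ * s * g' * s' ∈ V := (hWle (hNW (N.mul_mem hconj hs'))).2
  have e1 : g * s * (g' * s') = g * g' * (g'⁻¹ * s * g' * s') := by group
  simp only [d₁₂_hom_apply]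
  rw [e1, hx (g * g') _ hmem, hx g' s' hs'V, hx g s (hWle (hNW hs)).2, map_mul,
    Module.End.mul_apply, h s hsU]

/-! ## 2. Kummer tools -/

section Kummer

variable {p : ℕ} [Fact p.Prime] {M : Rep.{0, 0, 0} (ZMod p) G} {B : Rep.{0, 0, 0} ℤ G}
  {ι : M →+ B}

/-- `M` is killed by `p`. -/
lemma nsmul_eq_zero_of_zmod (m : M) : p • m = 0 := by
  have h : ((p : ℕ) : ZMod p) • m = 0 := by rw [ZMod.natCast_self, zero_smul]
  rwa [Nat.cast_smul_eq_nsmul] at h

/-- a set-theoretic `p`-th root -/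
def root (hdiv : IsPDivisible p B) (b : B) : B := Classical.choose (hdiv b)

lemma nsmul_root (hdiv : IsPDivisible p B) (b : B) : p • root hdiv b = b :=
  Classical.choose_spec (hdiv b)

/-- a set-theoretic inverse of `ι` on `B[p]` (junk value `0` elsewhere) -/
def lift (hι : IsKummerEmb p M B ι) (b : B) : M :=
  open Classical in
  if h : p • b = 0 then Classical.choose ((hι.range_eq b).mp h) else 0

lemma ι_lift (hι : IsKummerEmb p M B ι) {b : B} (h : p • b = 0) : ι (lift hι b) = b := by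
  unfold lift
  rw [dif_pos h]
  exact Classical.choose_spec ((hι.range_eq b).mp h)

lemma ι_comp_lift (hι : IsKummerEmb p M B ι) {X : Type*} {f : X → B} (h : ∀ x, p • f x = 0) :
    (fun x => ι (lift hι (f x))) = f :=
  funext fun x => ι_lift hι (h x)

lemma d₁₂_ι (hι : IsKummerEmb p M B ι) (x : G → M) :
    (d₁₂ B).hom (fun g => ι (x g)) = fun gh => ι ((d₁₂ M).hom x gh) := by
  funext gh
  simp only [d₁₂_hom_apply, map_add, map_sub, hι.equivariant]

lemma d₂₃_ι (hι : IsKummerEmb p M B ι) (f : G × G → M) :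
    (d₂₃ B).hom (fun gh => ι (f gh)) = fun ghi => ι ((d₂₃ M).hom f ghi) := by
  funext ghi
  simp only [d₂₃_hom_apply, map_add, map_sub, hι.equivariant]

lemma d₁₂_d₀₁ {k : Type} [CommRing k] (A : Rep.{0, 0, 0} k G) (a : A) :
    (d₁₂ A).hom ((d₀₁ A).hom a) = 0 := by
  have h2 := congrArg (fun f => f.hom a) (d₀₁_comp_d₁₂ A)
  simpa using h2

lemma d₂₃_d₁₂ {k : Type} [CommRing k] (A : Rep.{0, 0, 0} k G) (x : G → A) :
    (d₂₃ A).hom ((d₁₂ A).hom x) = 0 := by
  have h2 := congrArg (fun f => f.hom x) (d₁₂_comp_d₂₃ A)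
  simpa using h2

/-- the cocycle condition in degree 3 for `d b` -/
lemma isCocycle₃_ι (hι : IsKummerEmb p M B ι) {z : G × G × G → M} (hz : IsCocycle₃ M z) :
    IsCocycle₃ B (fun x => ι (z x)) := by
  intro g h i j
  have := congrArg ι (hz g h i j)
  simpa only [map_add, map_sub, map_zero, hι.equivariant] using this

end Kummer

/-! ## 3. KC-K3 -/

/-- **KC-K3.** -/
theorem kummerH3 : KummerH3Spec := by
  intro G _ L p _ M B ι hN hF hB hdiv hι h3 h2
  intro z hzLC hz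
  -- step 1: `ι ∘ z = d b₀`
  have hzLC' : IsLC₃ L (fun x => ι (z x)) := by
    obtain ⟨U, hU, h⟩ := hzLC
    exact ⟨U, hU, fun g₁ g₂ g₃ s₁ s₂ s₃ h₁ h₂ h₃ => by
      simp only [h g₁ g₂ g₃ s₁ s₂ s₃ h₁ h₂ h₃]⟩
  obtain ⟨b₀, hb₀LC, hb₀⟩ := h3 _ hzLC' (isCocycle₃_ι hι hz)
  -- step 2: `p • b₀` is a level-constant 2-cocycle
  have hpb₀ : p • b₀ ∈ L.Z2 B := by
    refine ⟨?_, (L.C2 B).smul_of_tower_mem p hb₀LC⟩
    show (d₂₃ B).hom (p • b₀) = 0
    rw [map_nsmul, hb₀]
    funext x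
    simp only [Pi.smul_apply, ← map_nsmul, nsmul_eq_zero_of_zmod, map_zero]
    rfl
  -- step 3: divisibility of `H²`
  obtain ⟨a', ha', c, hc, hca⟩ := h2 _ hpb₀
  -- step 4: `c = p • c₁`
  set c₁ : G → B := fun g => root hdiv (c g) with hc₁
  have hc₁LC : L.IsLC₁ c₁ := LevelSys.IsLC₁.comp hc (root hdiv)
  have hpc₁ : p • c₁ = c := funext fun g => nsmul_root hdiv (c g)
  -- step 5: `b'' = b₀ - a' - d c₁` is killed by `p`
  set b'' : G × G → B := b₀ - a' - (d₁₂ B).hom c₁ with hb''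
  have hb''LC : L.IsLC₂ b'' :=
    (L.C2 B).sub_mem ((L.C2 B).sub_mem hb₀LC ha'.2) (d₁₂_isLC₂_of_smooth hN hF hB hc₁LC)
  have hpb'' : ∀ x, p • b'' x = 0 := by
    intro x
    have h1 : p • b'' = p • b₀ - p • a' - (d₁₂ B).hom c := by
      rw [hb'', smul_sub, smul_sub, ← map_nsmul, hpc₁]
    have h2' : p • b'' = 0 := by rw [h1, ← hca, sub_self]
    simpa using congrFun h2' x
  refine ⟨fun x => lift hι (b'' x), LevelSys.IsLC₂.comp hb''LC (lift hι), ?_⟩
  -- step 6: `d r = z`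
  funext x
  apply hι.injective
  have h1 := congrFun (d₂₃_ι hι (fun x => lift hι (b'' x))) x
  simp only at h1
  rw [← h1, ι_comp_lift hι hpb'', hb'', map_sub, map_sub, d₂₃_d₁₂, sub_zero, hb₀]
  have ha'' : (d₂₃ B).hom a' = 0 := ha'.1
  rw [ha'', sub_zero]

/-! ## 4. KC-K2 -/

section K2

variable {p : ℕ} [Fact p.Prime] {M : Rep.{0, 0, 0} (ZMod p) G} {B : Rep.{0, 0, 0} ℤ G}
  {ι : M →+ B}

lemma mem_Z2_ι (hι : IsKummerEmb p M B ι) {m : G × G → M} (hm : m ∈ L.Z2 M) :
    (fun gh => ι (m gh)) ∈ L.Z2 B := by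
  refine ⟨?_, LevelSys.IsLC₂.comp hm.2 ι⟩
  show (d₂₃ B).hom (fun gh => ι (m gh)) = 0
  have h0 : (d₂₃ M).hom m = 0 := hm.1
  rw [d₂₃_ι hι, h0]
  funext x
  exact map_zero ι

lemma mem_B2_ι (hι : IsKummerEmb p M B ι) {m : G × G → M} (hm : m ∈ L.B2 M) :
    (fun gh => ι (m gh)) ∈ L.B2 B := by
  obtain ⟨x, hx, rfl⟩ := hm
  exact ⟨fun g => ι (x g), LevelSys.IsLC₁.comp hx ι, d₁₂_ι hι x⟩

variable (L) in
/-- `ι_*` on level-constant 2-cocycles -/
def pushZ (hι : IsKummerEmb p M B ι) : ↥(L.Z2 M) →+ ↥(L.Z2 B) where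
  toFun m := ⟨fun gh => ι (m.1 gh), mem_Z2_ι hι m.2⟩
  map_zero' := by
    apply Subtype.ext
    funext gh
    exact map_zero ι
  map_add' m m' := by
    apply Subtype.ext
    funext gh
    exact map_add ι _ _

lemma H2π_eq_iff {k : Type} [CommRing k] (A : Rep.{0, 0, 0} k G) (c c' : ↥(L.Z2 A)) :
    L.H2π A c = L.H2π A c' ↔ (c : G × G → A) - (c' : G × G → A) ∈ L.B2 A := by
  rw [← sub_eq_zero, ← map_sub, LevelSys.H2π_eq_zero_iff]
  rfl

variable (L) in
/-- `ι_* : H²_lc(G, M) → H²_lc(G, B)` (defined through a choice of representatives) -/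
def pushH (hι : IsKummerEmb p M B ι) (x : L.H2 M) : L.H2 B :=
  L.H2π B (pushZ L hι (Classical.choose (L.H2π_surjective M x)))

lemma pushH_mk (hι : IsKummerEmb p M B ι) (m : ↥(L.Z2 M)) :
    pushH L hι (L.H2π M m) = L.H2π B (pushZ L hι m) := by
  unfold pushH
  have h := Classical.choose_spec (L.H2π_surjective M (L.H2π M m))
  rw [H2π_eq_iff] at h ⊢
  have := mem_B2_ι hι h
  convert this using 1
  funext gh
  simp only [pushZ, AddMonoidHom.coe_mk, ZeroHom.coe_mk, Pi.sub_apply, map_sub]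

/-- injectivity chase -/
lemma mem_B2_of_ι_mem_B2 (_hF : L.FiniteIndex) (hB : L.IsSmooth B)
    (hdiv : IsPDivisible p B) (hι : IsKummerEmb p M B ι) (h1 : H1Vanish L B)
    {m : G × G → M} (hm : (fun gh => ι (m gh)) ∈ L.B2 B) : m ∈ L.B2 M := by
  obtain ⟨b, hbLC, hb⟩ := hm
  -- `p • b` is a level-constant 1-cocycle
  have hpb : p • b ∈ cocycles₁ B := by
    show (d₁₂ B).hom (p • b) = 0
    rw [map_nsmul, hb]
    funext x
    simp only [Pi.smul_apply, ← map_nsmul, nsmul_eq_zero_of_zmod, map_zero]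
    rfl
  obtain ⟨a₀, ha₀⟩ := h1 (p • b) hpb ((L.C1 B).smul_of_tower_mem p hbLC)
  set a₁ : B := root hdiv a₀ with ha₁
  set b' : G → B := b - (d₀₁ B).hom a₁ with hb'
  have hb'LC : L.IsLC₁ b' := (L.C1 B).sub_mem hbLC (d₀₁_isLC₁_of_smooth hB a₁)
  have hpb' : ∀ g, p • b' g = 0 := by
    intro g
    have e1 : p • b' = p • b - (d₀₁ B).hom a₀ := by
      rw [hb', smul_sub, ← map_nsmul, ha₁, nsmul_root]
    have e2 : p • b' = 0 := by rw [e1, ha₀, sub_self]
    simpa using congrFun e2 g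
  refine ⟨fun g => lift hι (b' g), LevelSys.IsLC₁.comp hb'LC (lift hι), ?_⟩
  funext x
  apply hι.injective
  have e := congrFun (d₁₂_ι hι (fun g => lift hι (b' g))) x
  simp only at e
  rw [← e, ι_comp_lift hι hpb', hb', map_sub, d₁₂_d₀₁, sub_zero, hb]

/-- surjectivity chase -/
lemma exists_Z2_of_nsmul_mem_B2 (hN : L.NormalCofinal) (hF : L.FiniteIndex) (hB : L.IsSmooth B)
    (hdiv : IsPDivisible p B) (hι : IsKummerEmb p M B ι)
    {a : G × G → B} (ha : a ∈ L.Z2 B) (hpa : p • a ∈ L.B2 B) :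
    ∃ m : G × G → M, m ∈ L.Z2 M ∧ a - (fun gh => ι (m gh)) ∈ L.B2 B := by
  obtain ⟨b, hbLC, hb⟩ := hpa
  set b₁ : G → B := fun g => root hdiv (b g) with hb₁
  have hb₁LC : L.IsLC₁ b₁ := LevelSys.IsLC₁.comp hbLC (root hdiv)
  have hpb₁ : p • b₁ = b := funext fun g => nsmul_root hdiv (b g)
  set a'' : G × G → B := a - (d₁₂ B).hom b₁ with ha''
  have ha''LC : L.IsLC₂ a'' := (L.C2 B).sub_mem ha.2 (d₁₂_isLC₂_of_smooth hN hF hB hb₁LC)
  have hpa'' : ∀ x, p • a'' x = 0 := by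
    intro x
    have e1 : p • a'' = p • a - (d₁₂ B).hom b := by
      rw [ha'', smul_sub, ← map_nsmul, hpb₁]
    have e2 : p • a'' = 0 := by rw [e1, hb, sub_self]
    simpa using congrFun e2 x
  have hιm : (fun gh => ι (lift hι (a'' gh))) = a'' := ι_comp_lift hι hpa''
  refine ⟨fun gh => lift hι (a'' gh), ⟨?_, LevelSys.IsLC₂.comp ha''LC (lift hι)⟩, ?_⟩
  · show (d₂₃ M).hom (fun gh => lift hι (a'' gh)) = 0
    funext x
    apply hι.injective
    have e := congrFun (d₂₃_ι hι (fun gh => lift hι (a'' gh))) x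
    simp only at e
    have ha0 : (d₂₃ B).hom a = 0 := ha.1
    rw [← e, hιm, ha'', map_sub, d₂₃_d₁₂, sub_zero, ha0]
    exact (map_zero ι).symm
  · rw [hιm, ha'', sub_sub_cancel]
    exact ⟨b₁, hb₁LC, rfl⟩

end K2

/-- **KC-K2.** -/
theorem kummerH2 : KummerH2Spec := by
  intro G _ L p _ M B ι hN hF hB hdiv hι h1
  have hΦ : ∀ x : L.H2 M, p • pushH L hι x = 0 := fun x => by
    obtain ⟨m, rfl⟩ := L.H2π_surjective M x
    rw [pushH_mk, ← map_nsmul, ← map_nsmul]
    have hpm : p • m = 0 := by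
      have h : ((p : ℕ) : ZMod p) • m = 0 := by rw [ZMod.natCast_self, zero_smul]
      rwa [Nat.cast_smul_eq_nsmul] at h
    rw [hpm, map_zero, map_zero]
  refine Nat.card_eq_of_bijective (fun x => (⟨pushH L hι x, hΦ x⟩ : {x : L.H2 B // p • x = 0}))
    ⟨?_, ?_⟩
  · -- injective
    intro x y hxy
    have hxy' : pushH L hι x = pushH L hι y := congrArg Subtype.val hxy
    obtain ⟨m, rfl⟩ := L.H2π_surjective M x
    obtain ⟨m', rfl⟩ := L.H2π_surjective M y
    rw [pushH_mk, pushH_mk, H2π_eq_iff] at hxy'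
    rw [H2π_eq_iff]
    apply mem_B2_of_ι_mem_B2 hF hB hdiv hι h1
    convert hxy' using 1
    funext gh
    simp only [pushZ, AddMonoidHom.coe_mk, ZeroHom.coe_mk, Pi.sub_apply, map_sub]
  · -- surjective
    rintro ⟨y, hy⟩
    obtain ⟨a, rfl⟩ := L.H2π_surjective B y
    have hpa : p • (a : G × G → B) ∈ L.B2 B := by
      rw [← map_nsmul, LevelSys.H2π_eq_zero_iff] at hy
      exact hy
    obtain ⟨m, hm, hma⟩ := exists_Z2_of_nsmul_mem_B2 hN hF hB hdiv hι a.2 hpa
    refine ⟨L.H2π M ⟨m, hm⟩, Subtype.ext ?_⟩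
    show pushH L hι (L.H2π M ⟨m, hm⟩) = L.H2π B a
    rw [pushH_mk, eq_comm, H2π_eq_iff]
    exact hma

end Fermat.Agent.S55.KC.H918

end
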