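import Fermat.Agent.S55.KC.Spec

/-!
# S55 / layer KC, leaf KC-P2 (`Surj2OfH3Spec`)          (helper998)

`H³_lc(G, R) = 0` for all finite `R` ⇒ `H²_lc(G, −)` is right exact.

Proof: lift a level-constant 2-cocycle `n` with values in `N` to the level-constant cochain
`ñ = sec ∘ n` (`sec` a linear section of `φ`); `d ñ` is a level-constant 3-cocycle with values in
`ker φ`; write `d ñ = d r` with `r` level-constant with values in `ker φ`; then `ñ − r` is a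
level-constant cocycle lifting `n`.
-/

set_option autoImplicit false

noncomputable section

namespace Fermat.Agent.S55.KC.H998

open groupCohomology Fermat.Agent.S55.PT Fermat.Agent.S55.KC

variable {G : Type} [Group G] {k : Type} [Field k]

/-- `d₂₃` of a level-constant 2-cochain with values in a uniformly smooth module is a
level-constant 3-cochain (normal levels cofinal). -/
lemma isLC₃_d₂₃ (L : LevelSys G) (hNC : L.NormalCofinal) (P : Rep.{0, 0, 0} k G)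
    (hP : L.IsUSmooth P) (f : G × G → P) (hf : L.IsLC₂ f) :
    IsLC₃ L ((d₂₃ P).hom f) := by
  obtain ⟨U₁, hU₁, h₁⟩ := hP
  obtain ⟨U₂, hU₂, h₂⟩ := hf
  obtain ⟨W, hW, hWle⟩ := L.directed U₁ hU₁ U₂ hU₂
  obtain ⟨V, hV, hVW, hVn⟩ := hNC W hW
  have hV₁ : ∀ s ∈ V, s ∈ U₁ := fun s hs => (hWle (hVW hs)).1
  have hV₂ : ∀ s ∈ V, s ∈ U₂ := fun s hs => (hWle (hVW hs)).2
  have hconj : ∀ (a s : G), s ∈ V → a⁻¹ * s * a ∈ V := fun a s hs => by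
    have := hVn.conj_mem s hs a⁻¹
    simpa using this
  refine ⟨V, hV, fun g₁ g₂ g₃ s₁ s₂ s₃ hs₁ hs₂ hs₃ => ?_⟩
  rw [d₂₃_hom_apply, d₂₃_hom_apply]
  simp only
  have e1 : P.ρ (g₁ * s₁) (f (g₂ * s₂, g₃ * s₃)) = P.ρ g₁ (f (g₂, g₃)) := by
    rw [h₂ g₂ g₃ s₂ s₃ (hV₂ _ hs₂) (hV₂ _ hs₃), map_mul, Module.End.mul_apply,
      h₁ s₁ (hV₁ _ hs₁)]
  have e2 : f (g₁ * s₁ * (g₂ * s₂), g₃ * s₃) = f (g₁ * g₂, g₃) := by
    have : g₁ * s₁ * (g₂ * s₂) = g₁ * g₂ * (g₂⁻¹ * s₁ * g₂ * s₂) := by group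
    rw [this]
    exact h₂ _ _ _ _ (hV₂ _ (V.mul_mem (hconj g₂ s₁ hs₁) hs₂)) (hV₂ _ hs₃)
  have e3 : f (g₁ * s₁, g₂ * s₂ * (g₃ * s₃)) = f (g₁, g₂ * g₃) := by
    have : g₂ * s₂ * (g₃ * s₃) = g₂ * g₃ * (g₃⁻¹ * s₂ * g₃ * s₃) := by group
    rw [this]
    exact h₂ _ _ _ _ (hV₂ _ hs₁) (hV₂ _ (V.mul_mem (hconj g₃ s₂ hs₂) hs₃))
  have e4 : f (g₁ * s₁, g₂ * s₂) = f (g₁, g₂) := h₂ _ _ _ _ (hV₂ _ hs₁) (hV₂ _ hs₂)
  rw [e1, e2, e3, e4]

/-- `d ∘ d = 0` in degree `2 → 3 → 4`, pointwise. -/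
lemma d₂₃_cocycle₃ (P : Rep.{0, 0, 0} k G) (f : G × G → P) (g h i j : G) :
    P.ρ g ((d₂₃ P).hom f (h, i, j)) - (d₂₃ P).hom f (g * h, i, j) + (d₂₃ P).hom f (g, h * i, j)
      - (d₂₃ P).hom f (g, h, i * j) + (d₂₃ P).hom f (g, h, i) = 0 := by
  simp only [d₂₃_hom_apply, map_add, map_sub, mul_assoc]
  have : P.ρ g (P.ρ h (f (i, j))) = P.ρ (g * h) (f (i, j)) := by
    rw [map_mul, Module.End.mul_apply]
  rw [this]
  abel

/-- **KC-P2.** -/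
theorem surj2OfH3 : Surj2OfH3Spec := by
  intro G _ L p _ hNC hH3 P N φ hφ hPfd hPs hNs hsurj y
  have hφ' : ∀ (g : G) (a : P), φ (P.ρ g a) = N.ρ g (φ a) := hφ
  obtain ⟨n, rfl⟩ := L.H2π_surjective N y
  obtain ⟨sec, hsec⟩ := φ.exists_rightInverse_of_surjective (LinearMap.range_eq_top.2 hsurj)
  have hsec' : ∀ x : N, φ (sec x) = x := fun x => LinearMap.congr_fun hsec x
  -- the lifted cochain
  set ñ : G × G → P := sec ∘ (n : G × G → N) with hñ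
  have hñLC : L.IsLC₂ ñ := LevelSys.IsLC₂.comp n.2.2 sec
  have hφñ : φ ∘ ñ = (n : G × G → N) := by
    funext x
    exact hsec' _
  -- its coboundary
  set z0 : G × G × G → P := (d₂₃ P).hom ñ with hz0def
  have hz0 : ∀ x, φ (z0 x) = 0 := by
    intro x
    have h1 : φ ∘ z0 = (d₂₃ N).hom (φ ∘ ñ) := (push_d₂₃ φ hφ ñ).symm
    have h2 : (d₂₃ N).hom (n : G × G → N) = 0 := n.2.1
    rw [hφñ, h2] at h1
    exact congrFun h1 x
  -- as a cochain with values in the kernel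
  let z : G × G × G → kerRep φ hφ := fun x => ⟨z0 x, LinearMap.mem_ker.2 (hz0 x)⟩
  have hzLC : IsLC₃ L z := by
    obtain ⟨V, hV, h⟩ := isLC₃_d₂₃ L hNC P hPs ñ hñLC
    exact ⟨V, hV, fun g₁ g₂ g₃ s₁ s₂ s₃ hs₁ hs₂ hs₃ =>
      Subtype.ext (h g₁ g₂ g₃ s₁ s₂ s₃ hs₁ hs₂ hs₃)⟩
  have hzcoc : IsCocycle₃ (kerRep φ hφ) z := by
    intro g h i j
    apply Subtype.ext
    exact d₂₃_cocycle₃ P ñ g h i j
  have hKfd : FiniteDimensional (ZMod p) (kerRep φ hφ) :=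
    (inferInstance : FiniteDimensional (ZMod p) ↥(LinearMap.ker φ))
  have hKs : L.IsUSmooth (kerRep φ hφ) := by
    obtain ⟨U, hU, h⟩ := hPs
    exact ⟨U, hU, fun s hs a => Subtype.ext (h s hs (a : P))⟩
  obtain ⟨r, hrLC, hr⟩ := hH3 (kerRep φ hφ) hKfd hKs z hzLC hzcoc
  -- the corrected cocycle
  have hir : (d₂₃ P).hom (kerIncl φ ∘ r) = z0 := by
    rw [push_d₂₃ (A := kerRep φ hφ) (B := P) (kerIncl φ) (kerIncl_equivariant φ hφ) r, hr]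
    rfl
  have hn'Z : ñ - kerIncl φ ∘ r ∈ L.Z2 P := by
    refine ⟨?_, ?_⟩
    · show (d₂₃ P).hom (ñ - kerIncl φ ∘ r) = 0
      rw [map_sub, hir]
      exact sub_self _
    · exact (L.C2 P).sub_mem hñLC (LevelSys.IsLC₂.comp hrLC (kerIncl φ))
  refine ⟨L.H2π P ⟨ñ - kerIncl φ ∘ r, hn'Z⟩, ?_⟩
  rw [pushH2_mk]
  congr 1
  apply Subtype.ext
  rw [coe_pushZ2]
  funext x
  show φ (ñ x - kerIncl φ (r x)) = (n : G × G → N) x
  rw [map_sub]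
  have h0 : φ (kerIncl φ (r x)) = 0 := LinearMap.mem_ker.1 (r x).2
  rw [h0, sub_zero]
  exact hsec' _

end Fermat.Agent.S55.KC.H998

end
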