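import Fermat.Agent.S55.KC.Spec

/-!
# S55 / layer KC, leaf KC-P4 (`TopLocIndOfSpec`)          (helper998)

A6 from right exactness (A4) and the cardinality of `H²(G_v, Ind_W μ)`, for ANY family of
bijective maps `inv_v`.

Proof: `aug_* : H²(G_v, Ind_W μ) → H²(G_v, μ)` is surjective by A4, so `inv_v ∘ aug_*` is a
surjective map from a set with `p` elements onto `ZMod p`; hence it is bijective.
-/

set_option autoImplicit false

noncomputable section

namespace Fermat.Agent.S55.KC.H998

open groupCohomology ExtCitation Fermat.Agent.S55.PT Fermat.Agent.S55.KC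

/-- A normal subgroup `U` acting trivially on `N` acts trivially on `Ind_U N`. -/
lemma indRep_triv_of_normal {k : Type} [Field k] {G : Type} [Group G] (U : Subgroup G)
    (N : Rep.{0, 0, 0} k G) [hU : U.Normal] (hN : ∀ u ∈ U, N.ρ u = 1) (u : G) (hu : u ∈ U)
    (a : indRep U N) : (indRep U N).ρ u a = a := by
  have key : indAct U N u = LinearMap.id := by
    apply Finsupp.lhom_ext
    intro x n
    induction x using QuotientGroup.induction_on with
    | H b =>
      rw [indAct_single, hN u hu, Module.End.one_apply, LinearMap.id_apply]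
      congr 1
      show ((u * b : G) : G ⧸ U) = (b : G ⧸ U)
      rw [QuotientGroup.eq]
      have : (u * b)⁻¹ * b = b⁻¹ * u⁻¹ * b := by group
      rw [this]
      have h := hU.conj_mem u⁻¹ (U.inv_mem hu) b⁻¹
      simpa using h
  exact LinearMap.congr_fun key a

/-- **KC-P4.** -/
theorem topLocIndOf : TopLocIndOfSpec := by
  intro p _ S inv hinv hFI hSurj hcard v W hW hWn hμ
  have : W.Normal := hWn
  have : W.FiniteIndex := hFI v W hW
  have : Finite (Gl v.1 ⧸ W) := Subgroup.finite_quotient_of_finiteIndex
  -- `Ind_W μ` is finite-dimensional and uniformly smooth, `μ` is uniformly smooth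
  have hPfd : FiniteDimensional (ZMod p) (indRep W (muLoc p v.1)) := by
    have : FiniteDimensional (ZMod p) (muLoc p v.1) :=
      (inferInstance : FiniteDimensional (ZMod p) (ZMod p))
    exact (inferInstance : FiniteDimensional (ZMod p) ((Gl v.1 ⧸ W) →₀ (muLoc p v.1)))
  have hPs : (localLevels v.1).IsUSmooth (indRep W (muLoc p v.1)) :=
    ⟨W, hW, fun s hs a => indRep_triv_of_normal W (muLoc p v.1) hμ s hs a⟩
  have hNs : (localLevels v.1).IsUSmooth (muLoc p v.1) :=
    ⟨W, hW, fun s hs a => by rw [hμ s hs]; rfl⟩
  have hs : Function.Surjective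
      (pushH2 (A := indRep W (muLoc p v.1)) (B := muLoc p v.1) (indAug W (muLoc p v.1))
        (indAug_equivariant W (muLoc p v.1)) (localLevels v.1)) :=
    hSurj v.1 v.2 (indRep W (muLoc p v.1)) (muLoc p v.1) (indAug W (muLoc p v.1))
      (indAug_equivariant W (muLoc p v.1)) hPfd hPs hNs (indAug_surjective W (muLoc p v.1))
  have hc : Nat.card ((localLevels v.1).H2 (indRep W (muLoc p v.1))) = p :=
    hcard v W hW hWn hμ
  have : Finite ((localLevels v.1).H2 (indRep W (muLoc p v.1))) :=
    Nat.finite_of_card_ne_zero (by rw [hc]; exact (Fact.out : p.Prime).ne_zero)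
  have hsurj : Function.Surjective ((inv v) ∘ₗ
      pushH2 (A := indRep W (muLoc p v.1)) (B := muLoc p v.1) (indAug W (muLoc p v.1))
        (indAug_equivariant W (muLoc p v.1)) (localLevels v.1)) := by
    rw [LinearMap.coe_comp]
    exact (hinv v).surjective.comp hs
  refine hsurj.bijective_of_nat_card_le ?_
  rw [hc, Nat.card_zmod]

end Fermat.Agent.S55.KC.H998

end
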